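/-
Reduction of a function field along finitely many valuations, and gluing data for its special
fibre.

`MultiReduction A F k Fb` records finitely many valuation subrings `V i` of `F` over the valuation
subring `A` of the constants, with residual function fields `Fb i / k`, jointly surjective
reduction, and a function `x` whose residual degrees add up to its degree.

`R.spFibre W` is the image in `Π i, Fb i` of the integral part of a space of functions `W`;
`R.polarSp N` is the space of functions with poles bounded by `N` times the pole divisor of `x`,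
`R.polarFibre N` its analogue on the components.

`Gluing R` records a finite set `B` of branches (places of the components away from the poles of
`x`), the point `pt b` below each branch, and the properties of the special fibres
`spFibre (polarSp N)` which pin down the singular curve: values match at each point, a conductor,
every assignment of values to points occurs, saturation.
-/
import Fermat.Prelude.Def_AlgebraicCurve_IsCurveOver
import Fermat.Prelude.Def_AlgebraicCurve_Repartitions
import Fermat.Agent.Curve.BasicInstances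
import Fermat.Agent.Curve.ModelDef
import Mathlib.Algebra.Ring.Pi
import Mathlib.LinearAlgebra.Pi

set_option autoImplicit false

noncomputable section

namespace Fermat.Agent.Bad

open AlgebraicCurve IntermediateField Fermat.Agent.Curve

universe uK uF uι uk uFb

/-- Reduction of `F/K` along finitely many valuations extending `A`. -/
structure MultiReduction {K : Type uK} [Field K] (A : ValuationSubring K)
    (F : Type uF) [Field F] [Algebra K F] {ι : Type uι} [Fintype ι]
    (k : Type uk) [Field k] (Fb : ι → Type uFb) [∀ i, Field (Fb i)]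
    [∀ i, Algebra k (Fb i)] where
  /-- the reduction of constants -/
  π : A →+* k
  π_surjective : Function.Surjective π
  /-- the valuations -/
  V : ι → ValuationSubring F
  mem_V_iff : ∀ (i : ι) (a : K), algebraMap K F a ∈ V i ↔ a ∈ A
  /-- the reduction to the component `i` -/
  φ : ∀ i, V i →+* Fb i
  φ_algebraMap : ∀ (i : ι) (a : A),
    φ i ⟨algebraMap K F a, (mem_V_iff i a).2 a.2⟩ = algebraMap k (Fb i) (π a)
  /-- reductions can be prescribed on all components at once -/
  exists_lift : ∀ h : ∀ i, Fb i, ∃ f : F, ∃ hf : ∀ i, f ∈ V i, ∀ i, φ i ⟨f, hf i⟩ = h i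
  /-- every non-zero function can be scaled to have non-zero reduction on a given component -/
  exists_scale : ∀ (i : ι) (f : F), f ≠ 0 → ∃ c : K, ∃ h : c • f ∈ V i, φ i ⟨c • f, h⟩ ≠ 0
  /-- a function without loss of degree -/
  x : F
  x_mem : ∀ i, x ∈ V i
  x_transcendental : ∀ i, Transcendental k (φ i ⟨x, x_mem i⟩)
  degree_eq : Module.finrank K⟮x⟯ F
    = ∑ i, Module.finrank k⟮φ i ⟨x, x_mem i⟩⟯ (Fb i)
  degree_pos : ∀ i, 0 < Module.finrank k⟮φ i ⟨x, x_mem i⟩⟯ (Fb i)
  nonempty : Nonempty ι

section PlaceValue

variable {k : Type uk} [Field k] {E : Type uFb} [Field E] [Algebra k E]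

open Classical in
/-- The value of a function at a place (junk `0` where the function is not regular). -/
def placeValue (v : Place k E) (f : E) : k :=
  if h : f ∈ v.toValuationSubring then
    Function.invFun (algebraMap k v.ResidueField) (IsLocalRing.residue _ ⟨f, h⟩)
  else 0

end PlaceValue

variable {K : Type uK} [Field K] {A : ValuationSubring K}
  {F : Type uF} [Field F] [Algebra K F] {ι : Type uι} [Fintype ι]
  {k : Type uk} [Field k] {Fb : ι → Type uFb} [∀ i, Field (Fb i)] [∀ i, Algebra k (Fb i)]

namespace MultiReduction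

variable (R : MultiReduction A F k Fb)

/-- The reduction of `x` on the component `i`. -/
def xb (i : ι) : Fb i := R.φ i ⟨R.x, R.x_mem i⟩

/-- Functions integral for all the valuations. -/
def integers : Subring F := ⨅ i, (R.V i).toSubring

theorem mem_integers {f : F} : f ∈ R.integers ↔ ∀ i, f ∈ R.V i := by
  simp [integers, Subring.mem_iInf]

theorem x_mem_integers : R.x ∈ R.integers := R.mem_integers.2 R.x_mem

/-- The reduction to all components. -/
def red : R.integers →+* ∀ i, Fb i :=
  Pi.ringHom fun i => (R.φ i).comp (Subring.inclusion (iInf_le (fun i => (R.V i).toSubring) i))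

theorem red_apply (f : R.integers) (i : ι) :
    R.red f i = R.φ i ⟨f, R.mem_integers.1 f.2 i⟩ := rfl

theorem red_surjective : Function.Surjective R.red := fun h => by
  obtain ⟨f, hf, hh⟩ := R.exists_lift h
  exact ⟨⟨f, R.mem_integers.2 hf⟩, funext fun i => by rw [R.red_apply]; exact hh i⟩

theorem algebraMap_mem_integers (a : A) : algebraMap K F a ∈ R.integers :=
  R.mem_integers.2 fun i => (R.mem_V_iff i a).2 a.2

theorem smul_mem_integers (a : A) {f : F} (hf : f ∈ R.integers) :
    (a : K) • f ∈ R.integers := by
  rw [Algebra.smul_def]; exact mul_mem (R.algebraMap_mem_integers a) hf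

theorem red_algebraMap (a : A) :
    R.red ⟨algebraMap K F a, R.algebraMap_mem_integers a⟩
      = algebraMap k (∀ i, Fb i) (R.π a) :=
  funext fun i => R.φ_algebraMap i a

theorem red_smul (a : A) (f : R.integers) :
    R.red ⟨(a : K) • (f : F), R.smul_mem_integers a f.2⟩ = R.π a • R.red f := by
  rw [Algebra.smul_def (R.π a), ← R.red_algebraMap, ← map_mul]
  exact congrArg _ (Subtype.ext (Algebra.smul_def _ _))

/-- The special fibre of a space of functions. -/
def spFibre (W : Submodule K F) : Submodule k (∀ i, Fb i) where
  carrier := {y | ∃ f : R.integers, (f : F) ∈ W ∧ R.red f = y}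
  zero_mem' := ⟨0, W.zero_mem, map_zero _⟩
  add_mem' := by
    rintro _ _ ⟨f, hf, rfl⟩ ⟨g, hg, rfl⟩
    exact ⟨f + g, W.add_mem hf hg, map_add _ _ _⟩
  smul_mem' := by
    rintro c _ ⟨f, hf, rfl⟩
    obtain ⟨a, rfl⟩ := R.π_surjective c
    exact ⟨⟨(a : K) • (f : F), R.smul_mem_integers a f.2⟩, W.smul_mem _ hf, R.red_smul a f⟩

theorem mem_spFibre {W : Submodule K F} {y : ∀ i, Fb i} :
    y ∈ R.spFibre W ↔ ∃ f : R.integers, (f : F) ∈ W ∧ R.red f = y := Iff.rfl

theorem spFibre_mono {W W' : Submodule K F} (h : W ≤ W') : R.spFibre W ≤ R.spFibre W' := by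
  rintro y ⟨f, hf, rfl⟩
  exact ⟨f, h hf, rfl⟩

variable [IsFunctionFieldOne K F]

/-- The pole divisor of `x`. -/
def poleX : Divisor K F := poleDivisor K R.x

/-- Functions with poles bounded by `N` times the pole divisor of `x`. -/
def polarSp (N : ℕ) : Submodule K F := riemannRochSpace (N • R.poleX)

/-- Functions with poles bounded by `N • poleX + D`. -/
def twistSp (D : Divisor K F) (N : ℕ) : Submodule K F := riemannRochSpace (N • R.poleX + D)

variable [∀ i, IsFunctionFieldOne k (Fb i)]

/-- Tuples of functions on the components with poles bounded by `N` times those of `x`. -/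
def polarFibre (N : ℕ) : Submodule k (∀ i, Fb i) :=
  Submodule.pi Set.univ fun i => riemannRochSpace (N • poleDivisor k (R.xb i))

theorem mem_polarFibre {N : ℕ} {h : ∀ i, Fb i} :
    h ∈ R.polarFibre N ↔ ∀ i, h i ∈ riemannRochSpace (N • poleDivisor k (R.xb i)) := by
  simp [polarFibre]

/-- The value of a tuple at a branch. -/
def bval (b : Σ i, Place k (Fb i)) (h : ∀ i, Fb i) : k := placeValue b.2 (h b.1)

/-- `h` vanishes to order `r` at the branch `b`. -/
def VanishesAt (b : Σ i, Place k (Fb i)) (r : ℕ) (h : ∀ i, Fb i) : Prop :=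
  h b.1 = 0 ∨ (r : ℤ) ≤ b.2.ord (h b.1)

end MultiReduction

open MultiReduction

/-- The singular points of the special fibre of a `MultiReduction`: finitely many branches, the
points below them, and the properties of the special fibres of the spaces `polarSp N`. -/
structure Gluing [IsFunctionFieldOne K F] [∀ i, IsFunctionFieldOne k (Fb i)]
    (R : MultiReduction A F k Fb) where
  /-- the branches -/
  B : Finset (Σ i, Place k (Fb i))
  /-- the type of points -/
  Pt : Type
  /-- the point below a branch -/
  pt : ↥B → Pt
  regular : ∀ b ∈ B, 0 ≤ b.2.ord (R.xb b.1)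
  meets : ∀ i, ∃ b ∈ B, b.1 = i
  /-- order of the conductor -/
  order : ℕ
  /-- degree from which the special fibres are saturated -/
  bound : ℕ
  matched : ∀ (N : ℕ), ∀ h ∈ R.spFibre (R.polarSp N), ∀ b b' : ↥B, pt b = pt b' →
    bval (b : Σ i, Place k (Fb i)) h = bval (b' : Σ i, Place k (Fb i)) h
  conductor : ∀ N, bound ≤ N → ∀ h ∈ R.polarFibre N,
    (∀ b ∈ B, VanishesAt b order h) → h ∈ R.spFibre (R.polarSp N)
  realise : ∀ d : Pt → k, ∃ N, ∃ h ∈ R.spFibre (R.polarSp N),
    ∀ b : ↥B, bval (b : Σ i, Place k (Fb i)) h = d (pt b)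
  saturated : ∀ N M, bound ≤ N → ∀ h ∈ R.spFibre (R.polarSp M),
    h ∈ R.polarFibre N → h ∈ R.spFibre (R.polarSp N)

namespace Gluing

variable [IsFunctionFieldOne K F] [∀ i, IsFunctionFieldOne k (Fb i)]
  {R : MultiReduction A F k Fb} (G : Gluing R)

/-- Constants on the components times constants at the points, as functions on the branches. -/
def trivialData : ((ι → kˣ) × (G.Pt → kˣ)) →* (↥G.B → kˣ) where
  toFun p b := p.1 (b : Σ i, Place k (Fb i)).1 * p.2 (G.pt b)
  map_one' := funext fun b => by simp
  map_mul' p q := funext fun b => by simp [mul_mul_mul_comm]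

/-- Gluing data: functions on the branches modulo constants on components and on points. -/
abbrev Data : Type _ := (↥G.B → kˣ) ⧸ G.trivialData.range

/-- The class of a function on the branches. -/
def mkData (γ : ↥G.B → kˣ) : Additive G.Data := Additive.ofMul (QuotientGroup.mk γ)

theorem mkData_mul (γ δ : ↥G.B → kˣ) : G.mkData (γ * δ) = G.mkData γ + G.mkData δ := rfl

theorem mkData_one : G.mkData 1 = 0 := rfl

theorem mkData_eq_zero_iff {γ : ↥G.B → kˣ} :
    G.mkData γ = 0 ↔ ∃ (a : ι → kˣ) (d : G.Pt → kˣ),
      ∀ b, γ b = a (b : Σ i, Place k (Fb i)).1 * d (G.pt b) := by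
  show Additive.ofMul (QuotientGroup.mk γ : G.Data) = Additive.ofMul 1 ↔ _
  rw [Additive.ofMul.apply_eq_iff_eq, QuotientGroup.eq_one_iff]
  constructor
  · rintro ⟨⟨a, d⟩, rfl⟩
    exact ⟨a, d, fun b => rfl⟩
  · rintro ⟨a, d, h⟩
    exact ⟨⟨a, d⟩, funext fun b => (h b).symm⟩

end Gluing

variable [IsFunctionFieldOne K F] [∀ i, IsFunctionFieldOne k (Fb i)]

/-- `(D, f)` is a normal form of an `n`-torsion class: `n D = div f` and all reductions of `f` are
non-zero constants. -/
structure NormalForm (R : MultiReduction A F k Fb) (n : ℕ) (D : Divisor K F) (f : F) :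
    Prop where
  degree_zero : Divisor.degree D = 0
  ne_zero : f ≠ 0
  ord_eq : ∀ v : Place K F, (n : ℤ) * D v = v.ord f
  mem : ∀ i, f ∈ R.V i
  const : ∀ i, ∃ c : k, c ≠ 0 ∧ R.φ i ⟨f, mem i⟩ = algebraMap k (Fb i) c

/-- `z` moves the divisor of a normal form away from the branches of `G`. -/
structure Moves {R : MultiReduction A F k Fb} (G : Gluing R) (D : Divisor K F) (N : ℕ) (z : F) :
    Prop where
  mem : z ∈ R.integers
  mem_twist : z ∈ R.twistSp D N
  value_ne_zero : ∀ b ∈ G.B, bval b (R.red ⟨z, mem⟩) ≠ 0

/-- The gluing function of `z`: its values at the branches. -/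
def Moves.values {R : MultiReduction A F k Fb} {G : Gluing R} {D : Divisor K F} {N : ℕ} {z : F}
    (h : Moves G D N z) : ↥G.B → kˣ := fun b => Units.mk0 _ (h.value_ne_zero b b.2)

/-- An `n`-torsion class which extends as a line bundle to the special fibre and is trivial on
every component. -/
def IsGood {R : MultiReduction A F k Fb} (G : Gluing R) (n : ℕ) (c : Pic0 K F) : Prop :=
  ∃ (D : Divisor.degZero (K := K) (F := F)) (f : F) (N : ℕ) (z : F),
    Pic0.mk D = c ∧ NormalForm R n (D : Divisor K F) f ∧ Moves G (D : Divisor K F) N z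

end Fermat.Agent.Bad

end
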