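/-
Lattices of a `MultiReduction`: scaling, units, bases reducing to bases, dimension of the special
fibre of a space of functions.
-/
import Fermat.Agent.Bad.GluingDefs
import Fermat.Agent.Curve.ReductionLattice

set_option autoImplicit false

noncomputable section

namespace Fermat.Agent.Bad.MultiReduction

open AlgebraicCurve IntermediateField Fermat.Agent.Curve
open scoped IntermediateField.algebraAdjoinAdjoin

universe uK uF uι uk uFb

variable {K : Type uK} [Field K] {A : ValuationSubring K}
  {F : Type uF} [Field F] [Algebra K F] {ι : Type uι} [Fintype ι]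
  {k : Type uk} [Field k] {Fb : ι → Type uFb} [∀ i, Field (Fb i)] [∀ i, Algebra k (Fb i)]
  (R : MultiReduction A F k Fb)

theorem φ_surjective (i : ι) : Function.Surjective (R.φ i) := fun y => by
  classical
  obtain ⟨f, hf, hfy⟩ := R.exists_lift (Function.update 0 i y)
  exact ⟨⟨f, hf i⟩, (hfy i).trans (Function.update_self ..)⟩

include R in
/-- the residual field of constants of an algebraically closed field is algebraically closed -/
theorem isAlgClosed_residue [IsAlgClosed K] : IsAlgClosed k := by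
  refine IsAlgClosed.of_exists_root _ fun p hp hirr => ?_
  have hlift : p ∈ Polynomial.lifts R.π := by
    rw [Polynomial.lifts_iff_coeff_lifts]
    exact fun n => R.π_surjective _
  obtain ⟨q, hq, hdeg, hmon⟩ := Polynomial.lifts_and_degree_eq_and_monic hlift hp
  have hd : (q.map (algebraMap A K)).degree ≠ 0 := by
    rw [hmon.degree_map, hdeg]
    exact (Polynomial.degree_pos_of_irreducible hirr).ne'
  obtain ⟨z, hz⟩ := IsAlgClosed.exists_root _ hd
  have hint : IsIntegral A z := ⟨q, hmon, by
    rwa [Polynomial.IsRoot.def, Polynomial.eval_map] at hz⟩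
  obtain ⟨a, ha⟩ := IsIntegrallyClosed.isIntegral_iff.1 hint
  refine ⟨R.π a, ?_⟩
  rw [← hq, Polynomial.eval_map]
  · have hqa : Polynomial.eval₂ (RingHom.id A) a q = 0 := by
      apply Subtype.coe_injective
      have := hz
      rw [Polynomial.IsRoot.def, Polynomial.eval_map, ← ha,
        Polynomial.eval₂_at_apply] at this
      simpa using this
    have h := congrArg R.π hqa
    rw [map_zero, Polynomial.hom_eval₂, RingHom.comp_id] at h
    exact h

theorem π_eq_zero_iff (a : A) : R.π a = 0 ↔ ¬ IsUnit a := by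
  haveI := RingHom.ker_isMaximal_of_surjective R.π R.π_surjective
  rw [← RingHom.mem_ker, IsLocalRing.eq_maximalIdeal (I := RingHom.ker R.π) inferInstance,
    IsLocalRing.mem_maximalIdeal, mem_nonunits_iff]

theorem π_eq_zero_iff_mem (a : A) : R.π a = 0 ↔ a ∈ IsLocalRing.maximalIdeal A := by
  rw [R.π_eq_zero_iff, IsLocalRing.mem_maximalIdeal, mem_nonunits_iff]

theorem φ_eq_zero_iff (i : ι) (f : R.V i) : R.φ i f = 0 ↔ ¬ IsUnit f := by
  haveI := RingHom.ker_isMaximal_of_surjective (R.φ i) (R.φ_surjective i)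
  rw [← RingHom.mem_ker, IsLocalRing.eq_maximalIdeal (I := RingHom.ker (R.φ i)) inferInstance,
    IsLocalRing.mem_maximalIdeal, mem_nonunits_iff]

theorem inv_mem_V {i : ι} {f : R.V i} (hf : R.φ i f ≠ 0) : ((f : F))⁻¹ ∈ R.V i := by
  obtain ⟨u, hu⟩ : IsUnit f := not_not.1 (mt (R.φ_eq_zero_iff i f).2 hf)
  have h1 : ((u : R.V i) : F) * ((↑u⁻¹ : R.V i) : F) = 1 := by
    rw [← MulMemClass.coe_mul, ← Units.val_mul, mul_inv_cancel]
    rfl
  rw [← hu, inv_eq_of_mul_eq_one_right h1]
  exact (↑u⁻¹ : R.V i).2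

theorem red_ne_zero_of_ne {f : R.integers} {i : ι} (hf : R.red f i ≠ 0) : (f : F) ≠ 0 :=
  fun h => hf (by rw [show f = 0 from Subtype.ext h, map_zero]; rfl)

/-- Units of the semi-local ring: all reductions non-zero. -/
theorem inv_mem_integers {f : R.integers} (hf : ∀ i, R.red f i ≠ 0) :
    ((f : F))⁻¹ ∈ R.integers :=
  R.mem_integers.2 fun i => R.inv_mem_V (f := ⟨f, R.mem_integers.1 f.2 i⟩) (hf i)

theorem red_inv {f : R.integers} (hf : ∀ i, R.red f i ≠ 0) (i : ι) :
    R.red ⟨((f : F))⁻¹, R.inv_mem_integers hf⟩ i = (R.red f i)⁻¹ := by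
  refine eq_inv_of_mul_eq_one_left ?_
  rw [← Pi.mul_apply, ← map_mul, show (⟨((f : F))⁻¹, R.inv_mem_integers hf⟩ : R.integers) * f = 1
    from Subtype.ext (inv_mul_cancel₀ (R.red_ne_zero_of_ne (hf i))), map_one, Pi.one_apply]

/-- every non-zero function can be scaled to be integral with non-zero reduction -/
theorem exists_scale_integers (f : F) (hf : f ≠ 0) :
    ∃ c : K, ∃ h : c • f ∈ R.integers, R.red ⟨c • f, h⟩ ≠ 0 := by
  classical
  choose c hc hcφ using fun i => R.exists_scale i f hf
  haveI := R.nonempty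
  have hc0 : ∀ i, c i ≠ 0 := fun i h => hcφ i (by
    rw [show (⟨c i • f, hc i⟩ : R.V i) = 0 from Subtype.ext (by simp [h]), map_zero])
  obtain ⟨j, -, hj⟩ := Finset.univ.exists_min_image (fun i => A.valuation (c i))
    Finset.univ_nonempty
  have hle : ∀ i, c j / c i ∈ A := fun i => by
    rw [← A.valuation_le_one_iff, map_div₀]
    exact div_le_one_of_le₀ (hj i (Finset.mem_univ i)) zero_le
  have hmem : c j • f ∈ R.integers := R.mem_integers.2 fun i => by
    rw [show c j • f = algebraMap K F (c j / c i) * (c i • f) by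
      rw [Algebra.smul_def, Algebra.smul_def, ← mul_assoc, ← map_mul, div_mul_cancel₀ _ (hc0 i)]]
    exact mul_mem ((R.mem_V_iff i _).2 (hle i)) (hc i)
  exact ⟨c j, hmem, fun h => hcφ j (congrFun h j)⟩

/-- an integral function with zero reduction is a small multiple of an integral function -/
theorem exists_eq_smul_of_red_eq_zero {f : R.integers} (hf : R.red f = 0) :
    ∃ a : A, a ∈ IsLocalRing.maximalIdeal A ∧ ∃ g : R.integers, (f : F) = (a : K) • (g : F) := by
  rcases eq_or_ne (f : F) 0 with h0 | h0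
  · exact ⟨0, zero_mem _, 0, by simp [h0]⟩
  obtain ⟨c, hc, hcne⟩ := R.exists_scale_integers _ h0
  have hc0 : c ≠ 0 := fun h => hcne (by
    rw [show (⟨c • (f : F), hc⟩ : R.integers) = 0 from Subtype.ext (by simp [h]), map_zero])
  have hcA : c ∉ A := fun hA => hcne (by
    rw [R.red_smul ⟨c, hA⟩ f, hf, smul_zero])
  have hinv : c⁻¹ ∈ A := (A.mem_or_inv_mem c).resolve_left hcA
  refine ⟨⟨c⁻¹, hinv⟩, ?_, ⟨_, hc⟩, ?_⟩
  · rw [IsLocalRing.mem_maximalIdeal, mem_nonunits_iff]
    rintro ⟨u, hu⟩
    apply hcA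
    have h1 : ((u : A) : K) * ((↑u⁻¹ : A) : K) = 1 := by
      rw [← MulMemClass.coe_mul, ← Units.val_mul, mul_inv_cancel]
      rfl
    rw [hu] at h1
    have : ((↑u⁻¹ : A) : K) = c := by
      have h1' : c⁻¹ * ((↑u⁻¹ : A) : K) = 1 := h1
      rw [eq_inv_of_mul_eq_one_right h1', inv_inv]
    exact this ▸ (↑u⁻¹ : A).2
  · show (f : F) = c⁻¹ • (c • (f : F))
    rw [smul_smul, inv_mul_cancel₀ hc0, one_smul]

theorem red_sum_smul {I : Type*} (s : Finset I) (c : I → A) (e : I → R.integers)
    (h : ∑ i ∈ s, ((c i : A) : K) • ((e i : R.integers) : F) ∈ R.integers) :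
    R.red ⟨∑ i ∈ s, ((c i : A) : K) • ((e i : R.integers) : F), h⟩
      = ∑ i ∈ s, R.π (c i) • R.red (e i) := by
  have : (⟨∑ i ∈ s, ((c i : A) : K) • ((e i : R.integers) : F), h⟩ : R.integers) =
      ∑ i ∈ s, ⟨((c i : A) : K) • ((e i : R.integers) : F),
        R.smul_mem_integers (c i) (e i).2⟩ := by
    apply Subtype.ext
    simp
  rw [this, map_sum]
  exact Finset.sum_congr rfl fun i _ => R.red_smul _ _

/-- lifts of independent reductions have integral coordinates -/
theorem coeff_mem_of_sum_mem {I : Type*} {e : I → R.integers}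
    (he : LinearIndependent k (fun i => R.red (e i))) (s : Finset I) (c : I → K)
    (h : ∑ i ∈ s, c i • ((e i : R.integers) : F) ∈ R.integers) : ∀ i ∈ s, c i ∈ A := by
  intro i hi
  by_contra hci
  have hci0 : c i ≠ 0 := fun h0 => hci (h0 ▸ A.zero_mem)
  obtain ⟨j, hj, hj0, hall⟩ := GoodReduction.exists_scale_family (A := A) s c hi hci0
  have hjA : c j ∉ A := fun hjA => hci (by
    have := mul_mem hjA (hall i hi)
    rwa [← mul_assoc, mul_inv_cancel₀ hj0, one_mul] at this)
  have hjinv : (c j)⁻¹ ∈ A := (A.mem_or_inv_mem (c j)).resolve_left hjA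
  have hsmall : R.π ⟨(c j)⁻¹, hjinv⟩ = 0 := by
    rw [R.π_eq_zero_iff]
    rintro ⟨u, hu⟩
    apply hjA
    have h1 : ((u : A) : K) * ((↑u⁻¹ : A) : K) = 1 := by
      rw [← MulMemClass.coe_mul, ← Units.val_mul, mul_inv_cancel]
      rfl
    rw [hu] at h1
    have : ((↑u⁻¹ : A) : K) = c j := by
      have h1' : (c j)⁻¹ * ((↑u⁻¹ : A) : K) = 1 := h1
      rw [eq_inv_of_mul_eq_one_right h1', inv_inv]
    exact this ▸ (↑u⁻¹ : A).2
  classical
  let c' : I → A := fun l => if hl : l ∈ s then ⟨(c j)⁻¹ * c l, hall l hl⟩ else 0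
  have hc' : ∀ l ∈ s, ((c' l : A) : K) = (c j)⁻¹ * c l := fun l hl => by simp [c', hl]
  have heq : ∑ l ∈ s, ((c' l : A) : K) • ((e l : R.integers) : F) =
      (c j)⁻¹ • ∑ l ∈ s, c l • ((e l : R.integers) : F) := by
    rw [Finset.smul_sum]
    exact Finset.sum_congr rfl fun l hl => by rw [hc' l hl, mul_smul]
  have hmem : ∑ l ∈ s, ((c' l : A) : K) • ((e l : R.integers) : F) ∈ R.integers := by
    rw [heq]
    exact R.smul_mem_integers ⟨_, hjinv⟩ h
  have hzero : ∑ l ∈ s, R.π (c' l) • R.red (e l) = 0 := by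
    rw [← R.red_sum_smul s c' e hmem]
    have : (⟨_, hmem⟩ : R.integers) =
        ⟨((⟨(c j)⁻¹, hjinv⟩ : A) : K) • ∑ l ∈ s, c l • ((e l : R.integers) : F),
          R.smul_mem_integers ⟨_, hjinv⟩ h⟩ := Subtype.ext heq
    rw [this]
    exact (R.red_smul ⟨_, hjinv⟩ ⟨_, h⟩).trans (by rw [hsmall, zero_smul])
  have hj1 : R.π (c' j) = 0 := linearIndependent_iff'.1 he s _ hzero j hj
  have hj2 : c' j = 1 := Subtype.ext (by rw [hc' j hj, inv_mul_cancel₀ hj0]; rfl)
  rw [hj2, map_one] at hj1
  exact one_ne_zero hj1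

/-- lifts of independent reductions are independent -/
theorem linearIndependent_lift {I : Type*} {e : I → R.integers}
    (he : LinearIndependent k (fun i => R.red (e i))) :
    LinearIndependent K (fun i => ((e i : R.integers) : F)) := by
  classical
  rw [linearIndependent_iff']
  intro s c hsum i hi
  by_contra hci
  obtain ⟨j, hj, hj0, hall⟩ := GoodReduction.exists_scale_family (A := A) s c hi hci
  let c' : I → A := fun l => if hl : l ∈ s then ⟨(c j)⁻¹ * c l, hall l hl⟩ else 0
  have hc' : ∀ l ∈ s, ((c' l : A) : K) = (c j)⁻¹ * c l := fun l hl => by simp [c', hl]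
  have heq : ∑ l ∈ s, ((c' l : A) : K) • ((e l : R.integers) : F) = 0 := by
    have : ∑ l ∈ s, ((c' l : A) : K) • ((e l : R.integers) : F) =
        (c j)⁻¹ • ∑ l ∈ s, c l • ((e l : R.integers) : F) := by
      rw [Finset.smul_sum]
      exact Finset.sum_congr rfl fun l hl => by rw [hc' l hl, mul_smul]
    rw [this, hsum, smul_zero]
  have hmem : ∑ l ∈ s, ((c' l : A) : K) • ((e l : R.integers) : F) ∈ R.integers := by
    rw [heq]; exact zero_mem _
  have hzero : ∑ l ∈ s, R.π (c' l) • R.red (e l) = 0 := by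
    rw [← R.red_sum_smul s c' e hmem, ← map_zero R.red]
    exact congrArg _ (Subtype.ext heq)
  have hj1 : R.π (c' j) = 0 := linearIndependent_iff'.1 he s _ hzero j hj
  have hj2 : c' j = 1 := Subtype.ext (by rw [hc' j hj, inv_mul_cancel₀ hj0]; rfl)
  rw [hj2, map_one] at hj1
  exact one_ne_zero hj1

theorem red_x (i : ι) : R.red ⟨R.x, R.x_mem_integers⟩ i = R.xb i := rfl

/-- The number of an element of the residual bases. -/
abbrev Idx : Type uι :=
  Σ i, Fin (Module.finrank k⟮R.xb i⟯ (Fb i))

open Classical in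
/-- A basis element on one component, zero on the others. -/
def blockVec (p : R.Idx) : ∀ i, Fb i :=
  haveI : Module.Finite k⟮R.xb p.1⟯ (Fb p.1) := Module.finite_of_finrank_pos (R.degree_pos p.1)
  Function.update 0 p.1 (Module.finBasis k⟮R.xb p.1⟯ (Fb p.1) p.2)

theorem linearIndependent_blockVec {p : ∀ i, Fb i} (hp : ∀ i, p i ≠ 0) :
    LinearIndependent k (fun q : ℕ × R.Idx =>
      p * ((fun i => R.xb i) ^ q.1 * R.blockVec q.2)) := by
  classical
  rw [linearIndependent_iff']
  intro s c hsum
  have hcomp : ∀ i, ∀ q ∈ s, q.2.1 = i → c q = 0 := by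
    intro i
    haveI : Module.Finite k⟮R.xb i⟯ (Fb i) := Module.finite_of_finrank_pos (R.degree_pos i)
    have hb := GoodReduction.linearIndependent_pow_mul (R.x_transcendental i)
      (Module.finBasis k⟮R.xb i⟯ (Fb i)).linearIndependent
    let emb : ℕ × Fin (Module.finrank k⟮R.xb i⟯ (Fb i)) ↪ ℕ × R.Idx :=
      ⟨fun q => (q.1, ⟨i, q.2⟩), fun q r h => by
        simp only [Prod.mk.injEq, Sigma.mk.injEq, heq_eq_eq, true_and] at h
        exact Prod.ext h.1 h.2⟩
    let t : Finset (ℕ × Fin (Module.finrank k⟮R.xb i⟯ (Fb i))) :=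
      s.preimage emb emb.injective.injOn
    have hz : ∀ q ∈ t, c (emb q) = 0 := by
      apply linearIndependent_iff'.1 hb t (fun q => c (emb q))
      have h1 := congrFun hsum i
      simp only [Finset.sum_apply, Pi.smul_apply, Pi.mul_apply, Pi.pow_apply, Pi.zero_apply] at h1
      rw [← Finset.sum_subset (Finset.filter_subset (fun q => q.2.1 = i) s) (fun q hq hne => by
        simp only [Finset.mem_filter, hq, true_and] at hne
        rw [blockVec, Function.update_of_ne (Ne.symm hne)]
        simp)] at h1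
      have himg : s.filter (fun q => q.2.1 = i) = t.map emb := by
        ext ⟨m, ⟨j, l⟩⟩
        simp only [Finset.mem_filter, Finset.mem_map, t, Finset.mem_preimage]
        constructor
        · rintro ⟨h, rfl⟩
          exact ⟨(m, l), h, rfl⟩
        · rintro ⟨q, h, he⟩
          have he2 : i = j := congrArg (fun r : ℕ × R.Idx => r.2.1) he
          exact ⟨he ▸ h, he2.symm⟩
      rw [himg, Finset.sum_map] at h1
      have h2 : p i * ∑ q ∈ t, c (emb q) •
          (R.xb i ^ q.1 * Module.finBasis k⟮R.xb i⟯ (Fb i) q.2) = 0 := by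
        rw [Finset.mul_sum, ← h1]
        refine Finset.sum_congr rfl fun q _ => ?_
        simp [emb, blockVec, mul_smul_comm]
      exact (mul_eq_zero.1 h2).resolve_left (hp i)
    rintro ⟨m, ⟨j, l⟩⟩ hq rfl
    exact hz (m, l) (by simpa [t, emb] using hq)
  exact fun q hq => hcomp q.2.1 q hq rfl

/-- subspaces of a space with an orthonormal family have orthonormal bases -/
theorem exists_family_of_le_span {I : Type*} {E : I → R.integers}
    (hE : LinearIndependent k (fun i => R.red (E i))) :
    ∀ (d : ℕ) (W : Submodule K F), FiniteDimensional K W → Module.finrank K W = d →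
      W ≤ Submodule.span K (Set.range fun i => ((E i : R.integers) : F)) →
      ∃ e : Fin d → R.integers, (∀ i, ((e i : R.integers) : F) ∈ W) ∧
        LinearIndependent k (fun i => R.red (e i)) := by
  classical
  have hK := R.linearIndependent_lift hE
  intro d
  induction d with
  | zero => exact fun W _ _ _ => ⟨Fin.elim0, fun i => i.elim0, linearIndependent_empty_type⟩
  | succ d ih =>
    intro W _ hd hW
    have hWne : W ≠ ⊥ := fun h => by rw [h, finrank_bot] at hd; omega
    obtain ⟨w₀, hw₀, hw₀0⟩ := W.exists_mem_ne_zero_of_ne_bot hWne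
    obtain ⟨a, ha, haφ⟩ := R.exists_scale_integers w₀ hw₀0
    let w : R.integers := ⟨a • w₀, ha⟩
    have hwW : (w : F) ∈ W := W.smul_mem a hw₀
    have key : ∀ (f : R.integers) (hf : (f : F) ∈ W), ∃ c : I → A,
        (∀ l, ((c l : A) : K) = hK.repr ⟨(f : F), hW hf⟩ l) ∧
        R.red f = ∑ l ∈ (hK.repr ⟨(f : F), hW hf⟩).support, R.π (c l) • R.red (E l) := by
      intro f hf
      set L := hK.repr ⟨(f : F), hW hf⟩ with hL
      have hrep : ∑ l ∈ L.support, L l • ((E l : R.integers) : F) = (f : F) := by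
        have := hK.linearCombination_repr ⟨(f : F), hW hf⟩
        rwa [Finsupp.linearCombination_apply, Finsupp.sum] at this
      have hmem : ∀ l, L l ∈ A := by
        intro l
        by_cases hl : l ∈ L.support
        · exact R.coeff_mem_of_sum_mem hE L.support (fun l => L l) (hrep ▸ f.2) l hl
        · rw [Finsupp.notMem_support_iff.1 hl]; exact A.zero_mem
      refine ⟨fun l => ⟨L l, hmem l⟩, fun l => rfl, ?_⟩
      rw [← R.red_sum_smul L.support (fun l => ⟨L l, hmem l⟩) E (hrep ▸ f.2)]
      exact congrArg _ (Subtype.ext hrep.symm)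
    obtain ⟨c, hc, hφw⟩ := key w hwW
    obtain ⟨i, his, hi⟩ : ∃ i ∈ (hK.repr ⟨(w : F), hW hwW⟩).support, R.π (c i) ≠ 0 := by
      by_contra hall
      push Not at hall
      apply haφ
      show R.red w = 0
      rw [hφw]
      exact Finset.sum_eq_zero fun l hl => by rw [hall l hl, zero_smul]
    let coord : W →ₗ[K] K :=
      (Finsupp.lapply i).comp (hK.repr.comp (Submodule.inclusion hW))
    have hcoordw : coord ⟨w, hwW⟩ ≠ 0 := by
      show hK.repr ⟨(w : F), hW hwW⟩ i ≠ 0
      exact Finsupp.mem_support_iff.1 his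
    have hker : Module.finrank K (LinearMap.ker coord) = d := by
      have h := LinearMap.finrank_range_add_finrank_ker coord
      rw [LinearMap.range_eq_top.2 (LinearMap.surjective (fun h => hcoordw (by rw [h]; rfl))),
        finrank_top, Module.finrank_self, hd] at h
      omega
    let W₀ : Submodule K F := (LinearMap.ker coord).map W.subtype
    have hW₀d : Module.finrank K W₀ = d := by
      rw [← hker]
      exact ((Submodule.equivMapOfInjective _ W.injective_subtype _).finrank_eq).symm
    have hW₀le : W₀ ≤ W := Submodule.map_subtype_le W _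
    obtain ⟨e, heW, he⟩ := ih W₀ inferInstance hW₀d (hW₀le.trans hW)
    have heS : ∀ l, R.red (e l) ∈
        Submodule.span k ((fun j => R.red (E j)) '' {j | j ≠ i}) := by
      intro l
      obtain ⟨c', hc', hφ'⟩ := key (e l) (hW₀le (heW l))
      rw [hφ']
      refine Submodule.sum_mem _ fun j _ => ?_
      by_cases hji : j = i
      · subst hji
        obtain ⟨⟨v, hv⟩, hvker, hveq⟩ := Submodule.mem_map.1 (heW l)
        have h0 : coord ⟨((e l : R.integers) : F), hW₀le (heW l)⟩ = 0 := by
          have : (⟨((e l : R.integers) : F), hW₀le (heW l)⟩ : W) = ⟨v, hv⟩ :=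
            Subtype.ext hveq.symm
          rw [this]; exact hvker
        have : c' j = 0 := Subtype.ext (by rw [hc' j]; exact h0)
        rw [this, map_zero, zero_smul]
        exact zero_mem _
      · exact Submodule.smul_mem _ _ (Submodule.subset_span ⟨j, hji, rfl⟩)
    refine ⟨Fin.cons w e, ?_, ?_⟩
    · intro l
      refine Fin.cases ?_ (fun m => ?_) l
      · simpa using hwW
      · simpa using hW₀le (heW m)
    have hcons : (fun l => R.red ((Fin.cons w e : Fin (d + 1) → R.integers) l)) =
        Fin.cons (R.red w) (fun m => R.red (e m)) := by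
      funext l
      exact Fin.cases (by simp) (fun m => by simp) l
    rw [hcons, linearIndependent_finCons]
    refine ⟨he, fun hmem => hE.notMem_span_image (s := {j | j ≠ i}) (x := i) (by simp) ?_⟩
    have hle : Submodule.span k (Set.range fun m => R.red (e m)) ≤
        Submodule.span k ((fun j => R.red (E j)) '' {j | j ≠ i}) :=
      Submodule.span_le.2 (by rintro _ ⟨m, rfl⟩; exact heS m)
    have h1 := hle hmem
    rw [hφw, ← Finset.add_sum_erase _ _ his] at h1
    have hrest : ∑ j ∈ (hK.repr ⟨(w : F), hW hwW⟩).support.erase i, R.π (c j) • R.red (E j) ∈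
        Submodule.span k ((fun j => R.red (E j)) '' {j | j ≠ i}) :=
      Submodule.sum_mem _ fun j hj => Submodule.smul_mem _ _
        (Submodule.subset_span ⟨j, Finset.ne_of_mem_erase hj, rfl⟩)
    have h2 := Submodule.smul_mem _ (R.π (c i))⁻¹ ((Submodule.add_mem_iff_left _ hrest).1 h1)
    rwa [smul_smul, inv_mul_cancel₀ hi, one_smul] at h2

/-- Lifts of the residual bases: a basis of `F` over `K(x)`. -/
theorem exists_global_basis :
    ∃ Y : R.Idx → R.integers, (∀ p, R.red (Y p) = R.blockVec p) ∧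
      LinearIndependent k (fun q : ℕ × R.Idx =>
        R.red (⟨R.x, R.x_mem_integers⟩ ^ q.1 * Y q.2)) ∧
      Submodule.span K⟮R.x⟯ (Set.range fun p => ((Y p : R.integers) : F)) = ⊤ := by
  classical
  choose Y hY using fun p => R.red_surjective (R.blockVec p)
  have hx : (fun i => R.xb i) = R.red ⟨R.x, R.x_mem_integers⟩ := funext fun i => (R.red_x i).symm
  have hli : LinearIndependent k (fun q : ℕ × R.Idx =>
      R.red (⟨R.x, R.x_mem_integers⟩ ^ q.1 * Y q.2)) := by
    have h := R.linearIndependent_blockVec (p := 1) (fun i => one_ne_zero)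
    simpa only [one_mul, map_mul, map_pow, hY, hx] using h
  have hK : LinearIndependent K (fun q : ℕ × R.Idx =>
      R.x ^ q.1 * ((Y q.2 : R.integers) : F)) := by
    simpa using R.linearIndependent_lift hli
  have hKx : LinearIndependent K⟮R.x⟯ (fun p => ((Y p : R.integers) : F)) := by
    refine (LinearIndependent.iff_fractionRing (Algebra.adjoin K {R.x}) K⟮R.x⟯).1 ?_
    rw [linearIndependent_iff']
    intro s c hc i hi
    have hr : ∀ r : Algebra.adjoin K {R.x}, ∃ q : Polynomial K, Polynomial.aeval R.x q = r :=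
      fun r => by
        have : (r : F) ∈ (Polynomial.aeval (R := K) R.x).range := by
          rw [← Algebra.adjoin_singleton_eq_range_aeval]
          exact r.2
        exact this
    choose q hq using hr
    let N := s.sup (fun l => (q (c l)).natDegree) + 1
    have hsum : ∑ p ∈ Finset.range N ×ˢ s,
        (q (c p.2)).coeff p.1 • (R.x ^ p.1 * ((Y p.2 : R.integers) : F)) = 0 := by
      rw [Finset.sum_product_right, ← hc]
      refine Finset.sum_congr rfl fun l hl => ?_
      rw [Algebra.smul_def]
      show _ = (c l : F) * _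
      rw [← hq (c l), Polynomial.aeval_eq_sum_range' (n := N)
        (Nat.lt_succ_of_le (Finset.le_sup (f := fun l => (q (c l)).natDegree) hl)),
        Finset.sum_mul]
      exact Finset.sum_congr rfl fun m _ => by rw [smul_mul_assoc]
    have hzero := linearIndependent_iff'.1 hK _ (fun p => (q (c p.2)).coeff p.1) hsum
    have hq0 : q (c i) = 0 := by
      ext m
      rw [Polynomial.coeff_zero]
      by_cases hm : m < N
      · exact hzero (m, i) (Finset.mem_product.2 ⟨Finset.mem_range.2 hm, hi⟩)
      · exact Polynomial.coeff_eq_zero_of_natDegree_lt (lt_of_lt_of_le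
          (Nat.lt_succ_of_le (Finset.le_sup (f := fun l => (q (c l)).natDegree) hi))
          (not_lt.1 hm))
    apply Subtype.ext
    rw [← hq (c i), hq0, map_zero]
    rfl
  haveI : Nonempty R.Idx := by
    obtain ⟨i⟩ := R.nonempty
    exact ⟨⟨i, ⟨0, R.degree_pos i⟩⟩⟩
  refine ⟨Y, hY, hli, hKx.span_eq_top_of_card_eq_finrank ?_⟩
  rw [R.degree_eq, Fintype.card_sigma]
  exact Finset.sum_congr rfl fun i _ => Fintype.card_fin _

theorem red_ne_zero_iff {f : R.integers} : R.red f ≠ 0 ↔ ∃ i, R.red f i ≠ 0 := by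
  rw [Ne, funext_iff, not_forall]; rfl

/-- A polynomial in `x` scaled to have unit reduction on every component. -/
theorem exists_unit_scale_aeval (q : Polynomial K) (hq : q ≠ 0) :
    ∃ (c : K) (h : c • Polynomial.aeval R.x q ∈ R.integers), c ≠ 0 ∧
      ∀ i, R.red ⟨c • Polynomial.aeval R.x q, h⟩ i ≠ 0 := by
  classical
  obtain ⟨j, hj, hj0, hall⟩ := GoodReduction.exists_scale_family (A := A) q.support q.coeff
    (Polynomial.natDegree_mem_support_of_nonzero hq)
    (Polynomial.leadingCoeff_ne_zero.2 hq)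
  let c' : ℕ → A := fun m => if h : m ∈ q.support then ⟨(q.coeff j)⁻¹ * q.coeff m, hall m h⟩ else 0
  have heq : (q.coeff j)⁻¹ • Polynomial.aeval R.x q
      = ∑ m ∈ q.support, ((c' m : A) : K) • (R.x ^ m) := by
    rw [Polynomial.aeval_def, Polynomial.eval₂_eq_sum, Polynomial.sum_def, Finset.smul_sum]
    refine Finset.sum_congr rfl fun m hm => ?_
    simp only [c', dif_pos hm, Algebra.smul_def, map_mul]
    ring
  have hmem : (q.coeff j)⁻¹ • Polynomial.aeval R.x q ∈ R.integers := by
    rw [heq]
    exact sum_mem fun m _ => R.smul_mem_integers _ (pow_mem R.x_mem_integers m)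
  refine ⟨(q.coeff j)⁻¹, hmem, inv_ne_zero hj0, fun i h0 => ?_⟩
  have hred : R.red ⟨_, hmem⟩ i = ∑ m ∈ q.support, R.π (c' m) • R.xb i ^ m := by
    have h1 : (⟨_, hmem⟩ : R.integers)
        = ⟨∑ m ∈ q.support, ((c' m : A) : K) •
            (((⟨R.x, R.x_mem_integers⟩ : R.integers) ^ m : R.integers) : F),
          by simpa using heq ▸ hmem⟩ := Subtype.ext (by simpa using heq)
    rw [h1, R.red_sum_smul q.support c' (fun m => ⟨R.x, R.x_mem_integers⟩ ^ m),
      Finset.sum_apply]
    exact Finset.sum_congr rfl fun m _ => by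
      show R.π (c' m) • R.red (⟨R.x, R.x_mem_integers⟩ ^ m) i = _
      rw [map_pow, Pi.pow_apply, R.red_x]
  rw [hred] at h0
  have hli := GoodReduction.linearIndependent_pow (R.x_transcendental i)
  have hj1 : R.π (c' j) = 0 := linearIndependent_iff'.1 hli q.support _ h0 j hj
  have hj2 : c' j = 1 := Subtype.ext (by
    simp only [c', dif_pos hj]
    rw [inv_mul_cancel₀ hj0]; rfl)
  rw [hj2, map_one] at hj1
  exact one_ne_zero hj1

/-- a finite dimensional space of functions lies in a space with an orthonormal family -/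
theorem exists_orthonormal_span_ge (W : Submodule K F) [FiniteDimensional K W] :
    ∃ E : ℕ × R.Idx → R.integers,
      LinearIndependent k (fun q => R.red (E q)) ∧
      W ≤ Submodule.span K (Set.range fun q => ((E q : R.integers) : F)) := by
  classical
  obtain ⟨Y, hY, hli, hspan⟩ := R.exists_global_basis
  let S := Algebra.adjoin K {R.x}
  obtain ⟨T, hT⟩ := (Submodule.fg_iff_finiteDimensional W).2 ‹_›
  have hrep : ∀ t : F, ∃ c : R.Idx → K⟮R.x⟯,
      ∑ j, c j • ((Y j : R.integers) : F) = t := fun t =>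
    (Submodule.mem_span_range_iff_exists_fun _).1 (hspan ▸ Submodule.mem_top)
  choose c hc using hrep
  obtain ⟨g, hg⟩ := IsLocalization.exist_integer_multiples (nonZeroDivisors S)
    (T ×ˢ (Finset.univ : Finset R.Idx)) (fun p => c p.1 p.2)
  have hgmem : ((g : S) : F) ∈ (Polynomial.aeval (R := K) R.x).range := by
    rw [← Algebra.adjoin_singleton_eq_range_aeval]
    exact (g : S).2
  obtain ⟨qg, hqg⟩ := hgmem
  have hqg0 : qg ≠ 0 := fun h => nonZeroDivisors.ne_zero g.2
    (Subtype.ext (by rw [← hqg, h]; simp))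
  obtain ⟨a, hu, ha0, huφ⟩ := R.exists_unit_scale_aeval qg hqg0
  set u : R.integers := ⟨a • Polynomial.aeval R.x qg, hu⟩ with hudef
  have hu0 : (u : F) ≠ 0 := by
    obtain ⟨i⟩ := R.nonempty
    exact R.red_ne_zero_of_ne (huφ i)
  refine ⟨fun q => ⟨((u : F))⁻¹, R.inv_mem_integers huφ⟩ *
    (⟨R.x, R.x_mem_integers⟩ ^ q.1 * Y q.2), ?_, ?_⟩
  · have h := R.linearIndependent_blockVec
      (p := R.red ⟨((u : F))⁻¹, R.inv_mem_integers huφ⟩)
      (fun i => by rw [R.red_inv huφ]; exact inv_ne_zero (huφ i))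
    have hx : (fun i => R.xb i) = R.red ⟨R.x, R.x_mem_integers⟩ :=
      funext fun i => (R.red_x i).symm
    simpa only [map_mul, map_pow, hY, hx] using h
  · rw [← hT, Submodule.span_le]
    intro t ht
    have hgt : Polynomial.aeval R.x qg * t ∈ Submodule.span K
        (Set.range fun q : ℕ × R.Idx => R.x ^ q.1 * ((Y q.2 : R.integers) : F)) := by
      rw [show Polynomial.aeval R.x qg = ((g : S) : F) from hqg, ← hc t, Finset.mul_sum]
      refine Submodule.sum_mem _ fun j _ => ?_
      obtain ⟨r, hr⟩ := hg (t, j) (Finset.mem_product.2 ⟨ht, Finset.mem_univ j⟩)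
      have hr' : ((r : S) : F) = ((g : S) : F) * ((c t j : K⟮R.x⟯) : F) := by
        have := congrArg Subtype.val hr
        rw [Algebra.smul_def] at this
        exact this
      rw [Algebra.smul_def, ← mul_assoc]
      show ((g : S) : F) * ((c t j : K⟮R.x⟯) : F) * _ ∈ _
      rw [← hr']
      have hrmem : (r : F) ∈ (Polynomial.aeval (R := K) R.x).range := by
        rw [← Algebra.adjoin_singleton_eq_range_aeval]
        exact r.2
      obtain ⟨q, hq⟩ := hrmem
      rw [← hq]
      show Polynomial.aeval R.x q * _ ∈ _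
      rw [Polynomial.aeval_eq_sum_range, Finset.sum_mul]
      exact Submodule.sum_mem _ fun m _ => by
        rw [smul_mul_assoc]
        exact Submodule.smul_mem _ _ (Submodule.subset_span ⟨(m, j), rfl⟩)
    have ht' : t = ((u : F))⁻¹ * (a • (Polynomial.aeval R.x qg * t)) := by
      rw [← smul_mul_assoc]
      show t = ((u : F))⁻¹ * ((u : F) * t)
      rw [inv_mul_cancel_left₀ hu0]
    have hle : Submodule.map (LinearMap.mulLeft K ((u : F))⁻¹) (Submodule.span K
        (Set.range fun q : ℕ × R.Idx => R.x ^ q.1 * ((Y q.2 : R.integers) : F))) ≤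
        Submodule.span K (Set.range fun q : ℕ × R.Idx =>
          (((⟨((u : F))⁻¹, R.inv_mem_integers huφ⟩ *
            (⟨R.x, R.x_mem_integers⟩ ^ q.1 * Y q.2) : R.integers)) : F)) := by
      rw [Submodule.map_span, ← Set.range_comp]
      exact le_of_eq (by congr 1)
    rw [ht']
    exact hle ⟨_, Submodule.smul_mem _ a hgt, rfl⟩

/-- the lattice `W ∩ integers` has a basis reducing to a basis of the special fibre -/
theorem exists_lattice_basis (W : Submodule K F) [FiniteDimensional K W] :
    ∃ e : Fin (Module.finrank K W) → R.integers, (∀ i, ((e i : R.integers) : F) ∈ W) ∧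
      LinearIndependent k (fun i => R.red (e i)) ∧
      ∀ f : R.integers, (f : F) ∈ W → ∃ c : Fin (Module.finrank K W) → A,
        (f : F) = ∑ i, ((c i : A) : K) • ((e i : R.integers) : F) := by
  obtain ⟨E, hE, hW⟩ := R.exists_orthonormal_span_ge W
  obtain ⟨e, heW, he⟩ := R.exists_family_of_le_span hE _ W inferInstance rfl hW
  refine ⟨e, heW, he, fun f hf => ?_⟩
  have hKe : LinearIndependent K (fun i => ((e i : R.integers) : F)) := R.linearIndependent_lift he
  have hspan : Submodule.span K (Set.range fun i => ((e i : R.integers) : F)) = W := by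
    refine Submodule.eq_of_le_of_finrank_le (Submodule.span_le.2 ?_) ?_
    · rintro _ ⟨i, rfl⟩; exact heW i
    · rw [finrank_span_eq_card hKe, Fintype.card_fin]
  obtain ⟨c, hc⟩ := (Submodule.mem_span_range_iff_exists_fun K).1 (hspan.symm ▸ hf :
    (f : F) ∈ Submodule.span K (Set.range fun i => ((e i : R.integers) : F)))
  have hcA := R.coeff_mem_of_sum_mem he Finset.univ c (hc ▸ f.2)
  exact ⟨fun i => ⟨c i, hcA i (Finset.mem_univ i)⟩, hc.symm⟩

theorem spFibre_eq_span {W : Submodule K F} {I : Type*} [Fintype I] (e : I → R.integers)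
    (heW : ∀ i, ((e i : R.integers) : F) ∈ W)
    (hspan : ∀ f : R.integers, (f : F) ∈ W → ∃ c : I → A,
      (f : F) = ∑ i, ((c i : A) : K) • ((e i : R.integers) : F)) :
    R.spFibre W = Submodule.span k (Set.range fun i => R.red (e i)) := by
  refine le_antisymm ?_ (Submodule.span_le.2 ?_)
  · rintro _ ⟨f, hf, rfl⟩
    obtain ⟨c, hc⟩ := hspan f hf
    have : f = ⟨∑ i, ((c i : A) : K) • ((e i : R.integers) : F), hc ▸ f.2⟩ := Subtype.ext hc
    rw [this, R.red_sum_smul]
    exact Submodule.sum_mem _ fun i _ =>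
      Submodule.smul_mem _ _ (Submodule.subset_span ⟨i, rfl⟩)
  · rintro _ ⟨i, rfl⟩
    exact ⟨e i, heW i, rfl⟩

theorem finiteDimensional_spFibre (W : Submodule K F) [FiniteDimensional K W] :
    FiniteDimensional k (R.spFibre W) := by
  obtain ⟨e, heW, -, hspan⟩ := R.exists_lattice_basis W
  rw [R.spFibre_eq_span e heW hspan]
  exact FiniteDimensional.span_of_finite k (Set.finite_range fun i => R.red (e i))

/-- reduction does not lose dimension -/
theorem finrank_spFibre (W : Submodule K F) [FiniteDimensional K W] :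
    Module.finrank k (R.spFibre W) = Module.finrank K W := by
  obtain ⟨e, heW, he, hspan⟩ := R.exists_lattice_basis W
  rw [R.spFibre_eq_span e heW hspan, finrank_span_eq_card he, Fintype.card_fin]

end Fermat.Agent.Bad.MultiReduction

end
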