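/-
Values of functions at places, Riemann-Roch consequences used for the gluing lemma.
-/
import Fermat.Agent.Bad.GluingDefs
import Fermat.Agent.Curve.ReductionAux
import Mathlib.LinearAlgebra.FiniteDimensional.Lemmas

set_option autoImplicit false

noncomputable section

namespace Fermat.Agent.Bad

open AlgebraicCurve Fermat.Agent.Curve Fermat.Agent.Curve.RedAux

universe uk uE

variable {k : Type uk} [Field k] {E : Type uE} [Field E] [Algebra k E]

section Value

variable [IsAlgClosed k] [IsFunctionFieldOne k E] (v : Place k E)

theorem residue_algebraMap_bij : Function.Bijective (algebraMap k v.ResidueField) := by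
  haveI := finite_residueField v
  exact IsAlgClosed.algebraMap_bijective_of_isIntegral

theorem algebraMap_placeValue {f : E} (hf : f ∈ v.toValuationSubring) :
    algebraMap k v.ResidueField (placeValue v f) = IsLocalRing.residue _ ⟨f, hf⟩ := by
  rw [placeValue, dif_pos hf]
  exact Function.invFun_eq ((residue_algebraMap_bij v).2 _)

theorem placeValue_eq_iff {f : E} (hf : f ∈ v.toValuationSubring) (c : k) :
    placeValue v f = c ↔
      algebraMap k v.ResidueField c = IsLocalRing.residue _ ⟨f, hf⟩ := by
  rw [← algebraMap_placeValue v hf, (residue_algebraMap_bij v).1.eq_iff, eq_comm]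

theorem placeValue_add {f g : E} (hf : f ∈ v.toValuationSubring)
    (hg : g ∈ v.toValuationSubring) :
    placeValue v (f + g) = placeValue v f + placeValue v g := by
  rw [placeValue_eq_iff v (add_mem hf hg), map_add, algebraMap_placeValue v hf,
    algebraMap_placeValue v hg, ← map_add]
  rfl

theorem placeValue_mul {f g : E} (hf : f ∈ v.toValuationSubring)
    (hg : g ∈ v.toValuationSubring) :
    placeValue v (f * g) = placeValue v f * placeValue v g := by
  rw [placeValue_eq_iff v (mul_mem hf hg), map_mul, algebraMap_placeValue v hf,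
    algebraMap_placeValue v hg, ← map_mul]
  rfl

theorem placeValue_algebraMap (c : k) : placeValue v (algebraMap k E c) = c := by
  rw [placeValue_eq_iff v (v.algebraMap_mem' c)]
  rfl

theorem placeValue_zero : placeValue v (0 : E) = 0 := by
  simpa using placeValue_algebraMap v 0

theorem placeValue_one : placeValue v (1 : E) = 1 := by
  simpa using placeValue_algebraMap v 1

theorem placeValue_smul (c : k) {f : E} (hf : f ∈ v.toValuationSubring) :
    placeValue v (c • f) = c * placeValue v f := by
  rw [Algebra.smul_def, placeValue_mul v (v.algebraMap_mem' c) hf, placeValue_algebraMap]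

theorem placeValue_pow {f : E} (hf : f ∈ v.toValuationSubring) (n : ℕ) :
    placeValue v (f ^ n) = placeValue v f ^ n := by
  induction n with
  | zero => simp [placeValue_one]
  | succ n ih => rw [pow_succ, pow_succ, placeValue_mul v (pow_mem hf n) hf, ih]

theorem placeValue_sub {f g : E} (hf : f ∈ v.toValuationSubring)
    (hg : g ∈ v.toValuationSubring) :
    placeValue v (f - g) = placeValue v f - placeValue v g := by
  have h := placeValue_add v (sub_mem hf hg) hg
  rw [sub_add_cancel] at h
  rw [h, add_sub_cancel_right]

theorem placeValue_eq_zero_iff {f : E} (hf : f ∈ v.toValuationSubring) :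
    placeValue v f = 0 ↔ f = 0 ∨ 1 ≤ v.ord f := by
  rw [placeValue_eq_iff v hf, map_zero, eq_comm, IsLocalRing.residue_eq_zero_iff]
  rcases eq_or_ne f 0 with rfl | hf0
  · exact iff_of_true (Ideal.zero_mem _) (Or.inl rfl)
  rw [IsLocalRing.mem_maximalIdeal, mem_nonunits_iff, or_iff_right hf0]
  have h0 := ord_nonneg_of_mem v hf
  constructor
  · intro hu
    by_contra hle
    refine hu ?_
    rw [← v.adicValuation_coe_eq_one_iff, v.adicValuation_eq_exp_neg_ord hf0,
      show v.ord f = 0 by omega, neg_zero, WithZero.exp_zero]
  · rintro hpos ⟨u, hu⟩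
    have := v.ord_coe_unit u
    rw [hu] at this
    change v.ord f = 0 at this
    omega

theorem placeValue_ne_zero_iff {f : E} (hf : f ∈ v.toValuationSubring) :
    placeValue v f ≠ 0 ↔ f ≠ 0 ∧ v.ord f = 0 := by
  rw [Ne, placeValue_eq_zero_iff v hf, not_or, not_le]
  have := ord_nonneg_of_mem v hf
  constructor <;> rintro ⟨h1, h2⟩ <;> exact ⟨h1, by omega⟩

omit [IsAlgClosed k] [IsFunctionFieldOne k E] in
theorem mem_of_zero_or_le {f : E} (h : f = 0 ∨ 0 ≤ v.ord f) : f ∈ v.toValuationSubring := by
  rcases h with rfl | h
  · exact zero_mem _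
  · exact mem_of_ord_nonneg v h

end Value

section RR

variable [IsAlgClosed k] [IsFunctionFieldOne k E]

omit [IsAlgClosed k] in
theorem pow_mem_L {D : Divisor k E} {f : E} (hf : f ∈ riemannRochSpace D) (n : ℕ) :
    f ^ n ∈ riemannRochSpace (n • D) := by
  induction n with
  | zero => rw [pow_zero, zero_nsmul]; exact one_mem_L le_rfl
  | succ n ih => rw [pow_succ, succ_nsmul]; exact mul_mem_L ih hf

/-- A linear bound for the dimensions of the spaces of functions. -/
theorem exists_finrank_L_le : ∃ C : ℕ, ∀ D : Divisor k E, 0 ≤ D →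
    Module.finrank k (riemannRochSpace D) ≤ (Divisor.degree D).toNat + C := by
  obtain ⟨c, hc⟩ := exists_finrank_L_eq (K := k) (F := E)
  obtain ⟨P⟩ := nonempty_place (K := k) (F := E)
  refine ⟨c.toNat + 1, fun D hD => ?_⟩
  set D' := D + Finsupp.single P (c.toNat : ℤ) with hD'
  have hle : D ≤ D' := by
    rw [hD']
    exact le_add_of_nonneg_right (by simp)
  have hdeg : Divisor.degree D' = Divisor.degree D + c.toNat := by
    rw [hD', map_add, Divisor.degree_single, deg_one]; simp
  haveI := finite_L D'
  have h1 := Submodule.finrank_mono (L_mono hle)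
  have h0 := RedAux.degree_nonneg hD
  have h2 := hc D' (by omega)
  omega

/-- For divisors of large degree, some function has the exact allowed pole at a given place. -/
theorem exists_exact_pole : ∃ c : ℤ, ∀ (D : Divisor k E) (v : Place k E),
    c ≤ Divisor.degree D →
      ∃ f ∈ riemannRochSpace D, f ≠ 0 ∧ v.ord f = -D v := by
  classical
  obtain ⟨c, hc⟩ := exists_finrank_L_eq (K := k) (F := E)
  refine ⟨c + 1, fun D v hD => ?_⟩
  set D' := D - Finsupp.single v 1 with hD'
  have hdeg : Divisor.degree D' = Divisor.degree D - 1 := by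
    rw [hD', map_sub, Divisor.degree_single, deg_one]; simp
  have hle : D' ≤ D := by
    rw [hD']
    exact sub_le_self _ (by simp)
  have h1 := hc D (by omega)
  have h2 := hc D' (by omega)
  obtain ⟨f, hf, hf'⟩ : ∃ f ∈ riemannRochSpace D, f ∉ riemannRochSpace D' := by
    by_contra h
    push Not at h
    have := le_antisymm (L_mono hle) h
    rw [this] at h2
    omega
  have hf0 : f ≠ 0 := fun h0 => hf' (h0 ▸ zero_mem _)
  refine ⟨f, hf, hf0, le_antisymm ?_ ((mem_L_iff hf0).1 hf v)⟩
  by_contra hlt
  refine hf' ((mem_L_iff hf0).2 fun w => ?_)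
  have := (mem_L_iff hf0).1 hf w
  rw [hD', Finsupp.sub_apply, Finsupp.single_apply]
  split_ifs with hw
  · subst hw; omega
  · omega

end RR

end Fermat.Agent.Bad

end
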