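/-
The special fibres of the spaces `polarSp N`: products, dimensions, pole bounds on the components.
-/
import Fermat.Agent.Bad.GluingValue
import Fermat.Agent.Bad.GluingLattice

set_option autoImplicit false

noncomputable section

namespace Fermat.Agent.Bad.MultiReduction

open AlgebraicCurve IntermediateField Fermat.Agent.Curve Fermat.Agent.Curve.RedAux

universe uK uF uι uk uFb

variable {K : Type uK} [Field K] {A : ValuationSubring K}
  {F : Type uF} [Field F] [Algebra K F] {ι : Type uι} [Fintype ι]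
  {k : Type uk} [Field k] {Fb : ι → Type uFb} [∀ i, Field (Fb i)] [∀ i, Algebra k (Fb i)]
  (R : MultiReduction A F k Fb)

theorem xb_ne_zero (i : ι) : R.xb i ≠ 0 := fun h =>
  R.x_transcendental i (show IsAlgebraic k (R.xb i) by rw [h]; exact isAlgebraic_zero)

theorem mul_mem_spFibre {W W' W'' : Submodule K F}
    (hW : ∀ f ∈ W, ∀ g ∈ W', f * g ∈ W'') {y y' : ∀ i, Fb i} (hy : y ∈ R.spFibre W)
    (hy' : y' ∈ R.spFibre W') : y * y' ∈ R.spFibre W'' := by
  obtain ⟨f, hf, rfl⟩ := hy
  obtain ⟨g, hg, rfl⟩ := hy'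
  exact ⟨f * g, hW _ hf _ hg, map_mul _ _ _⟩

theorem transcendental_x : Transcendental K R.x := by
  obtain ⟨i⟩ := R.nonempty
  have hli : LinearIndependent k
      (fun m : ℕ => R.red ((⟨R.x, R.x_mem_integers⟩ : R.integers) ^ m)) := by
    apply LinearIndependent.of_comp (LinearMap.proj i : (∀ i, Fb i) →ₗ[k] Fb i)
    have := GoodReduction.linearIndependent_pow (R.x_transcendental i)
    convert this using 1
    funext m
    simp only [Function.comp_apply, LinearMap.proj_apply, map_pow, Pi.pow_apply]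
    rfl
  have h := R.linearIndependent_lift hli
  rw [transcendental_iff]
  intro q hq
  ext m
  rw [Polynomial.coeff_zero]
  by_cases hm : m < q.natDegree + 1
  · refine linearIndependent_iff'.1 h (Finset.range (q.natDegree + 1)) (fun i => q.coeff i) ?_ m
      (Finset.mem_range.2 hm)
    rw [← hq, Polynomial.aeval_eq_sum_range]
    exact Finset.sum_congr rfl fun i _ => by simp
  · exact Polynomial.coeff_eq_zero_of_natDegree_lt (by omega)

variable [IsFunctionFieldOne K F]

theorem poleX_nonneg : 0 ≤ R.poleX := poleDivisor_nonneg R.x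

theorem nsmul_poleX_mono {M N : ℕ} (h : M ≤ N) : M • R.poleX ≤ N • R.poleX :=
  Finsupp.le_def.2 fun v => by
    rw [Finsupp.smul_apply, Finsupp.smul_apply]
    exact nsmul_le_nsmul_left (Finsupp.le_def.1 R.poleX_nonneg v) h

theorem polarSp_mono {M N : ℕ} (h : M ≤ N) : R.polarSp M ≤ R.polarSp N :=
  L_mono (R.nsmul_poleX_mono h)

theorem mul_mem_polarSp {M N : ℕ} {f g : F} (hf : f ∈ R.polarSp M) (hg : g ∈ R.polarSp N) :
    f * g ∈ R.polarSp (M + N) := by
  unfold polarSp
  rw [add_nsmul]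
  exact mul_mem_L hf hg

theorem pow_mem_polarSp {N : ℕ} {f : F} (hf : f ∈ R.polarSp N) (m : ℕ) :
    f ^ m ∈ R.polarSp (m * N) := by
  unfold polarSp
  rw [mul_comm, mul_nsmul]
  exact pow_mem_L hf m

theorem one_mem_polarSp (N : ℕ) : (1 : F) ∈ R.polarSp N :=
  one_mem_L (le_trans (by simp) (R.nsmul_poleX_mono (Nat.zero_le N)))

theorem x_mem_polarSp : R.x ∈ R.polarSp 1 := by
  show R.x ∈ riemannRochSpace (1 • poleDivisor K R.x)
  rw [one_nsmul]
  exact mem_L_poleDivisor R.x

theorem twistSp_mono {D : Divisor K F} {M N : ℕ} (h : M ≤ N) : R.twistSp D M ≤ R.twistSp D N :=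
  L_mono (add_le_add (R.nsmul_poleX_mono h) le_rfl)

theorem mul_mem_twistSp {D D' : Divisor K F} {M N : ℕ} {f g : F} (hf : f ∈ R.twistSp D M)
    (hg : g ∈ R.twistSp D' N) : f * g ∈ R.twistSp (D + D') (M + N) := by
  unfold twistSp
  rw [add_nsmul, add_add_add_comm]
  exact mul_mem_L hf hg

theorem mul_mem_spFibre_polar {M N : ℕ} {y y' : ∀ i, Fb i} (hy : y ∈ R.spFibre (R.polarSp M))
    (hy' : y' ∈ R.spFibre (R.polarSp N)) : y * y' ∈ R.spFibre (R.polarSp (M + N)) :=
  R.mul_mem_spFibre (fun _ hf _ hg => R.mul_mem_polarSp hf hg) hy hy'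

theorem one_mem_spFibre_polar (N : ℕ) : (1 : ∀ i, Fb i) ∈ R.spFibre (R.polarSp N) :=
  ⟨1, R.one_mem_polarSp N, map_one _⟩

theorem pow_mem_spFibre_polar {N : ℕ} {y : ∀ i, Fb i} (hy : y ∈ R.spFibre (R.polarSp N)) (m : ℕ) :
    y ^ m ∈ R.spFibre (R.polarSp (m * N)) := by
  obtain ⟨f, hf, rfl⟩ := hy
  exact ⟨f ^ m, R.pow_mem_polarSp hf m, map_pow _ _ _⟩

theorem spFibre_polar_mono {M N : ℕ} (h : M ≤ N) :
    R.spFibre (R.polarSp M) ≤ R.spFibre (R.polarSp N) :=
  R.spFibre_mono (R.polarSp_mono h)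

theorem xb_mem_spFibre_polar : (fun i => R.xb i) ∈ R.spFibre (R.polarSp 1) :=
  ⟨⟨R.x, R.x_mem_integers⟩, R.x_mem_polarSp, funext fun i => R.red_x i⟩

theorem degree_poleX :
    Divisor.degree R.poleX = ((∑ i, Module.finrank k⟮R.xb i⟯ (Fb i) : ℕ) : ℤ) := by
  rw [poleX, degree_poleDivisor R.transcendental_x, R.degree_eq]
  rfl

theorem degree_nsmul_poleX (N : ℕ) :
    Divisor.degree (N • R.poleX)
      = ((N * ∑ i, Module.finrank k⟮R.xb i⟯ (Fb i) : ℕ) : ℤ) := by
  rw [map_nsmul, R.degree_poleX, nsmul_eq_mul]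
  push_cast
  rfl

variable [IsAlgClosed K]

theorem finiteDimensional_polarSp (N : ℕ) : FiniteDimensional K (R.polarSp N) :=
  finite_L _

theorem finiteDimensional_twistSp (D : Divisor K F) (N : ℕ) :
    FiniteDimensional K (R.twistSp D N) :=
  finite_L _

theorem finiteDimensional_spFibre_polar (N : ℕ) :
    FiniteDimensional k (R.spFibre (R.polarSp N)) :=
  haveI := R.finiteDimensional_polarSp N
  R.finiteDimensional_spFibre _

theorem exists_finrank_spFibre_polar_le : ∃ C : ℕ, ∀ N,
    Module.finrank k (R.spFibre (R.polarSp N))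
      ≤ N * (∑ i, Module.finrank k⟮R.xb i⟯ (Fb i)) + C := by
  obtain ⟨C, hC⟩ := exists_finrank_L_le (k := K) (E := F)
  refine ⟨C, fun N => ?_⟩
  haveI := R.finiteDimensional_polarSp N
  rw [R.finrank_spFibre]
  have := hC (N • R.poleX) (le_trans (by simp) (R.nsmul_poleX_mono (Nat.zero_le N)))
  rw [R.degree_nsmul_poleX, Int.toNat_natCast] at this
  exact this

theorem exists_finrank_spFibre_twist : ∃ N₀ : ℕ, ∀ (D : Divisor K F), Divisor.degree D = 0 →
    ∀ N, N₀ ≤ N → (Module.finrank k (R.spFibre (R.twistSp D N)) : ℤ)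
      = ((N * ∑ i, Module.finrank k⟮R.xb i⟯ (Fb i) : ℕ) : ℤ) + 1 - (genusFF K F : ℤ) := by
  obtain ⟨c, hc⟩ := exists_finrank_L_eq (K := K) (F := F)
  refine ⟨c.toNat, fun D hD N hN => ?_⟩
  haveI := R.finiteDimensional_twistSp D N
  rw [R.finrank_spFibre]
  have hdeg : Divisor.degree (N • R.poleX + D)
      = ((N * ∑ i, Module.finrank k⟮R.xb i⟯ (Fb i) : ℕ) : ℤ) := by
    rw [map_add, hD, add_zero, R.degree_nsmul_poleX]
  have hd : 1 ≤ ∑ i, Module.finrank k⟮R.xb i⟯ (Fb i) := by
    obtain ⟨i⟩ := R.nonempty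
    exact le_trans (R.degree_pos i)
      (Finset.single_le_sum (f := fun i => Module.finrank k⟮R.xb i⟯ (Fb i))
        (fun _ _ => Nat.zero_le _) (Finset.mem_univ i))
  have hle : N ≤ N * ∑ i, Module.finrank k⟮R.xb i⟯ (Fb i) := Nat.le_mul_of_pos_right _ hd
  have h1 := hc (N • R.poleX + D) (by rw [hdeg]; omega)
  rw [hdeg] at h1
  exact h1

theorem twistSp_zero (N : ℕ) : R.twistSp 0 N = R.polarSp N := by
  unfold twistSp polarSp
  rw [add_zero]

/-- Every finite set of functions becomes regular away from the poles of `x` after multiplication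
by a polynomial in `x` with unit reductions. -/
theorem exists_clearing (S : Finset F) : ∃ u : R.integers, (∀ i, R.red u i ≠ 0) ∧
    ∃ M : ℕ, ∀ f ∈ S, (u : F) * f ∈ R.polarSp M := by
  classical
  have hroot : ∀ v : Place K F, 0 ≤ v.ord R.x → ∃ a : K,
      1 ≤ v.ord (R.x - algebraMap K F a) := fun v hv => by
    refine ⟨placeValue v R.x, ?_⟩
    have hm := mem_of_ord_nonneg v hv
    have h := (placeValue_eq_zero_iff v (sub_mem hm (v.algebraMap_mem' (placeValue v R.x)))).1
      (by rw [placeValue_sub v hm (v.algebraMap_mem' _), placeValue_algebraMap, sub_self])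
    refine h.resolve_left fun h0 => ?_
    apply R.transcendental_x
    rw [sub_eq_zero.1 h0]
    exact isAlgebraic_algebraMap _
  choose! a ha using hroot
  let P : Finset (Place K F) :=
    (S.biUnion fun f => (poleDivisor K f).support).filter fun v : Place K F => 0 ≤ v.ord R.x
  let e : ℕ := S.sup fun f => (Divisor.degree (poleDivisor K f)).toNat
  let q : Polynomial K := ∏ v ∈ P, (Polynomial.X - Polynomial.C (a v)) ^ e
  have hq : q ≠ 0 := Finset.prod_ne_zero_iff.2 fun v _ =>
    pow_ne_zero _ (Polynomial.X_sub_C_ne_zero (a v))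
  obtain ⟨c, hc, hc0, hcred⟩ := R.exists_unit_scale_aeval q hq
  refine ⟨⟨_, hc⟩, hcred, q.natDegree + e, fun f hf => ?_⟩
  rcases eq_or_ne f 0 with rfl | hf0
  · rw [mul_zero]; exact zero_mem _
  have hu0 : c • Polynomial.aeval R.x q ≠ 0 := by
    obtain ⟨i⟩ := R.nonempty
    exact R.red_ne_zero_of_ne (hcred i)
  have he : ∀ v : Place K F, -(v.ord f) ≤ (e : ℤ) := fun v => by
    have h1 := apply_le_degree (poleDivisor_nonneg (K := K) f) v
    have h2 := Finset.le_sup (f := fun f => (Divisor.degree (poleDivisor K f)).toNat) hf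
    simp only [poleDivisor_apply] at h1
    have h3 : ((Divisor.degree (poleDivisor K f)).toNat : ℤ) ≤ (e : ℤ) := by exact_mod_cast h2
    omega
  show c • Polynomial.aeval R.x q * f ∈ R.polarSp _
  refine (mem_L_iff (mul_ne_zero hu0 hf0)).2 fun v => ?_
  rw [v.ord_mul hu0 hf0, ord_const_smul v hc0, Finsupp.smul_apply, nsmul_eq_mul]
  have hq' : Polynomial.aeval R.x q ≠ 0 := fun h => hu0 (by rw [h, smul_zero])
  by_cases hv : 0 ≤ v.ord R.x
  · have hpole : R.poleX v = 0 := by
      rw [poleX, poleDivisor_apply]; omega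
    rw [hpole, mul_zero, neg_zero]
    have hpoly : ∀ b : K, 0 ≤ v.ord (R.x - algebraMap K F b) := fun b =>
      ord_nonneg_of_mem v (sub_mem (mem_of_ord_nonneg v hv) (v.algebraMap_mem' b))
    have hne : ∀ w ∈ P, Polynomial.aeval R.x ((Polynomial.X - Polynomial.C (a w)) ^ e) ≠ 0 :=
      fun w hw => by
        intro h
        apply hq'
        rw [map_prod]
        exact Finset.prod_eq_zero hw h
    rw [map_prod, ord_prod v P hne]
    simp only [map_pow, map_sub, Polynomial.aeval_X, Polynomial.aeval_C, ord_pow]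
    by_cases hvP : v ∈ P
    · have h1 : (e : ℤ) ≤ ∑ w ∈ P, (e : ℤ) * v.ord (R.x - algebraMap K F (a w)) :=
        le_trans (le_mul_of_one_le_right (Int.natCast_nonneg e) (ha v hv))
          (Finset.single_le_sum (f := fun w => (e : ℤ) * v.ord (R.x - algebraMap K F (a w)))
            (fun w _ => mul_nonneg (Int.natCast_nonneg e) (hpoly _)) hvP)
      have := he v
      omega
    · have h0 : 0 ≤ v.ord f := by
        by_contra hneg
        apply hvP
        refine Finset.mem_filter.2 ⟨Finset.mem_biUnion.2 ⟨f, hf, ?_⟩, hv⟩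
        rw [Finsupp.mem_support_iff, poleDivisor_apply]
        omega
      have h1 : 0 ≤ ∑ w ∈ P, (e : ℤ) * v.ord (R.x - algebraMap K F (a w)) :=
        Finset.sum_nonneg fun w _ => mul_nonneg (Int.natCast_nonneg e) (hpoly _)
      omega
  · have hpole : R.poleX v = -(v.ord R.x) := by
      rw [poleX, poleDivisor_apply]; omega
    have hL : Polynomial.aeval R.x q ∈ R.polarSp q.natDegree := by
      rw [Polynomial.aeval_eq_sum_range]
      refine sum_mem fun m hm => Submodule.smul_mem _ _ ?_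
      refine R.polarSp_mono (Nat.le_of_lt_succ (Finset.mem_range.1 hm)) ?_
      simpa using R.pow_mem_polarSp R.x_mem_polarSp m
    have h1 := (mem_L_iff hq').1 hL v
    rw [Finsupp.smul_apply, nsmul_eq_mul, hpole] at h1
    rw [hpole]
    have := he v
    have h2 : (e : ℤ) ≤ (e : ℤ) * -(v.ord R.x) :=
      le_mul_of_one_le_right (Int.natCast_nonneg e) (by omega)
    push_cast
    rw [add_mul]
    omega

variable [∀ i, IsFunctionFieldOne k (Fb i)]

omit [IsAlgClosed K] in
theorem mem_polarFibre_iff_ord {N : ℕ} {h : ∀ i, Fb i} :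
    h ∈ R.polarFibre N ↔ ∀ i (v : Place k (Fb i)),
      h i = 0 ∨ -((N : ℤ) * max (-(v.ord (R.xb i))) 0) ≤ v.ord (h i) := by
  rw [R.mem_polarFibre]
  refine forall_congr' fun i => ?_
  rw [mem_riemannRochSpace_iff]
  refine forall_congr' fun v => ?_
  simp [nsmul_eq_mul]

omit [IsAlgClosed K] in
theorem mul_mem_polarFibre {M N : ℕ} {h h' : ∀ i, Fb i} (hh : h ∈ R.polarFibre M)
    (hh' : h' ∈ R.polarFibre N) : h * h' ∈ R.polarFibre (M + N) := by
  rw [R.mem_polarFibre] at hh hh' ⊢
  intro i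
  rw [add_nsmul]
  exact mul_mem_L (hh i) (hh' i)

omit [IsAlgClosed K] in
theorem polarFibre_mono {M N : ℕ} (hMN : M ≤ N) : R.polarFibre M ≤ R.polarFibre N := by
  intro h hh
  rw [R.mem_polarFibre] at hh ⊢
  exact fun i => L_mono (Finsupp.le_def.2 fun v => by
    rw [Finsupp.smul_apply, Finsupp.smul_apply]
    exact nsmul_le_nsmul_left (Finsupp.le_def.1 (poleDivisor_nonneg _) v) hMN) (hh i)

/-- The special fibre has poles only above those of `x`, with the expected bound. -/
theorem spFibre_polar_le (N : ℕ) : R.spFibre (R.polarSp N) ≤ R.polarFibre N := by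
  classical
  haveI := R.isAlgClosed_residue
  intro z hz
  rw [R.mem_polarFibre_iff_ord]
  intro i v
  by_contra hcon
  push Not at hcon
  obtain ⟨hzi, hlt⟩ := hcon
  set P : ℤ := max (-(v.ord (R.xb i))) 0 with hP
  set δ : ℤ := -(v.ord (z i)) - (N : ℤ) * P with hδ
  have hδ1 : 1 ≤ δ := by omega
  obtain ⟨Y, hY, hli, -⟩ := R.exists_global_basis
  obtain ⟨u, hu, M₀, hM₀⟩ := R.exists_clearing
    (Finset.univ.image fun p => ((Y p : R.integers) : F))
  let e : R.Idx → ∀ j, Fb j := fun p => R.red (u * Y p)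
  have he : ∀ p, e p ∈ R.spFibre (R.polarSp M₀) := fun p =>
    ⟨u * Y p, hM₀ _ (Finset.mem_image_of_mem _ (Finset.mem_univ p)), rfl⟩
  obtain ⟨C, hC⟩ := R.exists_finrank_spFibre_polar_le
  -- an element with the pole of `x` at `v`
  obtain ⟨pad, hpad, hpad0, hpadv⟩ : ∃ p ∈ R.spFibre (R.polarSp 1), p i ≠ 0 ∧
      v.ord (p i) = -P := by
    by_cases hx : v.ord (R.xb i) < 0
    · exact ⟨_, R.xb_mem_spFibre_polar, R.xb_ne_zero i, by omega⟩
    · exact ⟨1, R.one_mem_spFibre_polar 1, one_ne_zero, by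
        rw [Pi.one_apply, Place.ord_one]; omega⟩
  set c₀ : ℤ := ∑ p, |v.ord (e p i)| with hc₀
  set d := ∑ j, Module.finrank k⟮R.xb j⟯ (Fb j) with hd
  set l : ℕ := (M₀ * d + C) + c₀.toNat + 1 with hl
  set L : ℕ := l * N with hL
  -- bounded parts of the big space
  let U : ℤ → Submodule k (∀ j, Fb j) := fun b =>
    { carrier := {y | y ∈ R.spFibre (R.polarSp (L + M₀)) ∧ (y i = 0 ∨ -b ≤ v.ord (y i))}
      zero_mem' := ⟨zero_mem _, Or.inl rfl⟩
      add_mem' := by
        rintro y y' ⟨hy, hy1⟩ ⟨hy', hy1'⟩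
        refine ⟨add_mem hy hy', ?_⟩
        by_cases h : y i + y' i = 0
        · exact Or.inl h
        · exact Or.inr (le_ord_add v _ h (fun h0 => hy1.resolve_left h0)
            fun h0 => hy1'.resolve_left h0)
      smul_mem' := by
        rintro t y ⟨hy, hy1⟩
        refine ⟨Submodule.smul_mem _ t hy, ?_⟩
        rcases eq_or_ne t 0 with rfl | ht
        · exact Or.inl (by simp)
        rcases hy1 with h | h
        · exact Or.inl (by simp [h])
        · exact Or.inr (by rwa [Pi.smul_apply, ord_const_smul v ht]) }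
  have hUfin : ∀ b, FiniteDimensional k (U b) := fun b =>
    haveI := R.finiteDimensional_spFibre_polar (L + M₀)
    Submodule.finiteDimensional_of_le (S₂ := R.spFibre (R.polarSp (L + M₀))) fun y hy => hy.1
  -- the span of `x ^ m * e p`
  have hbase : ∀ q : Fin (L + 1) × R.Idx, (fun j => R.xb j) ^ (q.1 : ℕ) * e q.2 ∈
      U ((L : ℤ) * P + c₀) := by
    rintro ⟨m, p⟩
    have hm : (m : ℕ) ≤ L := Nat.le_of_lt_succ m.2
    refine ⟨?_, ?_⟩
    · exact R.spFibre_polar_mono (by omega) (R.mul_mem_spFibre_polar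
        (R.pow_mem_spFibre_polar R.xb_mem_spFibre_polar m) (he p))
    · rcases eq_or_ne (e p i) 0 with h0 | h0
      · exact Or.inl (by simp [h0])
      refine Or.inr ?_
      dsimp only
      rw [Pi.mul_apply, Pi.pow_apply, v.ord_mul (pow_ne_zero _ (R.xb_ne_zero i)) h0, ord_pow]
      have h1 : -((L : ℤ) * P) ≤ (m : ℕ) * v.ord (R.xb i) := by
        have h3 : ((m : ℕ) : ℤ) * -(v.ord (R.xb i)) ≤ (L : ℤ) * P :=
          (mul_le_mul_of_nonneg_left (le_max_left _ 0) (Int.natCast_nonneg _)).trans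
            (mul_le_mul_of_nonneg_right (by exact_mod_cast hm) (le_max_right _ _))
        rw [mul_neg] at h3
        omega
      have h2 : -c₀ ≤ v.ord (e p i) := by
        have h3 := Finset.single_le_sum (f := fun p => |v.ord (e p i)|)
          (fun _ _ => abs_nonneg _) (Finset.mem_univ p)
        have h4 : |v.ord (e p i)| ≤ c₀ := h3
        have h5 := (abs_le.1 h4).1
        omega
      omega
  have hindep : LinearIndependent k
      (fun q : Fin (L + 1) × R.Idx => (fun j => R.xb j) ^ (q.1 : ℕ) * e q.2) := by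
    have h := (R.linearIndependent_blockVec (p := R.red u) hu).comp
      (fun q : Fin (L + 1) × R.Idx => ((q.1 : ℕ), q.2))
      (fun a b hab => by
        simp only [Prod.mk.injEq] at hab
        exact Prod.ext (Fin.ext hab.1) hab.2)
    convert h using 1
    funext q
    simp only [Function.comp_apply, e, map_mul, hY]
    ring
  have hrank : L * d ≤ Module.finrank k (U ((L : ℤ) * P + c₀)) := by
    haveI := hUfin ((L : ℤ) * P + c₀)
    have h1 : LinearIndependent k
        (fun q : Fin (L + 1) × R.Idx =>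
          (⟨_, hbase q⟩ : U ((L : ℤ) * P + c₀))) :=
      LinearIndependent.of_comp (Submodule.subtype _) hindep
    have := h1.fintype_card_le_finrank
    rw [Fintype.card_prod, Fintype.card_fin, Fintype.card_sigma] at this
    simp only [Fintype.card_fin] at this
    exact le_trans (Nat.mul_le_mul_right d (Nat.le_succ L)) this
  -- more and more poles
  have hgrow : ∀ t : ℕ, c₀.toNat + t ≤ l →
      L * d + t ≤ Module.finrank k (U ((L : ℤ) * P + ((c₀.toNat + t : ℕ) : ℤ) * δ)) := by
    intro t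
    induction t with
    | zero =>
      intro _
      haveI := hUfin ((L : ℤ) * P + ((c₀.toNat + 0 : ℕ) : ℤ) * δ)
      refine le_trans (le_of_eq (add_zero _)) (le_trans hrank (Submodule.finrank_mono ?_))
      rintro y ⟨hy, hy1⟩
      refine ⟨hy, hy1.imp id fun h => le_trans ?_ h⟩
      have : c₀ ≤ ((c₀.toNat + 0 : ℕ) : ℤ) * δ :=
        le_trans (by omega) (le_mul_of_one_le_right (Int.natCast_nonneg _) hδ1)
      omega
    | succ t ih =>
      intro ht
      have ih := ih (by omega)
      set b : ℤ := (L : ℤ) * P + ((c₀.toNat + t : ℕ) : ℤ) * δ with hb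
      set b' : ℤ := (L : ℤ) * P + ((c₀.toNat + (t + 1) : ℕ) : ℤ) * δ with hb'
      haveI := hUfin b'
      have hbb' : b' = b + δ := by rw [hb, hb']; push_cast; ring
      set s : ℕ := c₀.toNat + (t + 1) with hs
      set y := z ^ s * pad ^ ((l - s) * N) with hy
      have hord : v.ord (y i) = -b' := by
        rw [hy, Pi.mul_apply, Pi.pow_apply, Pi.pow_apply, v.ord_mul (pow_ne_zero _ hzi)
          (pow_ne_zero _ hpad0), ord_pow, ord_pow, hpadv]
        have hls : (((l - s) * N : ℕ) : ℤ) = ((l : ℤ) - s) * N := by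
          rw [Nat.cast_mul, Nat.cast_sub (by omega)]
        rw [hls, hb', hδ, hL]
        push_cast
        ring
      have hymem : y ∈ U b' := by
        refine ⟨R.spFibre_polar_mono ?_ (R.mul_mem_spFibre_polar
          (R.pow_mem_spFibre_polar hz s) (R.pow_mem_spFibre_polar hpad ((l - s) * N))), ?_⟩
        · rw [mul_one, ← Nat.add_mul, Nat.add_sub_cancel' (by omega : s ≤ l)]
          omega
        · exact Or.inr hord.ge
      have hynot : y ∉ U b := by
        rintro ⟨-, h⟩
        rcases h with h | h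
        · rw [hy, Pi.mul_apply, Pi.pow_apply, Pi.pow_apply] at h
          exact mul_ne_zero (pow_ne_zero _ hzi) (pow_ne_zero _ hpad0) h
        · rw [hord] at h; omega
      have hlt' : U b < U b' := by
        refine lt_of_le_of_ne (fun w hw => ⟨hw.1, hw.2.imp id fun h => le_trans (by omega) h⟩)
          fun h => hynot (h ▸ hymem)
      have := Submodule.finrank_lt_finrank_of_lt hlt'
      omega
  have h1 := hgrow (l - c₀.toNat) (by omega)
  haveI := R.finiteDimensional_spFibre_polar (L + M₀)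
  have h2 : Module.finrank k (U ((L : ℤ) * P + ((c₀.toNat + (l - c₀.toNat) : ℕ) : ℤ) * δ))
      ≤ Module.finrank k (R.spFibre (R.polarSp (L + M₀))) :=
    Submodule.finrank_mono fun y hy => hy.1
  have h3 := hC (L + M₀)
  rw [Nat.add_mul] at h3
  omega

/-- The values of a bounded tuple at a branch away from the poles of `x` are defined. -/
theorem mem_of_mem_polarFibre {N : ℕ} {h : ∀ i, Fb i} (hh : h ∈ R.polarFibre N)
    {b : Σ i, Place k (Fb i)} (hb : 0 ≤ b.2.ord (R.xb b.1)) :
    h b.1 ∈ b.2.toValuationSubring := by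
  refine mem_of_zero_or_le b.2 ((R.mem_polarFibre_iff_ord.1 hh b.1 b.2).imp id fun h' => ?_)
  rw [max_eq_right (by omega), mul_zero, neg_zero] at h'
  exact h'

theorem exists_finrank_polarFibre : ∃ N₀ : ℕ, ∀ N, N₀ ≤ N →
    FiniteDimensional k (R.polarFibre N) ∧
    (Module.finrank k (R.polarFibre N) : ℤ)
      = ((N * ∑ i, Module.finrank k⟮R.xb i⟯ (Fb i) : ℕ) : ℤ)
        + ∑ i, (1 - (genusFF k (Fb i) : ℤ)) := by
  haveI := R.isAlgClosed_residue
  choose c hc using fun i => exists_finrank_L_eq (K := k) (F := Fb i)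
  refine ⟨∑ i, (c i).toNat, fun N hN => ?_⟩
  haveI := fun i => finite_L (N • poleDivisor k (R.xb i))
  let e : R.polarFibre N ≃ₗ[k] ∀ i, riemannRochSpace (N • poleDivisor k (R.xb i)) :=
    { toFun := fun h i => ⟨h.1 i, R.mem_polarFibre.1 h.2 i⟩
      invFun := fun h => ⟨fun i => (h i).1, R.mem_polarFibre.2 fun i => (h i).2⟩
      map_add' := fun _ _ => rfl
      map_smul' := fun _ _ => rfl
      left_inv := fun _ => rfl
      right_inv := fun _ => rfl }
  refine ⟨e.symm.finiteDimensional, ?_⟩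
  rw [e.finrank_eq, Module.finrank_pi_fintype, Nat.cast_sum, Nat.cast_mul, Nat.cast_sum,
    Finset.mul_sum, ← Finset.sum_add_distrib]
  refine Finset.sum_congr rfl fun i _ => ?_
  have hdeg : Divisor.degree (N • poleDivisor k (R.xb i))
      = (N : ℤ) * (Module.finrank k⟮R.xb i⟯ (Fb i) : ℤ) := by
    rw [map_nsmul, degree_poleDivisor (t := R.xb i) (R.x_transcendental i),
      nsmul_eq_mul]
  have h1 : c i ≤ (N : ℤ) * (Module.finrank k⟮R.xb i⟯ (Fb i) : ℤ) := by
    have h2 : (c i).toNat ≤ N :=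
      le_trans (Finset.single_le_sum (f := fun i => (c i).toNat) (fun _ _ => Nat.zero_le _)
        (Finset.mem_univ i)) hN
    have h3 : (N : ℤ) ≤ (N : ℤ) * (Module.finrank k⟮R.xb i⟯ (Fb i) : ℤ) :=
      le_mul_of_one_le_right (Int.natCast_nonneg N)
        (by exact_mod_cast (R.degree_pos i : 0 < Module.finrank k⟮R.xb i⟯ (Fb i)))
    omega
  have := hc i _ (hdeg ▸ h1)
  rw [hdeg] at this
  omega

end Fermat.Agent.Bad.MultiReduction

end
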