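/-
Values at the branches and the Hensel-type lemma for the special fibre: in residue characteristic
`q`, an element of the normalisation which behaves like an `n`-th root (`n` prime to `q`) of an
element of the special fibre, with matched values at the branches, lies in the special fibre.
-/
import Fermat.Agent.Bad.GluingFibre
import Mathlib.Algebra.CharP.Algebra
import Mathlib.Algebra.CharP.Lemmas
import Mathlib.Algebra.Ring.GeomSum
import Mathlib.FieldTheory.Finite.Basic

set_option autoImplicit false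

noncomputable section

namespace Fermat.Agent.Bad

open AlgebraicCurve IntermediateField Fermat.Agent.Curve Fermat.Agent.Curve.RedAux MultiReduction

universe uK uF uι uk uFb

variable {K : Type uK} [Field K] {A : ValuationSubring K}
  {F : Type uF} [Field F] [Algebra K F] {ι : Type uι} [Fintype ι]
  {k : Type uk} [Field k] {Fb : ι → Type uFb} [∀ i, Field (Fb i)] [∀ i, Algebra k (Fb i)]
  [IsAlgClosed K] [IsFunctionFieldOne K F] [∀ i, IsFunctionFieldOne k (Fb i)]
  {R : MultiReduction A F k Fb}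

section Values

variable [IsAlgClosed k] {b : Σ i, Place k (Fb i)}

omit [IsAlgClosed K] [IsFunctionFieldOne K F] in
theorem bval_mul {h h' : ∀ i, Fb i} (hh : h b.1 ∈ b.2.toValuationSubring)
    (hh' : h' b.1 ∈ b.2.toValuationSubring) : bval b (h * h') = bval b h * bval b h' :=
  placeValue_mul b.2 hh hh'

omit [IsAlgClosed K] [IsFunctionFieldOne K F] in
theorem bval_pow {h : ∀ i, Fb i} (hh : h b.1 ∈ b.2.toValuationSubring) (m : ℕ) :
    bval b (h ^ m) = bval b h ^ m :=
  placeValue_pow b.2 hh m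

omit [IsAlgClosed K] [IsFunctionFieldOne K F] in
theorem bval_add {h h' : ∀ i, Fb i} (hh : h b.1 ∈ b.2.toValuationSubring)
    (hh' : h' b.1 ∈ b.2.toValuationSubring) : bval b (h + h') = bval b h + bval b h' :=
  placeValue_add b.2 hh hh'

omit [IsAlgClosed K] [IsFunctionFieldOne K F] in
theorem bval_sub {h h' : ∀ i, Fb i} (hh : h b.1 ∈ b.2.toValuationSubring)
    (hh' : h' b.1 ∈ b.2.toValuationSubring) : bval b (h - h') = bval b h - bval b h' :=
  placeValue_sub b.2 hh hh'

omit [IsAlgClosed K] [IsFunctionFieldOne K F] in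
theorem bval_smul (c : k) {h : ∀ i, Fb i} (hh : h b.1 ∈ b.2.toValuationSubring) :
    bval b (c • h) = c * bval b h :=
  placeValue_smul b.2 c hh

omit [IsAlgClosed K] [IsFunctionFieldOne K F] in
theorem bval_one : bval b (1 : ∀ i, Fb i) = 1 :=
  placeValue_one b.2

omit [IsAlgClosed K] [IsFunctionFieldOne K F] in
theorem bval_zero : bval b (0 : ∀ i, Fb i) = 0 :=
  placeValue_zero b.2

omit [IsAlgClosed K] [IsFunctionFieldOne K F] in
theorem bval_mul_algebraMap (c : ι → k) {h : ∀ i, Fb i}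
    (hh : h b.1 ∈ b.2.toValuationSubring) :
    bval b ((fun i => algebraMap k (Fb i) (c i)) * h) = c b.1 * bval b h := by
  rw [bval_mul (b.2.algebraMap_mem' (c b.1)) hh]
  exact congrArg (· * bval b h) (placeValue_algebraMap b.2 (c b.1))

omit [IsAlgClosed K] [IsFunctionFieldOne K F] in
theorem ne_zero_of_bval_ne_zero {h : ∀ i, Fb i} (hh : bval b h ≠ 0) : h b.1 ≠ 0 := fun h0 =>
  hh (by unfold bval; rw [h0, placeValue_zero])

omit [IsAlgClosed K] [IsFunctionFieldOne K F] in
theorem mem_of_vanishesAt {r : ℕ} {h : ∀ i, Fb i} (hh : VanishesAt b r h) :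
    h b.1 ∈ b.2.toValuationSubring :=
  mem_of_zero_or_le b.2 (hh.imp id fun h' => le_trans (Int.natCast_nonneg r) h')

omit [IsAlgClosed K] [IsFunctionFieldOne K F] in
theorem bval_eq_zero_of_vanishesAt {r : ℕ} (hr : 1 ≤ r) {h : ∀ i, Fb i}
    (hb : VanishesAt b r h) : bval b h = 0 :=
  (placeValue_eq_zero_iff b.2 (mem_of_vanishesAt hb)).2 (hb.imp id fun h' => by omega)

omit [IsAlgClosed K] [IsFunctionFieldOne K F] in
theorem vanishesAt_one_iff {h : ∀ i, Fb i} (hh : h b.1 ∈ b.2.toValuationSubring) :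
    VanishesAt b 1 h ↔ bval b h = 0 :=
  ⟨bval_eq_zero_of_vanishesAt le_rfl, fun h0 => (placeValue_eq_zero_iff b.2 hh).1 h0⟩

omit [IsAlgClosed K] [IsFunctionFieldOne K F] in
theorem MultiReduction.VanishesAt.mul_left {r : ℕ} {h : ∀ i, Fb i} (hh : VanishesAt b r h) {g : ∀ i, Fb i}
    (hg : g b.1 ∈ b.2.toValuationSubring) : VanishesAt b r (g * h) := by
  unfold VanishesAt
  rw [Pi.mul_apply]
  rcases eq_or_ne (h b.1) 0 with h0 | h0
  · exact Or.inl (by rw [h0, mul_zero])
  rcases eq_or_ne (g b.1) 0 with g0 | g0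
  · exact Or.inl (by rw [g0, zero_mul])
  refine Or.inr ?_
  rw [b.2.ord_mul g0 h0]
  have := hh.resolve_left h0
  have := ord_nonneg_of_mem b.2 hg
  omega

omit [IsAlgClosed K] [IsFunctionFieldOne K F] in
theorem MultiReduction.VanishesAt.mono {r s : ℕ} (hrs : s ≤ r) {h : ∀ i, Fb i} (hh : VanishesAt b r h) :
    VanishesAt b s h :=
  hh.imp id fun h' => le_trans (by exact_mod_cast hrs) h'

omit [IsAlgClosed K] [IsFunctionFieldOne K F] in
theorem MultiReduction.VanishesAt.pow {h : ∀ i, Fb i} (hh : VanishesAt b 1 h) (m : ℕ) :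
    VanishesAt b m (h ^ m) := by
  rcases eq_or_ne m 0 with rfl | hm
  · exact Or.inr (by simp)
  rcases hh with h0 | h0
  · exact Or.inl (by rw [Pi.pow_apply, h0, zero_pow hm])
  · refine Or.inr ?_
    rw [Pi.pow_apply, ord_pow]
    exact le_mul_of_one_le_right (Int.natCast_nonneg m) (by exact_mod_cast h0)

omit [IsAlgClosed K] [IsFunctionFieldOne K F] in
theorem vanishesAt_pow_sub_one (q : ℕ) [Fact q.Prime] [CharP k q] {y : ∀ i, Fb i}
    (hy : y b.1 ∈ b.2.toValuationSubring) (hy1 : bval b y = 1) (a m : ℕ) :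
    VanishesAt b (q ^ a) (y ^ (m * q ^ a) - 1) := by
  haveI : ∀ i, CharP (Fb i) q := fun i =>
    charP_of_injective_algebraMap (algebraMap k (Fb i)).injective q
  have h1 : VanishesAt b 1 (y - 1) := by
    refine (vanishesAt_one_iff (sub_mem hy (one_mem _))).2 ?_
    rw [bval_sub hy (one_mem _), hy1, bval_one, sub_self]
  have h2 : VanishesAt b (q ^ a) ((y - 1) ^ (q ^ a)) := h1.pow _
  have h3 : (y - 1) ^ (q ^ a) = y ^ (q ^ a) - 1 := funext fun i => by
    simp only [Pi.pow_apply, Pi.sub_apply, Pi.one_apply]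
    rw [sub_pow_char_pow, one_pow]
  rw [h3] at h2
  have h4 : y ^ (m * q ^ a) - 1
      = (∑ j ∈ Finset.range m, (y ^ (q ^ a)) ^ j) * (y ^ (q ^ a) - 1) := by
    rw [geom_sum_mul, ← pow_mul, mul_comm]
  rw [h4]
  refine h2.mul_left ?_
  rw [Finset.sum_apply]
  exact sum_mem fun j _ => pow_mem (pow_mem hy _) _

end Values

namespace Gluing

variable (G : Gluing R)

theorem mem_of_polarFibre {N : ℕ} {h : ∀ i, Fb i} (hh : h ∈ R.polarFibre N)
    (b : ↥G.B) : h (b : Σ i, Place k (Fb i)).1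
      ∈ (b : Σ i, Place k (Fb i)).2.toValuationSubring :=
  haveI := R.isAlgClosed_residue
  R.mem_of_mem_polarFibre hh (G.regular b b.2)

/-- A tuple congruent to an element of a larger special fibre up to the conductor. -/
theorem mem_of_sub_vanish {N M : ℕ} (hN : G.bound ≤ N) {h t : ∀ i, Fb i}
    (hh : h ∈ R.polarFibre N) (ht : t ∈ R.spFibre (R.polarSp M))
    (hvan : ∀ b ∈ G.B, VanishesAt b G.order (h - t)) :
    h ∈ R.spFibre (R.polarSp N) := by
  have hsub : h - t ∈ R.spFibre (R.polarSp (max N M)) :=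
    G.conductor _ (le_trans hN (le_max_left _ _)) _
      (sub_mem (R.polarFibre_mono (le_max_left _ _) hh)
        (R.spFibre_polar_le _ (R.spFibre_polar_mono (le_max_right _ _) ht))) hvan
  have := add_mem hsub (R.spFibre_polar_mono (le_max_right N M) ht)
  rw [sub_add_cancel] at this
  exact G.saturated N _ hN h this hh

/-- An element with prescribed non-zero matched values, inverted. -/
theorem exists_inverse_values (v : ↥G.B → k)
    (hv : ∀ b b', G.pt b = G.pt b' → v b = v b') :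
    ∃ N, ∃ η ∈ R.spFibre (R.polarSp N),
      ∀ b : ↥G.B, bval (b : Σ i, Place k (Fb i)) η = (v b)⁻¹ := by
  classical
  obtain ⟨N, η, hη, hval⟩ := G.realise
    fun p => if h : ∃ b, G.pt b = p then (v h.choose)⁻¹ else 0
  refine ⟨N, η, hη, fun b => ?_⟩
  have hb : ∃ b', G.pt b' = G.pt b := ⟨b, rfl⟩
  rw [hval, dif_pos hb, hv _ _ hb.choose_spec]

/-- Hensel's lemma on the special fibre. -/
theorem mem_of_mul_pow_mem (q : ℕ) [Fact q.Prime] [CharP k q] {n : ℕ} (hn : (n : k) ≠ 0)
    {N L M M' : ℕ} (hN : G.bound ≤ N) {h g : ∀ i, Fb i} (hh : h ∈ R.polarFibre N)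
    (hg : g ∈ R.polarFibre L) (hg0 : ∀ b ∈ G.B, bval b g ≠ 0)
    (hgm : ∀ b b' : ↥G.B, G.pt b = G.pt b' →
      bval (b : Σ i, Place k (Fb i)) g = bval (b' : Σ i, Place k (Fb i)) g)
    (hgn : g ^ n ∈ R.spFibre (R.polarSp M))
    (hmul : h * g ^ (n - 1) ∈ R.spFibre (R.polarSp M')) :
    h ∈ R.spFibre (R.polarSp N) := by
  haveI := R.isAlgClosed_residue
  have hq : q.Prime := Fact.out
  have hn0 : n ≠ 0 := fun h0 => hn (by simp [h0])
  have hcop : Nat.Coprime q n := hq.coprime_iff_not_dvd.2 fun hd =>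
    hn ((CharP.cast_eq_zero_iff k q n).2 hd)
  -- an exponent divisible by a large power of `q`, congruent to `n - 1` modulo `n`
  set a := G.order * n.totient with ha
  have hmod : (n - 1) * q ^ a ≡ n - 1 [MOD n] := by
    have h1 := (Nat.ModEq.pow_totient hcop).pow G.order
    rw [← pow_mul, one_pow, mul_comm] at h1
    simpa [ha] using h1.mul_left (n - 1)
  obtain ⟨r, hr⟩ : ∃ r, (n - 1) * q ^ a = (n - 1) + n * r := by
    have hle : n - 1 ≤ (n - 1) * q ^ a := Nat.le_mul_of_pos_right _ (pow_pos hq.pos _)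
    obtain ⟨r, hr⟩ := (Nat.modEq_iff_dvd' hle).1 hmod.symm
    exact ⟨r, by omega⟩
  obtain ⟨Nη, η, hη, hηval⟩ := G.exists_inverse_values
    (fun b => bval (b : Σ i, Place k (Fb i)) g) hgm
  set e := (n - 1) * q ^ a with he
  set t := h * (g * η) ^ e with ht
  have htmem : t ∈ R.spFibre (R.polarSp (M' + r * M + e * Nη)) := by
    have heq : t = (h * g ^ (n - 1)) * (g ^ n) ^ r * η ^ e := by
      rw [ht, mul_pow, hr, pow_add, pow_mul g n r]; ring
    rw [heq]
    exact R.mul_mem_spFibre_polar (R.mul_mem_spFibre_polar hmul (R.pow_mem_spFibre_polar hgn r))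
      (R.pow_mem_spFibre_polar hη e)
  refine G.mem_of_sub_vanish hN hh htmem fun b hb => ?_
  have hηmem := G.mem_of_polarFibre (R.spFibre_polar_le _ hη) ⟨b, hb⟩
  have hgmem := G.mem_of_polarFibre hg ⟨b, hb⟩
  have hval : bval b (g * η) = 1 := by
    rw [bval_mul hgmem hηmem, hηval ⟨b, hb⟩, mul_inv_cancel₀ (hg0 b hb)]
  have hv1 : VanishesAt b (q ^ a) ((g * η) ^ e - 1) :=
    vanishesAt_pow_sub_one q (mul_mem hgmem hηmem) hval a (n - 1)
  have hv2 : VanishesAt b G.order ((g * η) ^ e - 1) := by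
    refine hv1.mono (le_trans ?_ (Nat.lt_pow_self hq.one_lt).le)
    exact Nat.le_mul_of_pos_right _ (Nat.totient_pos.2 (Nat.pos_of_ne_zero hn0))
  have heq : h - t = (-h) * ((g * η) ^ e - 1) := by rw [ht]; ring
  rw [heq]
  exact hv2.mul_left (neg_mem (G.mem_of_polarFibre hh ⟨b, hb⟩))

end Gluing

end Fermat.Agent.Bad

end
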