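/-
Normal forms, moving functions, and the independence of the gluing data of all choices.
-/
import Fermat.Agent.Bad.GluingHensel

set_option autoImplicit false

noncomputable section

namespace Fermat.Agent.Bad

open AlgebraicCurve IntermediateField Fermat.Agent.Curve Fermat.Agent.Curve.RedAux MultiReduction

universe uK uF uι uk uFb

theorem mem_range_algebraMap_of_isIntegral {k : Type*} [Field k] [IsAlgClosed k] {E : Type*}
    [Field E] [Algebra k E] {y : E} (hy : IsIntegral k y) :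
    y ∈ Set.range (algebraMap k E) :=
  minpoly.mem_range_of_degree_eq_one k y
    (IsAlgClosed.degree_eq_one_of_irreducible k (minpoly.irreducible hy))

theorem exists_algebraMap_of_ord_eq_zero {K : Type*} [Field K] [IsAlgClosed K] {F : Type*}
    [Field F] [Algebra K F] [IsFunctionFieldOne K F] {f : F} (hf : f ≠ 0)
    (h : ∀ v : Place K F, v.ord f = 0) : ∃ c : K, c ≠ 0 ∧ algebraMap K F c = f := by
  have halg : IsAlgebraic K f := by
    by_contra ht
    obtain ⟨v, hv⟩ := exists_place_ord_pos (K := K) (t := f) ht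
    rw [h v] at hv
    exact lt_irrefl _ hv
  obtain ⟨c, hc⟩ := mem_range_algebraMap_of_isIntegral halg.isIntegral
  exact ⟨c, fun h0 => hf (by rw [← hc, h0, map_zero]), hc⟩

variable {K : Type uK} [Field K] {A : ValuationSubring K}
  {F : Type uF} [Field F] [Algebra K F] {ι : Type uι} [Fintype ι]
  {k : Type uk} [Field k] {Fb : ι → Type uFb} [∀ i, Field (Fb i)] [∀ i, Algebra k (Fb i)]
  [IsAlgClosed K] [IsFunctionFieldOne K F] [∀ i, IsFunctionFieldOne k (Fb i)]
  {R : MultiReduction A F k Fb}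

namespace NormalForm

variable {n : ℕ} {D : Divisor K F} {f : F} (hf : NormalForm R n D f)
include hf

omit [IsAlgClosed K] in
theorem mem_integers : f ∈ R.integers := R.mem_integers.2 hf.mem

/-- The constants of a normal form. -/
def cst (i : ι) : k := (hf.const i).choose

omit [IsAlgClosed K] in
theorem cst_ne_zero (i : ι) : hf.cst i ≠ 0 := (hf.const i).choose_spec.1

/-- The reduction of a normal form. -/
def cvec : ∀ i, Fb i := fun i => algebraMap k (Fb i) (hf.cst i)

omit [IsAlgClosed K] in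
theorem red_eq : R.red ⟨f, hf.mem_integers⟩ = hf.cvec :=
  funext fun i => (hf.const i).choose_spec.2

omit [IsAlgClosed K] in
theorem self_mem_L : f ∈ riemannRochSpace (-(n • D)) := by
  rw [mem_L_iff hf.ne_zero]
  intro v
  rw [Finsupp.neg_apply, Finsupp.smul_apply, neg_neg, nsmul_eq_mul, hf.ord_eq v]

omit [IsAlgClosed K] in
theorem mul_pow_mem_polarSp (hn : n ≠ 0) {N N' : ℕ} {z z' : F} (hz' : z' ∈ R.twistSp D N')
    (hz : z ∈ R.twistSp D N) : z' * z ^ (n - 1) * f ∈ R.polarSp (N' + (n - 1) * N) := by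
  have h := mul_mem_L (mul_mem_L hz' (pow_mem_L hz (n - 1))) hf.self_mem_L
  have heq : (N' • R.poleX + D) + (n - 1) • (N • R.poleX + D) + -(n • D)
      = (N' + (n - 1) * N) • R.poleX := by
    ext v
    simp only [Finsupp.add_apply, Finsupp.neg_apply, Finsupp.smul_apply, nsmul_eq_mul]
    push_cast [Nat.cast_sub (Nat.one_le_iff_ne_zero.2 hn)]
    ring
  rw [heq] at h
  exact h

omit [IsAlgClosed K] in
theorem mul_pow_mem_spFibre (hn : n ≠ 0) {N N' : ℕ} {y y' : ∀ i, Fb i}
    (hy' : y' ∈ R.spFibre (R.twistSp D N')) (hy : y ∈ R.spFibre (R.twistSp D N)) :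
    hf.cvec * (y' * y ^ (n - 1)) ∈ R.spFibre (R.polarSp (N' + (n - 1) * N)) := by
  obtain ⟨z', hz', rfl⟩ := hy'
  obtain ⟨z, hz, rfl⟩ := hy
  refine ⟨z' * z ^ (n - 1) * ⟨f, hf.mem_integers⟩, hf.mul_pow_mem_polarSp hn hz' hz, ?_⟩
  rw [map_mul, map_mul, map_pow, hf.red_eq, mul_comm]

theorem spFibre_twist_le (hn : n ≠ 0) (N : ℕ) :
    R.spFibre (R.twistSp D N) ≤ R.polarFibre N := by
  intro y hy
  have h := R.spFibre_polar_le _ (hf.mul_pow_mem_spFibre hn hy hy)
  rw [R.mem_polarFibre_iff_ord] at h ⊢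
  intro i v
  rcases eq_or_ne (y i) 0 with h0 | h0
  · exact Or.inl h0
  refine Or.inr ?_
  have hc0 : hf.cvec i ≠ 0 := (map_ne_zero _).2 (hf.cst_ne_zero i)
  have hp : y i * y i ^ (n - 1) ≠ 0 := mul_ne_zero h0 (pow_ne_zero _ h0)
  have h1 := (h i v).resolve_left (mul_ne_zero hc0 hp)
  rw [Pi.mul_apply, Pi.mul_apply, Pi.pow_apply, v.ord_mul hc0 hp,
    v.ord_mul h0 (pow_ne_zero _ h0), ord_pow, show v.ord (hf.cvec i) = 0 from ord_algebraMap v _,
    zero_add] at h1
  push_cast [Nat.cast_sub (Nat.one_le_iff_ne_zero.2 hn)] at h1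
  by_contra hlt
  push Not at hlt
  have hn1 : (1 : ℤ) ≤ (n : ℤ) := by exact_mod_cast Nat.one_le_iff_ne_zero.2 hn
  have hmul := mul_lt_mul_of_pos_left hlt (show (0 : ℤ) < n by omega)
  linarith

end NormalForm

namespace Gluing

variable {G : Gluing R}

omit [IsAlgClosed K] in
theorem mkData_eq_iff {γ δ : ↥G.B → kˣ} :
    G.mkData γ = G.mkData δ ↔ ∃ (a : ι → kˣ) (d : G.Pt → kˣ),
      ∀ b, γ b = δ b * (a (b : Σ i, Place k (Fb i)).1 * d (G.pt b)) := by
  have h : G.mkData γ = G.mkData δ ↔ G.mkData (δ⁻¹ * γ) = 0 := by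
    show Additive.ofMul (QuotientGroup.mk γ : G.Data) = Additive.ofMul (QuotientGroup.mk δ) ↔
      Additive.ofMul (QuotientGroup.mk (δ⁻¹ * γ) : G.Data) = Additive.ofMul 1
    rw [Additive.ofMul.apply_eq_iff_eq, Additive.ofMul.apply_eq_iff_eq, eq_comm,
      QuotientGroup.eq, QuotientGroup.eq_one_iff]
  rw [h, G.mkData_eq_zero_iff]
  refine exists_congr fun a => exists_congr fun d => forall_congr' fun b => ?_
  rw [Pi.mul_apply, Pi.inv_apply, inv_mul_eq_iff_eq_mul]

end Gluing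

namespace Moves

variable {G : Gluing R} {n : ℕ} {D D' : Divisor K F} {f f' : F} {N N' : ℕ} {z z' : F}

omit [IsAlgClosed K] in
theorem red_mem_spFibre (hz : Moves G D N z) :
    R.red ⟨z, hz.mem⟩ ∈ R.spFibre (R.twistSp D N) :=
  ⟨⟨z, hz.mem⟩, hz.mem_twist, rfl⟩

theorem red_ne_zero (hz : Moves G D N z) (i : ι) : R.red ⟨z, hz.mem⟩ i ≠ 0 := by
  haveI := R.isAlgClosed_residue
  obtain ⟨b, hb, rfl⟩ := G.meets i
  exact ne_zero_of_bval_ne_zero (hz.value_ne_zero b hb)

theorem ne_zero (hz : Moves G D N z) : z ≠ 0 := by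
  obtain ⟨i⟩ := R.nonempty
  exact R.red_ne_zero_of_ne (hz.red_ne_zero i)

/-- Two sections of the same twist have matched ratio at the branches. -/
theorem ratio_eq (hz : Moves G D N z) (hf : NormalForm R n D f) (hn : n ≠ 0) {y : ∀ i, Fb i}
    (hy : y ∈ R.spFibre (R.twistSp D N')) {b b' : ↥G.B} (hb : G.pt b = G.pt b') :
    bval (b : Σ i, Place k (Fb i)) y * bval (b' : Σ i, Place k (Fb i)) (R.red ⟨z, hz.mem⟩)
      = bval (b' : Σ i, Place k (Fb i)) y
        * bval (b : Σ i, Place k (Fb i)) (R.red ⟨z, hz.mem⟩) := by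
  haveI := R.isAlgClosed_residue
  set w := R.red ⟨z, hz.mem⟩ with hw
  have h1 := G.matched _ _ (hf.mul_pow_mem_spFibre hn hy hz.red_mem_spFibre) b b' hb
  have h2 := G.matched _ _ (hf.mul_pow_mem_spFibre hn hz.red_mem_spFibre hz.red_mem_spFibre) b b' hb
  have hwm : ∀ c : ↥G.B, w (c : Σ i, Place k (Fb i)).1
      ∈ (c : Σ i, Place k (Fb i)).2.toValuationSubring :=
    fun c => G.mem_of_polarFibre (hf.spFibre_twist_le hn _ hz.red_mem_spFibre) c
  have hym : ∀ c : ↥G.B, y (c : Σ i, Place k (Fb i)).1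
      ∈ (c : Σ i, Place k (Fb i)).2.toValuationSubring :=
    fun c => G.mem_of_polarFibre (hf.spFibre_twist_le hn _ hy) c
  have hv : ∀ (u : ∀ i, Fb i) (c : ↥G.B), u (c : Σ i, Place k (Fb i)).1
      ∈ (c : Σ i, Place k (Fb i)).2.toValuationSubring →
      bval (c : Σ i, Place k (Fb i)) (hf.cvec * (u * w ^ (n - 1)))
        = hf.cst (c : Σ i, Place k (Fb i)).1 * (bval (c : Σ i, Place k (Fb i)) u
          * bval (c : Σ i, Place k (Fb i)) w ^ (n - 1)) := fun u c hu => by
    rw [← bval_pow (hwm c), ← bval_mul hu (pow_mem (hwm c) _)]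
    exact bval_mul_algebraMap hf.cst (mul_mem hu (pow_mem (hwm c) _))
  rw [hv y b (hym b), hv y b' (hym b')] at h1
  rw [hv w b (hwm b), hv w b' (hwm b')] at h2
  have hne : hf.cst (b : Σ i, Place k (Fb i)).1 * bval (b : Σ i, Place k (Fb i)) w ^ (n - 1) ≠ 0 :=
    mul_ne_zero (hf.cst_ne_zero _) (pow_ne_zero _ (hz.value_ne_zero b b.2))
  refine mul_left_cancel₀ hne ?_
  calc hf.cst (b : Σ i, Place k (Fb i)).1 * bval (b : Σ i, Place k (Fb i)) w ^ (n - 1)
        * (bval (b : Σ i, Place k (Fb i)) y * bval (b' : Σ i, Place k (Fb i)) w)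
      = (hf.cst (b : Σ i, Place k (Fb i)).1 * (bval (b : Σ i, Place k (Fb i)) y
          * bval (b : Σ i, Place k (Fb i)) w ^ (n - 1)))
        * bval (b' : Σ i, Place k (Fb i)) w := by ring
    _ = (hf.cst (b' : Σ i, Place k (Fb i)).1 * (bval (b' : Σ i, Place k (Fb i)) y
          * bval (b' : Σ i, Place k (Fb i)) w ^ (n - 1)))
        * bval (b' : Σ i, Place k (Fb i)) w := by rw [h1]
    _ = bval (b' : Σ i, Place k (Fb i)) y
        * (hf.cst (b' : Σ i, Place k (Fb i)).1 * (bval (b' : Σ i, Place k (Fb i)) w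
          * bval (b' : Σ i, Place k (Fb i)) w ^ (n - 1))) := by ring
    _ = bval (b' : Σ i, Place k (Fb i)) y
        * (hf.cst (b : Σ i, Place k (Fb i)).1 * (bval (b : Σ i, Place k (Fb i)) w
          * bval (b : Σ i, Place k (Fb i)) w ^ (n - 1))) := by rw [← h2]
    _ = hf.cst (b : Σ i, Place k (Fb i)).1 * bval (b : Σ i, Place k (Fb i)) w ^ (n - 1)
        * (bval (b' : Σ i, Place k (Fb i)) y * bval (b : Σ i, Place k (Fb i)) w) := by ring

/-- Two moving functions give the same gluing data. -/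
theorem mkData_values_eq (hz : Moves G D N z) (hz' : Moves G D N' z') (hf : NormalForm R n D f)
    (hn : n ≠ 0) : G.mkData hz'.values = G.mkData hz.values := by
  classical
  rw [Gluing.mkData_eq_iff]
  refine ⟨1, fun p => if h : ∃ b, G.pt b = p then hz'.values h.choose / hz.values h.choose else 1,
    fun b => ?_⟩
  have hb : ∃ b', G.pt b' = G.pt b := ⟨b, rfl⟩
  simp only [Pi.one_apply, one_mul, dif_pos hb]
  have h := hz.ratio_eq hf hn hz'.red_mem_spFibre hb.choose_spec
  have h' : hz'.values hb.choose * hz.values b = hz'.values b * hz.values hb.choose :=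
    Units.ext h
  rw [mul_div_assoc', eq_div_iff_mul_eq', ← h', mul_comm]

omit [IsAlgClosed K] in
theorem mono (hz : Moves G D N z) {M : ℕ} (h : N ≤ M) : Moves G D M z :=
  ⟨hz.mem, R.twistSp_mono h hz.mem_twist, hz.value_ne_zero⟩

theorem mul (hz : Moves G D N z) (hz' : Moves G D' N' z') (hf : NormalForm R n D f)
    (hf' : NormalForm R n D' f') (hn : n ≠ 0) :
    ∃ h : Moves G (D + D') (N + N') (z * z'), h.values = hz.values * hz'.values := by
  haveI := R.isAlgClosed_residue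
  have hval : ∀ b : ↥G.B, bval (b : Σ i, Place k (Fb i)) (R.red ⟨z * z', mul_mem hz.mem hz'.mem⟩)
      = bval (b : Σ i, Place k (Fb i)) (R.red ⟨z, hz.mem⟩)
        * bval (b : Σ i, Place k (Fb i)) (R.red ⟨z', hz'.mem⟩) := fun b => by
    rw [show (⟨z * z', mul_mem hz.mem hz'.mem⟩ : R.integers) = ⟨z, hz.mem⟩ * ⟨z', hz'.mem⟩
      from rfl, map_mul]
    exact bval_mul (G.mem_of_polarFibre (hf.spFibre_twist_le hn _ hz.red_mem_spFibre) b)
      (G.mem_of_polarFibre (hf'.spFibre_twist_le hn _ hz'.red_mem_spFibre) b)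
  refine ⟨⟨mul_mem hz.mem hz'.mem, R.mul_mem_twistSp hz.mem_twist hz'.mem_twist, fun b hb => ?_⟩,
    funext fun b => Units.ext (hval b)⟩
  rw [hval ⟨b, hb⟩]
  exact mul_ne_zero (hz.value_ne_zero b hb) (hz'.value_ne_zero b hb)

end Moves

omit [IsAlgClosed K] in
theorem normalForm_zero_one (n : ℕ) : NormalForm R n 0 (1 : F) where
  degree_zero := map_zero _
  ne_zero := one_ne_zero
  ord_eq v := by simp
  mem i := one_mem _
  const i := ⟨1, one_ne_zero, by
    rw [map_one]; exact map_one (R.φ i)⟩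

omit [IsAlgClosed K] in
theorem NormalForm.mul {n : ℕ} {D D' : Divisor K F} {f f' : F} (hf : NormalForm R n D f)
    (hf' : NormalForm R n D' f') : NormalForm R n (D + D') (f * f') where
  degree_zero := by rw [map_add, hf.degree_zero, hf'.degree_zero, add_zero]
  ne_zero := mul_ne_zero hf.ne_zero hf'.ne_zero
  ord_eq v := by
    rw [Finsupp.add_apply, mul_add, hf.ord_eq, hf'.ord_eq, v.ord_mul hf.ne_zero hf'.ne_zero]
  mem i := mul_mem (hf.mem i) (hf'.mem i)
  const i := by
    obtain ⟨c, hc, hce⟩ := hf.const i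
    obtain ⟨c', hc', hce'⟩ := hf'.const i
    refine ⟨c * c', mul_ne_zero hc hc', ?_⟩
    rw [map_mul, ← hce, ← hce']
    exact map_mul (R.φ i) ⟨f, hf.mem i⟩ ⟨f', hf'.mem i⟩

theorem moves_zero_one (G : Gluing R) :
    ∃ h : Moves G (0 : Divisor K F) 0 1, h.values = 1 := by
  haveI := R.isAlgClosed_residue
  have h1 : ∀ b : Σ i, Place k (Fb i), bval b (R.red ⟨1, one_mem _⟩) = 1 := fun b => by
    rw [show (⟨1, one_mem _⟩ : R.integers) = 1 from rfl, map_one, bval_one]
  refine ⟨⟨one_mem _, ?_, fun b _ => by rw [h1]; exact one_ne_zero⟩,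
    funext fun b => Units.ext (h1 b)⟩
  rw [R.twistSp_zero]
  exact R.one_mem_polarSp 0

/-- Changing the divisor inside its class: the comparison function is a unit on every component
with constant reduction. -/
theorem NormalForm.exists_comparison {n : ℕ} (hn : n ≠ 0) {D D' : Divisor K F} {f f' : F}
    (hf : NormalForm R n D f) (hf' : NormalForm R n D' f') {u : F} (hu : u ≠ 0)
    (hD : ∀ v : Place K F, D' v = D v + v.ord u) :
    ∃ (w : R.integers) (a : ι → k), (w : F) ≠ 0 ∧ (∀ i, a i ≠ 0) ∧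
      (∀ v : Place K F, D' v = D v + v.ord (w : F)) ∧
      ∀ i, R.red w i = algebraMap k (Fb i) (a i) := by
  haveI := R.isAlgClosed_residue
  have hne : u ^ n * f ≠ 0 := mul_ne_zero (pow_ne_zero _ hu) hf.ne_zero
  obtain ⟨c, hc0, hc⟩ := exists_algebraMap_of_ord_eq_zero (K := K)
    (div_ne_zero hf'.ne_zero hne) fun v => by
      rw [ord_div v hf'.ne_zero hne, v.ord_mul (pow_ne_zero _ hu) hf.ne_zero, ord_pow,
        ← hf'.ord_eq, ← hf.ord_eq, hD v]
      ring
  obtain ⟨s, hs⟩ := IsAlgClosed.exists_pow_nat_eq c (Nat.pos_of_ne_zero hn)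
  have hs0 : s ≠ 0 := fun h => hc0 (by rw [← hs, h, zero_pow hn])
  set w := s • u with hw
  have hw0 : w ≠ 0 := smul_ne_zero hs0 hu
  have hpow : w ^ n * f = f' := by
    rw [hw, Algebra.smul_def, mul_pow, ← map_pow, hs, hc, mul_assoc, div_mul_cancel₀ _ hne]
  have hinv : ∀ i, f⁻¹ ∈ R.V i := fun i => by
    refine R.inv_mem_V (f := ⟨f, hf.mem i⟩) ?_
    obtain ⟨c₁, hc₁, hce⟩ := hf.const i
    rw [hce]
    exact (map_ne_zero _).2 hc₁
  have hwV : ∀ i, w ∈ R.V i := fun i => by
    have hp : w ^ n ∈ R.V i := by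
      rw [show w ^ n = f' * f⁻¹ by rw [← hpow, mul_inv_cancel_right₀ hf.ne_zero]]
      exact mul_mem (hf'.mem i) (hinv i)
    rcases (R.V i).mem_or_inv_mem w with h | h
    · exact h
    · have : w = w ^ n * w⁻¹ ^ (n - 1) := by
        have h2 : w ^ n = w * w ^ (n - 1) := by
          rw [← pow_succ', Nat.sub_add_cancel (Nat.one_le_iff_ne_zero.2 hn)]
        rw [h2, inv_pow, mul_inv_cancel_right₀ (pow_ne_zero _ hw0)]
      rw [this]
      exact mul_mem hp (pow_mem h _)
  have hconst : ∀ i, ∃ a : k, a ≠ 0 ∧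
      R.φ i ⟨w, hwV i⟩ = algebraMap k (Fb i) a := fun i => by
    obtain ⟨c₁, hc₁, hce⟩ := hf.const i
    obtain ⟨c₂, hc₂, hce'⟩ := hf'.const i
    have heq : R.φ i ⟨w, hwV i⟩ ^ n * algebraMap k (Fb i) c₁ = algebraMap k (Fb i) c₂ := by
      rw [← hce, ← hce', ← map_pow, ← map_mul]
      exact congrArg _ (Subtype.ext hpow)
    have hint : IsIntegral k (R.φ i ⟨w, hwV i⟩) := by
      refine IsIntegral.of_pow (Nat.pos_of_ne_zero hn) ?_
      rw [show R.φ i ⟨w, hwV i⟩ ^ n = algebraMap k (Fb i) (c₂ / c₁) by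
        rw [map_div₀, ← heq, mul_div_cancel_right₀ _ ((map_ne_zero _).2 hc₁)]]
      exact isIntegral_algebraMap
    obtain ⟨a, ha⟩ := mem_range_algebraMap_of_isIntegral hint
    refine ⟨a, fun h0 => ?_, ha.symm⟩
    rw [← ha, h0, map_zero, zero_pow hn, zero_mul] at heq
    exact (map_ne_zero _).2 hc₂ heq.symm
  choose a ha0 ha using hconst
  exact ⟨⟨w, R.mem_integers.2 hwV⟩, a, hw0, ha0,
    fun v => by rw [hD v]; exact congrArg _ (ord_const_smul v hs0 u).symm, ha⟩

/-- The gluing data only depend on the class. -/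
theorem Moves.mkData_values_eq_of_class {G : Gluing R} {n : ℕ} (hn : n ≠ 0)
    {D D' : Divisor K F} {f f' : F} {N N' : ℕ} {z z' : F} (hf : NormalForm R n D f)
    (hf' : NormalForm R n D' f') (hz : Moves G D N z) (hz' : Moves G D' N' z') {u : F}
    (hu : u ≠ 0) (hD : ∀ v : Place K F, D' v = D v + v.ord u) :
    G.mkData hz'.values = G.mkData hz.values := by
  haveI := R.isAlgClosed_residue
  obtain ⟨w, a, hw0, ha0, hwD, hwa⟩ := hf.exists_comparison hn hf' hu hD
  have hred : ∀ i, R.red w i ≠ 0 := fun i => by rw [hwa]; exact (map_ne_zero _).2 (ha0 i)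
  set z₁ : R.integers := ⟨z, hz.mem⟩ * ⟨_, R.inv_mem_integers hred⟩ with hz₁
  have hred₁ : R.red z₁ = (fun i => algebraMap k (Fb i) (a i)⁻¹) * R.red ⟨z, hz.mem⟩ := by
    rw [hz₁, map_mul, mul_comm]
    congr 1
    funext i
    rw [R.red_inv hred, hwa, map_inv₀]
  have hval : ∀ b : ↥G.B, bval (b : Σ i, Place k (Fb i)) (R.red z₁)
      = (a (b : Σ i, Place k (Fb i)).1)⁻¹
        * bval (b : Σ i, Place k (Fb i)) (R.red ⟨z, hz.mem⟩) := fun b => by
    rw [hred₁]
    exact bval_mul_algebraMap (fun i => (a i)⁻¹)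
      (G.mem_of_polarFibre (hf.spFibre_twist_le hn _ hz.red_mem_spFibre) b)
  have hmoves : Moves G D' N (z₁ : F) := by
    refine ⟨z₁.2, ?_, fun b hb => ?_⟩
    · show z * ((w : F))⁻¹ ∈ R.twistSp D' N
      unfold twistSp
      rw [mem_L_iff (mul_ne_zero hz.ne_zero (inv_ne_zero hw0))]
      intro v
      rw [v.ord_mul hz.ne_zero (inv_ne_zero hw0), v.ord_inv, Finsupp.add_apply, hwD v]
      have := (mem_L_iff hz.ne_zero).1 hz.mem_twist v
      rw [Finsupp.add_apply] at this
      omega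
    · rw [show (⟨(z₁ : F), z₁.2⟩ : R.integers) = z₁ from rfl, hval ⟨b, hb⟩]
      exact mul_ne_zero (inv_ne_zero (ha0 _)) (hz.value_ne_zero b hb)
  rw [hmoves.mkData_values_eq hz' hf' hn, Gluing.mkData_eq_iff]
  refine ⟨fun i => (Units.mk0 (a i) (ha0 i))⁻¹, 1, fun b => ?_⟩
  apply Units.ext
  simp only [Pi.one_apply, mul_one, Units.val_mul, Units.val_inv_eq_inv_val, Units.val_mk0]
  rw [mul_comm]
  exact hval b

/-- A normal form moves away from the branches as soon as it does so at every single branch. -/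
theorem exists_moves_of_branchwise (G : Gluing R) {n : ℕ} (hn : n ≠ 0) {D : Divisor K F} {f : F}
    (hf : NormalForm R n D f)
    (h : ∀ b ∈ G.B, ∃ N, ∃ y ∈ R.spFibre (R.twistSp D N), bval b y ≠ 0) :
    ∃ N z, Moves G D N z := by
  classical
  haveI := R.isAlgClosed_residue
  choose! Nb yb hyb hyb0 using h
  set N := G.B.sup Nb with hN
  suffices key : ∀ S ⊆ G.B, ∃ y ∈ R.spFibre (R.twistSp D N), ∀ b ∈ S, bval b y ≠ 0 by
    obtain ⟨y, ⟨z, hz, rfl⟩, hne⟩ := key G.B subset_rfl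
    exact ⟨N, z, z.2, hz, hne⟩
  intro S
  induction S using Finset.induction_on with
  | empty => exact fun _ => ⟨0, zero_mem _, by simp⟩
  | insert c S hc ih =>
    intro hsub
    obtain ⟨y, hy, hne⟩ := ih fun b hb => hsub (Finset.mem_insert_of_mem hb)
    have hcB := hsub (Finset.mem_insert_self c S)
    have hy' : yb c ∈ R.spFibre (R.twistSp D N) :=
      R.spFibre_mono (R.twistSp_mono (Finset.le_sup hcB)) (hyb c hcB)
    haveI : Infinite k := IsAlgClosed.instInfinite
    obtain ⟨t, ht⟩ := Infinite.exists_notMem_finset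
      ((insert c S).image fun b => -(bval b y) / bval b (yb c))
    refine ⟨y + t • yb c, add_mem hy (Submodule.smul_mem _ _ hy'), fun b hb => ?_⟩
    have hbB := hsub hb
    have hm := G.mem_of_polarFibre (hf.spFibre_twist_le hn _ hy) ⟨b, hbB⟩
    have hm' := G.mem_of_polarFibre (hf.spFibre_twist_le hn _ hy') ⟨b, hbB⟩
    rw [bval_add hm (show (t • yb c) b.1 ∈ b.2.toValuationSubring by
      rw [Pi.smul_apply, Algebra.smul_def]; exact mul_mem (b.2.algebraMap_mem' t) hm'), bval_smul t hm']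
    by_cases hz : bval b (yb c) = 0
    · rw [hz, mul_zero, add_zero]
      rcases Finset.mem_insert.1 hb with rfl | hbS
      · exact absurd hz (hyb0 _ hbB)
      · exact hne b hbS
    · intro h0
      apply ht
      refine Finset.mem_image.2 ⟨b, hb, ?_⟩
      rw [div_eq_iff hz]
      linear_combination -h0

end Fermat.Agent.Bad

end
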