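/-
Components of the special fibre: the class of a function on a component, the component map of a
torsion class, normal forms from component-wise triviality, and inertial automorphisms.
-/
import Fermat.Agent.Bad.GluingNormal
import Fermat.Prelude.Def_AlgebraicCurve_BaseChangeGalois
import Mathlib.GroupTheory.QuotientGroup.Basic

set_option autoImplicit false

noncomputable section

namespace Fermat.Agent.Bad.BComp

open AlgebraicCurve IntermediateField Fermat.Agent.Curve Fermat.Agent.Curve.RedAux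
open MultiReduction

universe uK uF uι uk uFb

variable {K : Type uK} [Field K] {A : ValuationSubring K}
  {F : Type uF} [Field F] [Algebra K F] {ι : Type uι} [Fintype ι]
  {k : Type uk} [Field k] {Fb : ι → Type uFb} [∀ i, Field (Fb i)] [∀ i, Algebra k (Fb i)]
  (R : MultiReduction A F k Fb)

/-- The target group of the component map. -/
abbrev Target (k : Type uk) [Field k] (E : Type uFb) [Field E] [Algebra k E] (n : ℕ) :
    Type _ :=
  Eˣ ⧸ ((Units.map (algebraMap k E : k →* E)).range ⊔ (powMonoidHom n : Eˣ →* Eˣ).range)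

theorem target_eq_one_iff {E : Type uFb} [Field E] [Algebra k E] {n : ℕ} (u : Eˣ) :
    (QuotientGroup.mk u : Target k E n) = 1 ↔
      ∃ (a : k) (g : E), a ≠ 0 ∧ g ≠ 0 ∧ (u : E) = algebraMap k E a * g ^ n := by
  rw [QuotientGroup.eq_one_iff, Subgroup.mem_sup]
  constructor
  · rintro ⟨_, ⟨a, rfl⟩, _, ⟨g, rfl⟩, h⟩
    exact ⟨a, g, a.ne_zero, g.ne_zero, by rw [← h]; rfl⟩
  · rintro ⟨a, g, ha, hg, h⟩
    exact ⟨_, ⟨Units.mk0 a ha, rfl⟩, _, ⟨Units.mk0 g hg, rfl⟩, Units.ext h.symm⟩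

/-- Two primitive scalings of a function differ by a constant. -/
theorem exists_eq_algebraMap_mul_of_scale (i : ι) {f : F} {c c' : K}
    (h : c • f ∈ R.V i) (h' : c' • f ∈ R.V i) (hn : R.φ i ⟨c • f, h⟩ ≠ 0)
    (hn' : R.φ i ⟨c' • f, h'⟩ ≠ 0) :
    ∃ a : k, a ≠ 0 ∧ R.φ i ⟨c' • f, h'⟩ = algebraMap k (Fb i) a * R.φ i ⟨c • f, h⟩ := by
  have hc0 : ∀ {e : K} (he : e • f ∈ R.V i), R.φ i ⟨e • f, he⟩ ≠ 0 → e ≠ 0 := by
    rintro e he hne rfl
    exact hne ((congrArg (R.φ i) (Subtype.ext (zero_smul K f) :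
      (⟨(0 : K) • f, he⟩ : R.V i) = 0)).trans (map_zero _))
  have key : ∀ {e e' : K} (he : e • f ∈ R.V i) (he' : e' • f ∈ R.V i) (hd : e' / e ∈ A),
      e ≠ 0 → R.φ i ⟨e' • f, he'⟩ =
        algebraMap k (Fb i) (R.π ⟨e' / e, hd⟩) * R.φ i ⟨e • f, he⟩ := by
    intro e e' he he' hd h0
    rw [← R.φ_algebraMap i, ← map_mul]
    refine congrArg _ (Subtype.ext ?_)
    show e' • f = algebraMap K F (e' / e) * (e • f)
    rw [Algebra.smul_def, Algebra.smul_def, ← mul_assoc, ← map_mul, div_mul_cancel₀ _ h0]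
  rcases A.mem_or_inv_mem (c' / c) with hd | hd
  · refine ⟨_, fun h0 => hn' ?_, key h h' hd (hc0 h hn)⟩
    rw [key h h' hd (hc0 h hn), h0, map_zero, zero_mul]
  · rw [inv_div] at hd
    have h2 := key h' h hd (hc0 h' hn')
    have h0 : R.π ⟨c / c', hd⟩ ≠ 0 := fun h0 => hn (by rw [h2, h0, map_zero, zero_mul])
    refine ⟨(R.π ⟨c / c', hd⟩)⁻¹, inv_ne_zero h0, ?_⟩
    rw [h2, ← mul_assoc, ← map_mul, inv_mul_cancel₀ h0, map_one, one_mul]

/-- The primitive reduction of a non-zero function on a component. -/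
def prim (i : ι) (f : Fˣ) : (Fb i)ˣ :=
  Units.mk0 _ (R.exists_scale i f f.ne_zero).choose_spec.choose_spec

/-- The class of a function on the component `i`. -/
def cls (n : ℕ) (i : ι) (f : Fˣ) : Target k (Fb i) n := QuotientGroup.mk (prim R i f)

theorem cls_eq_mk {n : ℕ} (i : ι) (f : Fˣ) {c : K} (h : c • (f : F) ∈ R.V i) (u : (Fb i)ˣ)
    (hu : R.φ i ⟨c • (f : F), h⟩ = u) : cls R n i f = QuotientGroup.mk u := by
  have hne : R.φ i ⟨c • (f : F), h⟩ ≠ 0 := by rw [hu]; exact u.ne_zero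
  obtain ⟨a, ha, hae⟩ := exists_eq_algebraMap_mul_of_scale R i h
    (R.exists_scale i f f.ne_zero).choose_spec.choose hne
    (R.exists_scale i f f.ne_zero).choose_spec.choose_spec
  rw [cls, QuotientGroup.eq]
  refine Subgroup.mem_sup_left ⟨(Units.mk0 a ha)⁻¹, Units.ext ?_⟩
  rw [hu] at hae
  simp only [Units.coe_map, MonoidHom.coe_coe, Units.val_mul, Units.val_inv_eq_inv_val,
    Units.val_mk0, prim]
  rw [hae, map_inv₀, mul_inv, mul_assoc, inv_mul_cancel₀ u.ne_zero, mul_one]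

theorem cls_mul {n : ℕ} (i : ι) (f g : Fˣ) : cls R n i (f * g) = cls R n i f * cls R n i g := by
  obtain ⟨c, hc, hcn⟩ := R.exists_scale i f f.ne_zero
  obtain ⟨d, hd, hdn⟩ := R.exists_scale i g g.ne_zero
  have hmem : (c * d) • ((f * g : Fˣ) : F) ∈ R.V i := by
    rw [Units.val_mul, ← smul_mul_smul_comm]
    exact mul_mem hc hd
  rw [cls_eq_mk R i f hc (Units.mk0 _ hcn) rfl, cls_eq_mk R i g hd (Units.mk0 _ hdn) rfl,
    cls_eq_mk R i (f * g) hmem (Units.mk0 _ hcn * Units.mk0 _ hdn) ?_]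
  · rfl
  · refine (congrArg (R.φ i) (Subtype.ext ?_ :
      (⟨(c * d) • ((f * g : Fˣ) : F), hmem⟩ : R.V i) = ⟨c • (f : F), hc⟩ * ⟨d • (g : F), hd⟩)).trans
      (map_mul _ _ _)
    exact (smul_mul_smul_comm _ _ _ _).symm

theorem cls_algebraMap {n : ℕ} (i : ι) (a : K) (ha : a ≠ 0) :
    cls R n i (Units.mk0 (algebraMap K F a) ((map_ne_zero _).2 ha)) = 1 := by
  have hmem : a⁻¹ • algebraMap K F a ∈ R.V i := by
    rw [Algebra.smul_def, ← map_mul, inv_mul_cancel₀ ha, map_one]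
    exact one_mem _
  rw [cls_eq_mk R i _ (c := a⁻¹) hmem 1 ?_]
  · rfl
  · rw [Units.val_one, ← map_one (R.φ i)]
    exact congrArg _ (Subtype.ext (show a⁻¹ • algebraMap K F a = 1 by
      rw [Algebra.smul_def, ← map_mul, inv_mul_cancel₀ ha, map_one]))

/-- The class as a group homomorphism. -/
def clsHom (n : ℕ) (i : ι) : Fˣ →* Target k (Fb i) n :=
  MonoidHom.mk' (cls R n i) (cls_mul R i)

theorem clsHom_pow_eq_one {n : ℕ} (i : ι) (f : Fˣ) : clsHom R n i (f ^ n) = 1 := by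
  rw [map_pow, clsHom, MonoidHom.mk'_apply, cls, ← QuotientGroup.mk_pow, QuotientGroup.eq_one_iff]
  exact Subgroup.mem_sup_right ⟨_, rfl⟩

variable [IsAlgClosed K] [IsFunctionFieldOne K F]

/-- A representative `(D, f)` of a torsion class. -/
theorem exists_rep {n : ℕ} (x : Pic0.torsion K F n) :
    ∃ (D : Divisor.degZero (K := K) (F := F)) (f : Fˣ), Pic0.mk D = (x : Pic0 K F) ∧
      ∀ v : Place K F, (n : ℤ) * (D : Divisor K F) v = v.ord (f : F) := by
  obtain ⟨D, hD⟩ := Pic0.mk_surjective (x : Pic0 K F)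
  have hx := Pic0.mem_torsion.1 x.2
  rw [← hD, Pic0.mk, ← QuotientAddGroup.mk_zsmul, QuotientAddGroup.eq_zero_iff,
    AddSubgroup.mem_addSubgroupOf] at hx
  obtain ⟨f, hf, hfD⟩ := hx
  exact ⟨D, Units.mk0 f hf, hD, fun v => by rw [Units.val_mk0, ← hfD v]; simp⟩

/-- The class on a component only depends on the divisor class. -/
theorem cls_eq_of_class {n : ℕ} (i : ι) {D D' : Divisor.degZero (K := K) (F := F)}
    (hDD : Pic0.mk D = Pic0.mk D') {f f' : Fˣ}
    (hf : ∀ v : Place K F, (n : ℤ) * (D : Divisor K F) v = v.ord (f : F))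
    (hf' : ∀ v : Place K F, (n : ℤ) * (D' : Divisor K F) v = v.ord (f' : F)) :
    clsHom R n i f' = clsHom R n i f := by
  obtain ⟨w, hw, hwD⟩ : ((D' - D : Divisor.degZero (K := K) (F := F)) : Divisor K F) ∈
      Divisor.principal (K := K) (F := F) := by
    rw [← AddSubgroup.mem_addSubgroupOf (H := Divisor.principal (K := K) (F := F))
      (K := Divisor.degZero (K := K) (F := F)), ← QuotientAddGroup.eq_zero_iff]
    show Pic0.mk (D' - D) = 0
    rw [Pic0.mk, QuotientAddGroup.mk_sub]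
    exact sub_eq_zero.2 hDD.symm
  have hne : (f : F) * w ^ n ≠ 0 := mul_ne_zero f.ne_zero (pow_ne_zero _ hw)
  obtain ⟨c, hc, hce⟩ := exists_algebraMap_of_ord_eq_zero (K := K)
    (div_ne_zero f'.ne_zero hne) fun v => by
      rw [ord_div v f'.ne_zero hne, v.ord_mul f.ne_zero (pow_ne_zero _ hw), ord_pow, ← hf' v,
        ← hf v, ← hwD v]
      simp only [AddSubgroupClass.coe_sub, Finsupp.sub_apply]
      ring
  have e : f' = f * Units.mk0 w hw ^ n * Units.mk0 _ ((map_ne_zero (algebraMap K F)).2 hc) :=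
    Units.ext (by
      simp only [Units.val_mul, Units.val_pow_eq_pow_val, Units.val_mk0]
      rw [hce, mul_div_cancel₀ _ hne])
  rw [e, map_mul, map_mul, clsHom_pow_eq_one,
    show clsHom R n i (Units.mk0 _ ((map_ne_zero (algebraMap K F)).2 hc)) = 1 from
      cls_algebraMap R i c hc]
  exact (mul_one (clsHom R n i f * (1 : Target k (Fb i) n))).trans (mul_one (clsHom R n i f))

/-- The component map. -/
theorem exists_componentMap {n : ℕ} (i : ι) :
    ∃ Φ : Pic0.torsion K F n →+ Additive (Target k (Fb i) n),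
      ∀ (D : Divisor.degZero (K := K) (F := F)) (f : F) (c : K) (h : c • f ∈ R.V i)
        (u : (Fb i)ˣ) (hD : Pic0.mk D ∈ Pic0.torsion K F n),
        f ≠ 0 → (∀ v : Place K F, (n : ℤ) * (D : Divisor K F) v = v.ord f) →
        R.φ i ⟨c • f, h⟩ = u →
        Φ ⟨Pic0.mk D, hD⟩ = Additive.ofMul (QuotientGroup.mk u) := by
  choose D f hD hf using exists_rep (K := K) (F := F) (n := n)
  refine ⟨AddMonoidHom.mk' (fun x => Additive.ofMul (clsHom R n i (f x))) fun x y => ?_,
    fun D' g c h u hD' hg hgD hu => ?_⟩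
  · show Additive.ofMul (clsHom R n i (f (x + y))) =
      Additive.ofMul (clsHom R n i (f x) * clsHom R n i (f y))
    rw [← map_mul]
    refine congrArg Additive.ofMul (cls_eq_of_class R i (D := D x + D y) (D' := D (x + y)) ?_ ?_
      (hf _))
    · rw [Pic0.mk_add, hD, hD, hD]; rfl
    · intro v
      rw [AddSubgroup.coe_add, Finsupp.add_apply, mul_add, hf, hf, Units.val_mul,
        v.ord_mul (f x).ne_zero (f y).ne_zero]
  · refine congrArg Additive.ofMul ?_
    rw [cls_eq_of_class R i (D := D') (f := Units.mk0 g hg)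
      (hD ⟨Pic0.mk D', hD'⟩).symm hgD (hf _)]
    exact cls_eq_mk R i _ h u hu

omit [IsAlgClosed K] [IsFunctionFieldOne K F] in
/-- A function whose reduction vanishes on a component is a small multiple of an integral one. -/
theorem exists_small {i : ι} {h : F} (hh : h ∈ R.V i) (h0 : R.φ i ⟨h, hh⟩ = 0) :
    ∃ δ ∈ IsLocalRing.maximalIdeal A, ∃ g ∈ R.V i, h = (δ : K) • g := by
  rcases eq_or_ne h 0 with rfl | hne
  · exact ⟨0, zero_mem _, 0, zero_mem _, by simp⟩
  obtain ⟨c, hc, hcn⟩ := R.exists_scale i h hne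
  have hcA : c ∉ A := fun hA => hcn (by
    rw [show (⟨c • h, hc⟩ : R.V i) = ⟨algebraMap K F c, (R.mem_V_iff i c).2 hA⟩ * ⟨h, hh⟩ from
      Subtype.ext (Algebra.smul_def c h), map_mul, h0, mul_zero])
  have hc0 : c ≠ 0 := fun h => hcA (h ▸ zero_mem _)
  refine ⟨⟨c⁻¹, (A.mem_or_inv_mem c).resolve_left hcA⟩, ?_, c • h, hc, ?_⟩
  · rintro hu
    obtain ⟨b, hb⟩ := IsUnit.exists_right_inv hu
    have hb' : c⁻¹ * (b : K) = 1 := congrArg Subtype.val hb
    exact hcA (by rw [← inv_inv c, ← eq_inv_of_mul_eq_one_right hb']; exact b.2)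
  · rw [smul_smul, inv_mul_cancel₀ hc0, one_smul]

omit [IsAlgClosed K] [IsFunctionFieldOne K F] in
/-- Simultaneous approximation: prescribed scalings and reductions on all components. -/
theorem exists_prescribed (hA : RankLeOne A) (e : ι → K) (he : ∀ i, e i ≠ 0) (g : ∀ i, Fb i) :
    ∃ w : F, ∀ i, ∃ h : (e i)⁻¹ • w ∈ R.V i, R.φ i ⟨_, h⟩ = g i := by
  classical
  choose l hl hlφ using fun i => R.exists_lift (Function.update 0 i (1 : Fb i))
  choose v hv hvφ using fun i => R.exists_lift (Function.update 0 i (g i))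
  -- a large power of `l i` kills the growth of `e i` on the other components
  have hN : ∀ i j, i ≠ j → ∃ N₀ : ℕ, ∀ N, N₀ ≤ N →
      ∃ hm : (e i / e j) • (l i ^ N) ∈ R.V j, R.φ j ⟨_, hm⟩ = 0 := by
    intro i j hij
    obtain ⟨δ, hδ, y, hy, hly⟩ := exists_small R (hl i j)
      ((hlφ i j).trans (by rw [Function.update_of_ne hij.symm]; rfl))
    rcases eq_or_ne δ 0 with rfl | hδ0
    · refine ⟨1, fun N hN => ?_⟩
      have hz : (e i / e j) • (l i ^ N) = 0 := by
        rw [hly, ZeroMemClass.coe_zero, zero_smul, zero_pow (by omega), smul_zero]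
      refine ⟨by rw [hz]; exact zero_mem _, ?_⟩
      exact (congrArg (R.φ j) (Subtype.ext hz : (⟨_, _⟩ : R.V j) = 0)).trans (map_zero _)
    obtain ⟨N₀, hN₀⟩ : ∃ N₀ : ℕ, (e i / e j) * (δ : K) ^ N₀ ∈ A := by
      rcases A.mem_or_inv_mem (e i / e j) with h | h
      · exact ⟨0, by simpa using h⟩
      · rw [inv_div] at h
        obtain ⟨m, s, hs⟩ := hA δ ⟨e j / e i, h⟩ hδ (fun h0 => by
          exact div_ne_zero (he j) (he i) (congrArg Subtype.val h0))
        refine ⟨m, ?_⟩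
        have hs' : (δ : K) ^ m = (e j / e i) * (s : K) := by
          rw [← SubmonoidClass.coe_pow, hs]; rfl
        have e2 : (e i / e j) * ((e j / e i) * (s : K)) = (s : K) := by
          rw [← mul_assoc, div_mul_div_cancel₀ (he j), div_self (he i), one_mul]
        rw [hs', e2]
        exact s.2
    refine ⟨N₀ + 1, fun N hN => ?_⟩
    obtain ⟨r, rfl⟩ : ∃ r, N = N₀ + 1 + r := ⟨N - (N₀ + 1), by omega⟩
    set t : A := ⟨_, hN₀⟩ * δ ^ (1 + r)
    have heq : (e i / e j) • (l i ^ (N₀ + 1 + r)) = algebraMap K F (t : K) * y ^ (N₀ + 1 + r) := by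
      rw [hly, Algebra.smul_def, Algebra.smul_def, mul_pow, ← map_pow, ← mul_assoc, ← map_mul]
      congr 2
      show _ = e i / e j * (δ : K) ^ N₀ * (δ : K) ^ (1 + r)
      ring
    have htm : R.π t = 0 := by
      rw [R.π_eq_zero_iff_mem]
      exact Ideal.mul_mem_left _ _ (Ideal.pow_mem_of_mem _ hδ _ (by omega))
    refine ⟨by rw [heq]; exact mul_mem ((R.mem_V_iff j _).2 t.2) (pow_mem hy _), ?_⟩
    rw [show (⟨(e i / e j) • (l i ^ (N₀ + 1 + r)), _⟩ : R.V j) =
      ⟨algebraMap K F (t : K), (R.mem_V_iff j _).2 t.2⟩ * ⟨y, hy⟩ ^ (N₀ + 1 + r) from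
      Subtype.ext heq, map_mul, R.φ_algebraMap, htm, map_zero, zero_mul]
  choose! N₀ hN₀ using hN
  set N := (Finset.univ.sup fun i => Finset.univ.sup fun j => N₀ i j) + 1 with hNdef
  refine ⟨∑ i, e i • (v i * l i ^ N), fun j => ?_⟩
  have hterm : ∀ i, ∃ hm : (e j)⁻¹ • (e i • (v i * l i ^ N)) ∈ R.V j,
      R.φ j ⟨_, hm⟩ = if i = j then g j else 0 := by
    intro i
    rcases eq_or_ne i j with rfl | hij
    · have h1 : (e i)⁻¹ • (e i • (v i * l i ^ N)) = v i * l i ^ N := by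
        rw [smul_smul, inv_mul_cancel₀ (he i), one_smul]
      refine ⟨by rw [h1]; exact mul_mem (hv i i) (pow_mem (hl i i) _), ?_⟩
      rw [if_pos rfl, show (⟨(e i)⁻¹ • (e i • (v i * l i ^ N)), _⟩ : R.V i) =
        ⟨v i, hv i i⟩ * ⟨l i, hl i i⟩ ^ N from Subtype.ext h1, map_mul, map_pow, hlφ, hvφ,
        Function.update_self, Function.update_self, one_pow, mul_one]
    · obtain ⟨hm, hm0⟩ := hN₀ i j hij N (by
        rw [hNdef]
        exact le_trans (le_trans (Finset.le_sup (f := fun j => N₀ i j) (Finset.mem_univ j))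
          (Finset.le_sup (f := fun i => Finset.univ.sup fun j => N₀ i j) (Finset.mem_univ i)))
          (Nat.le_succ _))
      have h1 : (e j)⁻¹ • (e i • (v i * l i ^ N)) = v i * ((e i / e j) • (l i ^ N)) := by
        rw [smul_smul, mul_smul_comm, inv_mul_eq_div]
      refine ⟨by rw [h1]; exact mul_mem (hv i j) hm, ?_⟩
      rw [if_neg hij, show (⟨(e j)⁻¹ • (e i • (v i * l i ^ N)), _⟩ : R.V j) =
        ⟨v i, hv i j⟩ * ⟨_, hm⟩ from Subtype.ext h1, map_mul, hm0, mul_zero]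
  choose hm hmφ using hterm
  have hsum : (e j)⁻¹ • (∑ i, e i • (v i * l i ^ N)) =
      ((∑ i, ⟨_, hm i⟩ : R.V j) : F) := by
    rw [AddSubmonoidClass.coe_finsetSum, Finset.smul_sum]
  refine ⟨by rw [hsum]; exact SetLike.coe_mem _, ?_⟩
  rw [show (⟨(e j)⁻¹ • (∑ i, e i • (v i * l i ^ N)), _⟩ : R.V j) = ∑ i, ⟨_, hm i⟩ from
    Subtype.ext hsum, map_sum, Finset.sum_congr rfl fun i _ => hmφ i, Finset.sum_ite_eq',
    if_pos (Finset.mem_univ j)]

/-- If on every component the scaled reduction of `f` is a constant times an `n`-th power, the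
class of `D` has a normal form. -/
theorem exists_normalForm_of_forall_pow (hA : RankLeOne A) {n : ℕ} (hn : (n : k) ≠ 0)
    (D : Divisor.degZero (K := K) (F := F)) {f : F} (hf : f ≠ 0)
    (hD : ∀ v : Place K F, (n : ℤ) * (D : Divisor K F) v = v.ord f)
    (hcomp : ∀ i, ∃ (c : K) (h : c • f ∈ R.V i) (a : k) (g : Fb i), a ≠ 0 ∧ g ≠ 0 ∧
      R.φ i ⟨c • f, h⟩ = algebraMap k (Fb i) a * g ^ n) :
    ∃ (D' : Divisor.degZero (K := K) (F := F)) (f' : F),
      Pic0.mk D' = Pic0.mk D ∧ NormalForm R n (D' : Divisor K F) f' := by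
  have hn0 : n ≠ 0 := fun h => hn (by simp [h])
  choose c hc a g ha hg hφ using hcomp
  have hc0 : ∀ i, c i ≠ 0 := fun i h0 => by
    have : R.φ i ⟨c i • f, hc i⟩ = 0 :=
      (congrArg (R.φ i) (Subtype.ext (show c i • f = 0 by rw [h0, zero_smul]) :
        (⟨c i • f, hc i⟩ : R.V i) = 0)).trans (map_zero _)
    rw [hφ i] at this
    exact mul_ne_zero ((map_ne_zero _).2 (ha i)) (pow_ne_zero _ (hg i)) this
  choose e he using fun i => IsAlgClosed.exists_pow_nat_eq (c i) (Nat.pos_of_ne_zero hn0)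
  have he0 : ∀ i, e i ≠ 0 := fun i h0 => hc0 i (by rw [← he i, h0, zero_pow hn0])
  obtain ⟨w, hw⟩ := exists_prescribed R hA e he0 (fun i => (g i)⁻¹)
  choose hwm hwφ using hw
  have hw0 : w ≠ 0 := fun h0 => by
    obtain ⟨i⟩ := R.nonempty
    have h1 : R.φ i ⟨(e i)⁻¹ • w, hwm i⟩ = 0 :=
      (congrArg (R.φ i) (Subtype.ext (show (e i)⁻¹ • w = 0 by rw [h0, smul_zero]) :
        (⟨(e i)⁻¹ • w, hwm i⟩ : R.V i) = 0)).trans (map_zero _)
    rw [hwφ i] at h1
    exact inv_ne_zero (hg i) h1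
  obtain ⟨E, hE, hEdeg⟩ := HasPrincipalDivisors.exists_divisor (K := K) w hw0
  have key : ∀ i, w ^ n * f = (c i • f) * ((e i)⁻¹ • w) ^ n := fun i => by
    rw [smul_pow, inv_pow, he i, smul_mul_smul_comm, mul_inv_cancel₀ (hc0 i), one_smul, mul_comm]
  refine ⟨⟨(D : Divisor K F) + E, by
      rw [Divisor.mem_degZero, map_add, hEdeg, add_zero]; exact D.2⟩, w ^ n * f, ?_, ?_⟩
  · rw [Pic0.mk, Pic0.mk, QuotientAddGroup.eq, AddSubgroup.mem_addSubgroupOf]
    refine ⟨w⁻¹, inv_ne_zero hw0, fun v => ?_⟩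
    rw [v.ord_inv, ← hE v]
    simp
  refine ⟨?_, mul_ne_zero (pow_ne_zero _ hw0) hf, fun v => ?_, fun i => ?_, fun i => ?_⟩
  · rw [map_add, hEdeg, add_zero]; exact D.2
  · show (n : ℤ) * ((D : Divisor K F) + E) v = _
    rw [Finsupp.add_apply, mul_add, hD v, hE v, v.ord_mul (pow_ne_zero _ hw0) hf, ord_pow]
    ring
  · rw [key i]; exact mul_mem (hc i) (pow_mem (hwm i) _)
  · refine ⟨a i, ha i, ?_⟩
    rw [show (⟨w ^ n * f, _⟩ : R.V i) = ⟨c i • f, hc i⟩ * ⟨_, hwm i⟩ ^ n from Subtype.ext (key i),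
      map_mul, map_pow, hφ i, hwφ i, inv_pow, mul_assoc, mul_inv_cancel₀ (pow_ne_zero _ (hg i)),
      mul_one]

/-- A torsion class with trivial component images has a normal form. -/
theorem exists_normalForm_of_componentMap (hA : RankLeOne A) {n : ℕ} (hn : (n : k) ≠ 0)
    (x : Pic0.torsion K F n) (Φ : ∀ i, Pic0.torsion K F n →+ Additive (Target k (Fb i) n))
    (hΦ : ∀ (i) (D : Divisor.degZero (K := K) (F := F)) (f : F) (c : K) (h : c • f ∈ R.V i)
      (u : (Fb i)ˣ) (hD : Pic0.mk D ∈ Pic0.torsion K F n),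
      f ≠ 0 → (∀ v : Place K F, (n : ℤ) * (D : Divisor K F) v = v.ord f) →
      R.φ i ⟨c • f, h⟩ = u → Φ i ⟨Pic0.mk D, hD⟩ = Additive.ofMul (QuotientGroup.mk u))
    (hx : ∀ i, Φ i x = 0) :
    ∃ (D' : Divisor.degZero (K := K) (F := F)) (f' : F),
      Pic0.mk D' = (x : Pic0 K F) ∧ NormalForm R n (D' : Divisor K F) f' := by
  obtain ⟨D, f, hD, hf⟩ := exists_rep x
  have hDt : Pic0.mk D ∈ Pic0.torsion K F n := hD ▸ x.2
  obtain ⟨D', f', h1, h2⟩ := exists_normalForm_of_forall_pow R hA hn D f.ne_zero hf fun i => by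
    obtain ⟨c, hc, hcn⟩ := R.exists_scale i (f : F) f.ne_zero
    have h := hΦ i D f c hc (Units.mk0 _ hcn) hDt f.ne_zero hf rfl
    rw [show (⟨Pic0.mk D, hDt⟩ : Pic0.torsion K F n) = x from Subtype.ext hD, hx i] at h
    obtain ⟨a, g, ha, hg, hag⟩ := (target_eq_one_iff _).1 (Additive.ofMul.injective h).symm
    exact ⟨c, hc, a, g, ha, hg, hag⟩
  exact ⟨D', f', h1.trans hD, h2⟩

/-- Conversely a normal form has trivial image on every component. -/
theorem cls_eq_one_of_normalForm {n : ℕ} {D : Divisor K F} {f : F} (hf : NormalForm R n D f)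
    (i : ι) : ∃ (h : (1 : K) • f ∈ R.V i) (u : (Fb i)ˣ), R.φ i ⟨_, h⟩ = u ∧
      (QuotientGroup.mk u : Target k (Fb i) n) = 1 := by
  obtain ⟨a, ha, hae⟩ := hf.const i
  refine ⟨by rw [one_smul]; exact hf.mem i, Units.mk0 _ ((map_ne_zero (algebraMap k (Fb i))).2 ha),
    ?_, (target_eq_one_iff _).2 ⟨a, 1, ha, one_ne_zero, by simp⟩⟩
  rw [Units.val_mk0, ← hae]
  exact congrArg _ (Subtype.ext (one_smul K f))

theorem mem_torsion_of_normalForm {n : ℕ} {D : Divisor.degZero (K := K) (F := F)} {f : F}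
    (hf : NormalForm R n (D : Divisor K F) f) : Pic0.mk D ∈ Pic0.torsion K F n := by
  rw [Pic0.mem_torsion, Pic0.mk, ← QuotientAddGroup.mk_zsmul, QuotientAddGroup.eq_zero_iff,
    AddSubgroup.mem_addSubgroupOf]
  refine ⟨f, hf.ne_zero, fun v => ?_⟩
  rw [← hf.ord_eq v]
  simp

omit [Algebra K F] [IsAlgClosed K] [IsFunctionFieldOne K F] [Fintype ι] in
/-- An automorphism of the constants stabilising `A`, all of whose orbits are finite, preserves
the valuation. -/
theorem valuation_eq_of_periodic (σ : K ≃+* K) (hA : ∀ a : K, σ a ∈ A ↔ a ∈ A)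
    (hper : ∀ a : K, ∃ m : ℕ, 0 < m ∧ (σ : K → K)^[m] a = a) (a : K) :
    A.valuation (σ a) = A.valuation a := by
  have hiff : ∀ x y : K, A.valuation (σ x) ≤ A.valuation (σ y) ↔ A.valuation x ≤ A.valuation y := by
    intro x y
    rcases eq_or_ne y 0 with rfl | hy
    · simp
    · rw [← div_le_one₀ (zero_lt_iff.2 ((Valuation.ne_zero_iff A.valuation).2 hy)),
        ← div_le_one₀ (zero_lt_iff.2 ((Valuation.ne_zero_iff A.valuation).2 ((map_ne_zero σ).2 hy))),
        ← map_div₀ A.valuation, ← map_div₀ A.valuation, A.valuation_le_one_iff,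
        A.valuation_le_one_iff, ← map_div₀ σ, hA]
  obtain ⟨m, hm, hma⟩ := hper a
  rcases le_total (A.valuation (σ a)) (A.valuation a) with h | h
  · refine h.antisymm ?_
    have : ∀ j, 1 ≤ j → A.valuation ((σ : K → K)^[j] a) ≤ A.valuation (σ a) := by
      intro j hj
      induction j, hj using Nat.le_induction with
      | base => exact le_rfl
      | succ j _ ih =>
        rw [Function.iterate_succ_apply']
        exact ((hiff _ _).2 (ih.trans h))
    simpa [hma] using this m hm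
  · refine le_antisymm ?_ h
    have : ∀ j, 1 ≤ j → A.valuation (σ a) ≤ A.valuation ((σ : K → K)^[j] a) := by
      intro j hj
      induction j, hj using Nat.le_induction with
      | base => exact le_rfl
      | succ j _ ih =>
        rw [Function.iterate_succ_apply']
        exact ((hiff _ _).2 (h.trans ih))
    simpa [hma] using this m hm

/-- `g • c - c` has a normal form for an automorphism trivial on all residues. -/
theorem exists_normalForm_smul_sub {g : SemilinearAut K F}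
    (hval : ∀ a : K, A.valuation (SemilinearAut.baseAut g a) = A.valuation a)
    (hφ : ∀ i (f : R.V i), ∃ h : g • (f : F) ∈ R.V i, R.φ i ⟨_, h⟩ = R.φ i f)
    {n : ℕ} {c : Pic0 K F} (hc : c ∈ Pic0.torsion K F n) :
    ∃ (D : Divisor.degZero (K := K) (F := F)) (f : F),
      Pic0.mk D = g • c - c ∧ NormalForm R n (D : Divisor K F) f := by
  obtain ⟨D, f, hD, hf⟩ := exists_rep ⟨c, hc⟩
  refine ⟨SemilinearAut.degZeroSMulHom g D - D, g • (f : F) / (f : F), ?_, ?_⟩
  · rw [Pic0.mk, QuotientAddGroup.mk_sub]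
    show Pic0.mk (SemilinearAut.degZeroSMulHom g D) - Pic0.mk D = _
    rw [← SemilinearAut.pic0_smul_mk, hD]
  have hgf : g • (f : F) ≠ 0 := by simp
  have hord : ∀ v : Place K F, (n : ℤ) *
      ((SemilinearAut.degZeroSMulHom g D - D : Divisor.degZero (K := K) (F := F)) : Divisor K F) v =
      v.ord (g • (f : F) / (f : F)) := fun v => by
    rw [AddSubgroupClass.coe_sub, Finsupp.sub_apply, SemilinearAut.coe_degZeroSMulHom,
      SemilinearAut.divisor_smul_apply, mul_sub, hf, hf, ord_div v hgf f.ne_zero]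
    have h := SemilinearAut.ord_smul g (g⁻¹ • v) (f : F)
    rw [smul_inv_smul] at h
    rw [h]
  have key : ∀ i, ∃ (hm : g • (f : F) / (f : F) ∈ R.V i) (a : k), a ≠ 0 ∧
      R.φ i ⟨_, hm⟩ = algebraMap k (Fb i) a := by
    intro i
    obtain ⟨s, hs, hsn⟩ := R.exists_scale i (f : F) f.ne_zero
    have hs0 : s ≠ 0 := by
      rintro rfl
      exact hsn ((congrArg (R.φ i) (Subtype.ext (zero_smul K _) :
        (⟨(0 : K) • (f : F), hs⟩ : R.V i) = 0)).trans (map_zero _))
    obtain ⟨h1, h2⟩ := hφ i ⟨_, hs⟩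
    set σs := SemilinearAut.baseAut g s
    have hσ0 : σs ≠ 0 := (map_ne_zero _).2 hs0
    have hv : A.valuation (s / σs) = 1 := by
      rw [map_div₀, hval, div_self ((Valuation.ne_zero_iff _).2 hs0)]
    have htA : s / σs ∈ A := (A.valuation_le_one_iff _).1 hv.le
    have htu : R.π ⟨_, htA⟩ ≠ 0 := fun h0 => by
      rw [R.π_eq_zero_iff] at h0
      exact h0 ((A.valuation_eq_one_iff ⟨_, htA⟩).2 hv)
    have hinv : (((⟨_, hs⟩ : R.V i) : F))⁻¹ ∈ R.V i := R.inv_mem_V hsn
    have heq : g • (f : F) / (f : F) =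
        algebraMap K F (s / σs) * (g • (s • (f : F))) * (s • (f : F))⁻¹ := by
      rw [show g • (s • (f : F)) = algebraMap K F σs * g • (f : F) by
        rw [Algebra.smul_def, smul_mul', SemilinearAut.smul_algebraMap]]
      rw [← mul_assoc, ← map_mul, div_mul_cancel₀ _ hσ0, Algebra.smul_def, mul_inv,
        div_eq_mul_inv]
      field_simp
      exact (div_self ((map_ne_zero (algebraMap K F)).2 hs0)).symm
    refine ⟨by rw [heq]; exact mul_mem (mul_mem ((R.mem_V_iff i _).2 htA) h1) hinv, _, htu, ?_⟩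
    rw [show (⟨g • (f : F) / (f : F), _⟩ : R.V i) =
      ⟨_, (R.mem_V_iff i _).2 htA⟩ * ⟨_, h1⟩ * ⟨_, hinv⟩ from Subtype.ext heq, map_mul, map_mul,
      h2, R.φ_algebraMap i ⟨_, htA⟩, mul_assoc, ← map_mul,
      show (⟨s • (f : F), hs⟩ : R.V i) * ⟨_, hinv⟩ = 1 from Subtype.ext (mul_inv_cancel₀
        (smul_ne_zero hs0 f.ne_zero)), map_one, mul_one]
  choose hm a ha hae using key
  exact ⟨(SemilinearAut.degZeroSMulHom g D - D).2, div_ne_zero hgf f.ne_zero, hord, hm,
    fun i => ⟨a i, ha i, hae i⟩⟩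

end Fermat.Agent.Bad.BComp

end
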