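/-
Gluing lemma, helper material: the second chart and separation of poles.

The affine chart of a `MultiReduction` is the complement of the poles of `x`; the second chart
is the complement of the zeros of `u = x - a`, its spaces being `u^(-N) L(N poleX + D)`.
-/
import Fermat.Agent.Bad.GluingFibre

set_option autoImplicit false

noncomputable section

namespace Fermat.Agent.Bad.BGlue

open AlgebraicCurve IntermediateField Fermat.Agent.Curve Fermat.Agent.Curve.RedAux
open MultiReduction

universe uK uF uι uk uFb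

variable {K : Type uK} [Field K] {A : ValuationSubring K}
  {F : Type uF} [Field F] [Algebra K F] {ι : Type uι} [Fintype ι]
  {k : Type uk} [Field k] {Fb : ι → Type uFb} [∀ i, Field (Fb i)] [∀ i, Algebra k (Fb i)]
  (R : MultiReduction A F k Fb)

/-- The shifted parameter `x - a`. -/
def u (a : A) : R.integers :=
  ⟨R.x, R.x_mem_integers⟩ - ⟨algebraMap K F a, R.algebraMap_mem_integers a⟩

/-- Its reduction. -/
def tt (a : A) : ∀ i, Fb i := R.red (u R a)

theorem coe_u (a : A) : (u R a : F) = R.x - algebraMap K F a := rfl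

theorem tt_apply (a : A) (i : ι) : tt R a i = R.xb i - algebraMap k (Fb i) (R.π a) := by
  rw [tt, u, map_sub, R.red_algebraMap, Pi.sub_apply, R.red_x]
  rfl

theorem tt_ne_zero (a : A) (i : ι) : tt R a i ≠ 0 := fun h =>
  R.x_transcendental i (show IsAlgebraic k (R.xb i) by
    rw [tt_apply, sub_eq_zero] at h
    rw [h]
    exact isAlgebraic_algebraMap _)

theorem red_u_pow_ne_zero (a : A) (N : ℕ) (i : ι) : R.red (u R a ^ N) i ≠ 0 := by
  rw [map_pow, Pi.pow_apply]
  exact pow_ne_zero _ (tt_ne_zero R a i)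

theorem coe_u_ne_zero (a : A) : (u R a : F) ≠ 0 := by
  obtain ⟨i⟩ := R.nonempty
  exact R.red_ne_zero_of_ne (tt_ne_zero R a i)

theorem ord_u_of_neg (a : A) {v : Place K F} (hv : v.ord R.x < 0) :
    v.ord (u R a : F) = v.ord R.x := by
  have hx : R.x ≠ 0 := by rintro h; rw [h] at hv; simp at hv
  rw [coe_u, sub_eq_add_neg]
  refine ord_add_eq_left v hx fun _ => ?_
  rw [ord_neg, ord_algebraMap]
  exact hv

theorem ord_tt_of_neg (a : A) {i : ι} {v : Place k (Fb i)} (hv : v.ord (R.xb i) < 0) :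
    v.ord (tt R a i) = v.ord (R.xb i) := by
  have hx : R.xb i ≠ 0 := by rintro h; rw [h] at hv; simp at hv
  rw [tt_apply, sub_eq_add_neg]
  refine ord_add_eq_left v hx fun _ => ?_
  rw [ord_neg, ord_algebraMap]
  exact hv

theorem algebraMap_mem_polarSp_iff_aux [IsFunctionFieldOne K F] (c : K) (N : ℕ) :
    algebraMap K F c ∈ R.polarSp N := by
  rw [Algebra.algebraMap_eq_smul_one]
  exact Submodule.smul_mem _ _ (R.one_mem_polarSp N)

theorem u_mem_polarSp [IsFunctionFieldOne K F] (a : A) : (u R a : F) ∈ R.polarSp 1 := by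
  rw [coe_u]
  exact sub_mem R.x_mem_polarSp (algebraMap_mem_polarSp_iff_aux R _ 1)

theorem coe_u_pow_mem [IsFunctionFieldOne K F] (a : A) (N : ℕ) :
    ((u R a : F)) ^ N ∈ R.polarSp N := by
  simpa using R.pow_mem_polarSp (u_mem_polarSp R a) N

theorem tt_pow_mem [IsFunctionFieldOne K F] (a : A) (N : ℕ) :
    tt R a ^ N ∈ R.spFibre (R.polarSp N) :=
  ⟨u R a ^ N, by simpa using coe_u_pow_mem R a N, map_pow _ _ _⟩

/-- The spaces of the second chart. -/
def w2Sp [IsFunctionFieldOne K F] (a : A) (D : Divisor K F) (N : ℕ) : Submodule K F :=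
  (R.twistSp D N).comap (LinearMap.mulRight K ((u R a : F) ^ N))

theorem mem_w2Sp [IsFunctionFieldOne K F] {a : A} {D : Divisor K F} {N : ℕ} {g : F} :
    g ∈ w2Sp R a D N ↔ g * (u R a : F) ^ N ∈ R.twistSp D N := Iff.rfl

theorem finiteDimensional_w2Sp [IsFunctionFieldOne K F] [IsAlgClosed K] (a : A)
    (D : Divisor K F) (N : ℕ) : FiniteDimensional K (w2Sp R a D N) := by
  haveI := R.finiteDimensional_twistSp D N
  refine FiniteDimensional.of_injective
    ((LinearMap.mulRight K ((u R a : F) ^ N)).restrict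
      (p := w2Sp R a D N) (q := R.twistSp D N) fun g hg => hg) fun g h hgh => ?_
  have := congrArg Subtype.val hgh
  simp only [LinearMap.coe_restrict_apply, LinearMap.mulRight_apply] at this
  exact Subtype.ext (mul_right_cancel₀ (pow_ne_zero _ (coe_u_ne_zero R a)) this)

theorem finrank_w2Sp [IsFunctionFieldOne K F] (a : A) (D : Divisor K F) (N : ℕ) :
    Module.finrank K (w2Sp R a D N) = Module.finrank K (R.twistSp D N) := by
  have hne := pow_ne_zero N (coe_u_ne_zero R a)
  refine LinearEquiv.finrank_eq (LinearEquiv.ofBijective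
    ((LinearMap.mulRight K ((u R a : F) ^ N)).restrict
      (p := w2Sp R a D N) (q := R.twistSp D N) fun g hg => hg) ⟨fun g h hgh => ?_, fun g => ?_⟩)
  · have := congrArg Subtype.val hgh
    simp only [LinearMap.coe_restrict_apply, LinearMap.mulRight_apply] at this
    exact Subtype.ext (mul_right_cancel₀ hne this)
  · refine ⟨⟨(g : F) / (u R a : F) ^ N, ?_⟩, Subtype.ext ?_⟩
    · rw [mem_w2Sp, div_mul_cancel₀ _ hne]
      exact g.2
    · simp only [LinearMap.coe_restrict_apply, LinearMap.mulRight_apply]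
      exact div_mul_cancel₀ _ hne

theorem w2Sp_mono [IsFunctionFieldOne K F] (a : A) (D : Divisor K F) {M N : ℕ} (h : M ≤ N) :
    w2Sp R a D M ≤ w2Sp R a D N := fun g hg => by
  obtain ⟨e, rfl⟩ := Nat.exists_eq_add_of_le h
  rw [mem_w2Sp] at hg ⊢
  rw [pow_add, ← mul_assoc]
  have := R.mul_mem_twistSp hg (show (u R a : F) ^ e ∈ R.twistSp 0 e by
    rw [MultiReduction.twistSp, add_zero]; exact coe_u_pow_mem R a e)
  rwa [add_zero] at this

/-- Both charts sit inside `u^(-N) L(2N poleX + D)`. -/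
theorem mul_mem_of_mem_sup [IsFunctionFieldOne K F] {a : A} {D : Divisor K F} {N : ℕ} {w : F}
    (hw : w ∈ R.twistSp D N ⊔ w2Sp R a D N) :
    w * (u R a : F) ^ N ∈ R.twistSp D (2 * N) := by
  obtain ⟨g, hg, h, hh, rfl⟩ := Submodule.mem_sup.1 hw
  rw [add_mul, two_mul]
  refine add_mem ?_ (R.twistSp_mono (Nat.le_add_right N N) hh)
  have := R.mul_mem_twistSp hg (show (u R a : F) ^ N ∈ R.twistSp 0 N by
    rw [MultiReduction.twistSp, add_zero]; exact coe_u_pow_mem R a N)
  rwa [add_zero] at this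

/-- The two charts meet in `L(D)`. -/
theorem twistSp_inf_w2Sp_le [IsFunctionFieldOne K F] (a : A) (D : Divisor K F) (N : ℕ) :
    R.twistSp D N ⊓ w2Sp R a D N ≤ riemannRochSpace D := by
  rintro g ⟨h1, h2⟩
  rcases eq_or_ne g 0 with rfl | hg
  · exact zero_mem _
  refine (mem_L_iff hg).2 fun v => ?_
  have e1 := (mem_L_iff hg).1 h1 v
  have hu := pow_ne_zero N (coe_u_ne_zero R a)
  have e2 := (mem_L_iff (mul_ne_zero hg hu)).1 h2 v
  rw [v.ord_mul hg hu, ord_pow] at e2
  simp only [Finsupp.add_apply, Finsupp.smul_apply, MultiReduction.poleX, poleDivisor_apply,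
    nsmul_eq_mul] at e1 e2
  rcases lt_or_ge (v.ord R.x) 0 with hneg | hpos
  · rw [ord_u_of_neg R a hneg] at e2
    rw [max_eq_left (by omega)] at e1 e2
    linarith
  · rw [max_eq_right (by omega), mul_zero, zero_add] at e1
    exact e1

theorem spFibre_w2Sp_iff [IsFunctionFieldOne K F] {a : A} {D : Divisor K F} {N : ℕ}
    {y : ∀ i, Fb i} :
    y ∈ R.spFibre (w2Sp R a D N) ↔ y * tt R a ^ N ∈ R.spFibre (R.twistSp D N) := by
  constructor
  · rintro ⟨g, hg, rfl⟩
    exact ⟨g * u R a ^ N, by simpa [mem_w2Sp] using hg, by rw [map_mul, map_pow]; rfl⟩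
  · rintro ⟨g, hg, hgy⟩
    have hinv : ((u R a ^ N : R.integers) : F)⁻¹ ∈ R.integers :=
      R.inv_mem_integers (red_u_pow_ne_zero R a N)
    refine ⟨g * ⟨_, hinv⟩, ?_, ?_⟩
    · rw [mem_w2Sp]
      simp only [MulMemClass.coe_mul, SubmonoidClass.coe_pow]
      rwa [inv_mul_cancel_right₀ (pow_ne_zero N (coe_u_ne_zero R a))]
    · rw [map_mul, hgy]
      funext i
      rw [Pi.mul_apply, Pi.mul_apply, R.red_inv (red_u_pow_ne_zero R a N), map_pow,
        Pi.pow_apply]
      exact mul_inv_cancel_right₀ (pow_ne_zero N (tt_ne_zero R a i)) _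

variable [IsAlgClosed K] [IsFunctionFieldOne K F] [∀ i, IsFunctionFieldOne k (Fb i)]

/-- Constant tuples. -/
def constTuple (c : ι → k) : ∀ i, Fb i := fun i => algebraMap k (Fb i) (c i)

omit [IsAlgClosed K] in
theorem constTuple_mem_polarFibre (c : ι → k) (N : ℕ) : constTuple c ∈ R.polarFibre N :=
  R.mem_polarFibre.2 fun i => by
    show algebraMap k (Fb i) (c i) ∈ _
    rw [Algebra.algebraMap_eq_smul_one]
    refine Submodule.smul_mem _ _ (one_mem_L ?_)
    exact nsmul_nonneg (poleDivisor_nonneg _) N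

omit [IsAlgClosed K] [∀ i, IsFunctionFieldOne k (Fb i)] in
theorem smul_mem_twistSp {D : Divisor K F} {N : ℕ} (c : K) {g : F} (hg : g ∈ R.twistSp D N) :
    c • g ∈ R.twistSp D N := Submodule.smul_mem _ _ hg

variable {R}

/-- `y ∈ S(N)` and `y t^N ∈ S(N)` force `y` to be constant on each component. -/
theorem exists_constTuple_of_mem (a : A) {N : ℕ} {y : ∀ i, Fb i}
    (h1 : y ∈ R.polarFibre N) (h2 : y * tt R a ^ N ∈ R.polarFibre N) :
    ∃ c : ι → k, y = constTuple c := by
  haveI := R.isAlgClosed_residue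
  have hmem : ∀ i, ∃ c : k, y i = algebraMap k (Fb i) c := by
    intro i
    rcases eq_or_ne (y i) 0 with h0 | h0
    · exact ⟨0, by rw [h0, map_zero]⟩
    have hord : ∀ v : Place k (Fb i), 0 ≤ v.ord (y i) := fun v => by
      have e1 := ((R.mem_polarFibre_iff_ord.1 h1) i v).resolve_left h0
      have hne : (y * tt R a ^ N) i ≠ 0 :=
        mul_ne_zero h0 (pow_ne_zero _ (tt_ne_zero R a i))
      have e2 := ((R.mem_polarFibre_iff_ord.1 h2) i v).resolve_left hne
      rw [Pi.mul_apply, Pi.pow_apply, v.ord_mul h0 (pow_ne_zero _ (tt_ne_zero R a i)),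
        ord_pow] at e2
      rcases lt_or_ge (v.ord (R.xb i)) 0 with hneg | hpos
      · rw [ord_tt_of_neg R a hneg] at e2
        rw [max_eq_left (by omega)] at e2
        linarith
      · rw [max_eq_right (by omega), mul_zero, neg_zero] at e1
        exact e1
    obtain ⟨c, hc⟩ := (IsAlgClosed.algebraMap_bijective_of_isIntegral
      (k := k) (K := algebraicClosure k (Fb i))).2
        ⟨y i, mem_algebraicClosure_iff.2 (isAlgebraic_of_forall_ord_nonneg hord)⟩
    exact ⟨c, (congrArg Subtype.val hc).symm⟩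
  choose c hc using hmem
  exact ⟨c, funext hc⟩

/-- Separation of poles: the part of the special fibre of the union of the charts of degree `N`
which decomposes in higher degree decomposes in degree `N`. -/
theorem exists_separate (G : Gluing R) (a : A) {N M : ℕ} (hN : G.bound ≤ N)
    {s y₁ y₂ : ∀ i, Fb i} (hs : s * tt R a ^ N ∈ R.spFibre (R.polarSp (2 * N)))
    (hy₁ : y₁ ∈ R.spFibre (R.polarSp M)) (hy₂ : y₂ * tt R a ^ M ∈ R.spFibre (R.polarSp M))
    (hsum : s = y₁ + y₂) :
    y₁ ∈ R.spFibre (R.polarSp N) ∧ y₂ * tt R a ^ N ∈ R.spFibre (R.polarSp N) := by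
  classical
  -- the order of `y₂` at the poles of `x` is non-negative
  have hy₂pole : ∀ i (v : Place k (Fb i)), v.ord (R.xb i) < 0 →
      y₂ i = 0 ∨ 0 ≤ v.ord (y₂ i) := by
    intro i v hv
    refine or_iff_not_imp_left.2 fun h0 => ?_
    have e := ((R.mem_polarFibre_iff_ord.1 (R.spFibre_polar_le M hy₂)) i v).resolve_left
      (mul_ne_zero h0 (pow_ne_zero _ (tt_ne_zero R a i)))
    rw [Pi.mul_apply, Pi.pow_apply, v.ord_mul h0 (pow_ne_zero _ (tt_ne_zero R a i)), ord_pow,
      ord_tt_of_neg R a hv, max_eq_left (by omega)] at e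
    linarith
  have hy₁polar : y₁ ∈ R.polarFibre N := by
    rw [R.mem_polarFibre_iff_ord]
    intro i v
    refine or_iff_not_imp_left.2 fun h0 => ?_
    rcases lt_or_ge (v.ord (R.xb i)) 0 with hneg | hpos
    · rw [max_eq_left (by omega)]
      have hs' : s i ≠ 0 → (N : ℤ) * v.ord (R.xb i) ≤ v.ord (s i) := fun hs0 => by
        have e := ((R.mem_polarFibre_iff_ord.1 (R.spFibre_polar_le _ hs)) i v).resolve_left
          (mul_ne_zero hs0 (pow_ne_zero _ (tt_ne_zero R a i)))
        rw [Pi.mul_apply, Pi.pow_apply, v.ord_mul hs0 (pow_ne_zero _ (tt_ne_zero R a i)), ord_pow,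
          ord_tt_of_neg R a hneg, max_eq_left (by omega)] at e
        push_cast at e
        linarith
      have heq : y₁ i = s i + -(y₂ i) := by rw [hsum, Pi.add_apply, add_neg_cancel_right]
      rw [heq] at h0 ⊢
      have := le_ord_add v ((N : ℤ) * v.ord (R.xb i)) h0 hs' (fun hn => by
        rw [neg_ne_zero] at hn
        rw [ord_neg]
        have h3 := (hy₂pole i v hneg).resolve_left hn
        nlinarith)
      linarith
    · have e := ((R.mem_polarFibre_iff_ord.1 (R.spFibre_polar_le M hy₁)) i v).resolve_left h0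
      rw [max_eq_right (by omega), mul_zero, neg_zero] at e ⊢
      exact e
  have hy₁S := G.saturated N M hN y₁ hy₁ hy₁polar
  refine ⟨hy₁S, ?_⟩
  have hfast : y₂ * tt R a ^ N ∈ R.spFibre (R.polarSp (2 * N)) := by
    have h : y₂ * tt R a ^ N = s * tt R a ^ N - y₁ * tt R a ^ N := by rw [hsum]; ring
    rw [h]
    exact sub_mem hs (two_mul N ▸ R.mul_mem_spFibre_polar hy₁S (tt_pow_mem R a N))
  refine G.saturated N (2 * N) hN _ hfast ?_
  rw [R.mem_polarFibre_iff_ord]
  intro i v
  refine or_iff_not_imp_left.2 fun h0 => ?_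
  have h20 : y₂ i ≠ 0 := fun h => h0 (by simp [h])
  rcases lt_or_ge (v.ord (R.xb i)) 0 with hneg | hpos
  · rw [max_eq_left (by omega), Pi.mul_apply, Pi.pow_apply,
      v.ord_mul h20 (pow_ne_zero _ (tt_ne_zero R a i)), ord_pow, ord_tt_of_neg R a hneg]
    have := (hy₂pole i v hneg).resolve_left h20
    linarith
  · have e := ((R.mem_polarFibre_iff_ord.1 (R.spFibre_polar_le _ hfast)) i v).resolve_left h0
    rw [max_eq_right (by omega), mul_zero, neg_zero] at e ⊢
    exact e

end Fermat.Agent.Bad.BGlue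

end
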