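/-
Connectedness of the special fibre of a `MultiReduction` with gluing structure: the constant
tuples in the special fibres of the spaces `polarSp N` are scalars.

The two charts are the complements of the poles of `x` and of the zeros of `x - a`; the torsion
of the cokernel of the Čech map is bounded because above `G.bound` the special fibre of the sum
of the two charts is generated by the one in degree `G.bound`; then apply `Connected`.
-/
import Fermat.Agent.Bad.BGlueBase
import Fermat.Agent.Bad.GluingNormal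
import Fermat.Agent.Curve.Connected
import Mathlib.Algebra.Algebra.Subalgebra.Basic
import Mathlib.Algebra.Algebra.Prod

set_option autoImplicit false

noncomputable section

namespace Fermat.Agent.Bad.BGlue

open AlgebraicCurve IntermediateField Fermat.Agent.Curve Fermat.Agent.Curve.RedAux
open MultiReduction

universe uK uF uι uk uFb

variable {K : Type uK} [Field K] {A : ValuationSubring K}
  {F : Type uF} [Field F] [Algebra K F] {ι : Type uι} [Fintype ι]
  {k : Type uk} [Field k] {Fb : ι → Type uFb} [∀ i, Field (Fb i)] [∀ i, Algebra k (Fb i)]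
  (R : MultiReduction A F k Fb)

/-- Every function becomes integral after multiplication by a non-zero element of `A`. -/
theorem exists_smul_mem_integers (f : F) :
    ∃ a : A, a ≠ 0 ∧ (a : K) • f ∈ R.integers := by
  rcases eq_or_ne f 0 with rfl | hf
  · exact ⟨1, one_ne_zero, by simp⟩
  obtain ⟨c, hc, hne⟩ := R.exists_scale_integers f hf
  have hc0 : c ≠ 0 := fun h => hne (by
    rw [show (⟨c • f, hc⟩ : R.integers) = 0 from Subtype.ext (by simp [h]), map_zero])
  rcases A.mem_or_inv_mem c with h | h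
  · exact ⟨⟨c, h⟩, fun h0 => hc0 (congrArg Subtype.val h0), hc⟩
  · refine ⟨1, one_ne_zero, ?_⟩
    have := R.smul_mem_integers ⟨c⁻¹, h⟩ hc
    rw [smul_smul, inv_mul_cancel₀ hc0, one_smul] at this
    simpa using this

variable [IsFunctionFieldOne K F]

/-- The sum of the two charts. -/
def w12 (a : A) (N : ℕ) : Submodule K F := R.polarSp N ⊔ w2Sp R a 0 N

theorem w12_mono (a : A) {M N : ℕ} (h : M ≤ N) : w12 R a M ≤ w12 R a N :=
  sup_le_sup (R.polarSp_mono h) (w2Sp_mono R a 0 h)

theorem one_mem_w2Sp (a : A) (N : ℕ) : (1 : F) ∈ w2Sp R a 0 N := by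
  rw [mem_w2Sp, one_mul, MultiReduction.twistSp, add_zero]
  exact coe_u_pow_mem R a N

variable [IsAlgClosed K]

theorem exists_eq_algebraMap_of_mem_L_zero {f : F}
    (hf : f ∈ riemannRochSpace (0 : Divisor K F)) : ∃ c : K, f = algebraMap K F c := by
  rcases eq_or_ne f 0 with rfl | hf0
  · exact ⟨0, (map_zero _).symm⟩
  obtain ⟨c, hc⟩ := mem_range_algebraMap_of_isIntegral (k := K)
    (isAlgebraic_of_forall_ord_nonneg (K := K) fun v => by
      simpa using (mem_L_iff hf0).1 hf v).isIntegral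
  exact ⟨c, hc.symm⟩

theorem finrank_polar_inf_w2 (a : A) (N : ℕ) :
    Module.finrank K (R.polarSp N ⊓ w2Sp R a 0 N : Submodule K F) = 1 := by
  have hle : R.polarSp N ⊓ w2Sp R a 0 N ≤ riemannRochSpace (0 : Divisor K F) := by
    rw [← R.twistSp_zero]
    exact twistSp_inf_w2Sp_le R a 0 N
  have h : R.polarSp N ⊓ w2Sp R a 0 N = Submodule.span K {(1 : F)} := by
    refine le_antisymm (fun f hf => ?_) (Submodule.span_le.2 ?_)
    · obtain ⟨c, rfl⟩ := exists_eq_algebraMap_of_mem_L_zero (hle hf)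
      rw [Algebra.algebraMap_eq_smul_one]
      exact Submodule.smul_mem _ _ (Submodule.mem_span_singleton_self _)
    · rintro _ rfl
      exact ⟨R.one_mem_polarSp N, one_mem_w2Sp R a N⟩
  rw [h, finrank_span_singleton one_ne_zero]

theorem finiteDimensional_w12 (a : A) (N : ℕ) : FiniteDimensional K (w12 R a N) := by
  haveI := R.finiteDimensional_polarSp N
  haveI := finiteDimensional_w2Sp R a 0 N
  exact Submodule.finiteDimensional_sup _ _

variable [∀ i, IsFunctionFieldOne k (Fb i)]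
variable {R}

/-- The constant tuples in both charts do not depend on the degree above the bound. -/
theorem spFibre_inf_eq (G : Gluing R) (a : A) {N : ℕ} (hN : G.bound ≤ N) :
    R.spFibre (R.polarSp N) ⊓ R.spFibre (w2Sp R a 0 N) =
      R.spFibre (R.polarSp G.bound) ⊓ R.spFibre (w2Sp R a 0 G.bound) := by
  refine le_antisymm ?_ (inf_le_inf (R.spFibre_polar_mono hN)
    (R.spFibre_mono (w2Sp_mono R a 0 hN)))
  rintro y ⟨h1, h2⟩
  have h1' : y ∈ R.spFibre (R.polarSp N) := h1
  have h2' : y * tt R a ^ N ∈ R.spFibre (R.polarSp N) := by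
    have := (spFibre_w2Sp_iff R).1 h2
    rwa [R.twistSp_zero] at this
  obtain ⟨c, rfl⟩ := exists_constTuple_of_mem a (R.spFibre_polar_le _ h1')
    (R.spFibre_polar_le _ h2')
  have h0 := G.saturated G.bound N le_rfl _ h1' (constTuple_mem_polarFibre R c _)
  refine ⟨h0, (spFibre_w2Sp_iff R).2 ?_⟩
  rw [R.twistSp_zero]
  refine G.saturated G.bound (G.bound + G.bound) le_rfl _
    (R.mul_mem_spFibre_polar h0 (tt_pow_mem R a G.bound)) ?_
  have := R.mul_mem_polarFibre (constTuple_mem_polarFibre R c 0)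
    (R.spFibre_polar_le _ (tt_pow_mem R a G.bound))
  rwa [zero_add] at this

/-- Above the bound the special fibre of the sum of the charts is generated by the charts and by
the one in degree `G.bound`. -/
theorem spFibre_w12_eq (G : Gluing R) (a : A) {N : ℕ} (hN : G.bound ≤ N) :
    R.spFibre (w12 R a N) = R.spFibre (R.polarSp N) ⊔ R.spFibre (w2Sp R a 0 N) ⊔
      R.spFibre (w12 R a G.bound) := by
  haveI := R.finiteDimensional_polarSp N
  haveI := finiteDimensional_w2Sp R a 0 N
  haveI := R.finiteDimensional_polarSp G.bound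
  haveI := finiteDimensional_w2Sp R a 0 G.bound
  haveI := finiteDimensional_w12 R a N
  haveI := finiteDimensional_w12 R a G.bound
  haveI := R.finiteDimensional_spFibre (R.polarSp N)
  haveI := R.finiteDimensional_spFibre (w2Sp R a 0 N)
  haveI := R.finiteDimensional_spFibre (R.polarSp G.bound)
  haveI := R.finiteDimensional_spFibre (w2Sp R a 0 G.bound)
  haveI := R.finiteDimensional_spFibre (w12 R a N)
  haveI := R.finiteDimensional_spFibre (w12 R a G.bound)
  haveI : FiniteDimensional k (R.spFibre (R.polarSp N ⊔ w2Sp R a 0 N)) :=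
    R.finiteDimensional_spFibre (w12 R a N)
  refine (Submodule.eq_of_le_of_finrank_le (sup_le (sup_le (R.spFibre_mono le_sup_left)
    (R.spFibre_mono le_sup_right)) (R.spFibre_mono (w12_mono R a hN))) ?_).symm
  have hcap : (R.spFibre (R.polarSp N) ⊔ R.spFibre (w2Sp R a 0 N)) ⊓
      R.spFibre (w12 R a G.bound) =
      R.spFibre (R.polarSp G.bound) ⊔ R.spFibre (w2Sp R a 0 G.bound) := by
    refine le_antisymm ?_ (sup_le
      (le_inf ((R.spFibre_polar_mono hN).trans le_sup_left) (R.spFibre_mono le_sup_left))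
      (le_inf ((R.spFibre_mono (w2Sp_mono R a 0 hN)).trans le_sup_right)
        (R.spFibre_mono le_sup_right)))
    rintro y ⟨hy, g, hg, rfl⟩
    obtain ⟨y₁, hy₁, y₂, hy₂, hsum⟩ := Submodule.mem_sup.1 hy
    have hs : R.red g * tt R a ^ G.bound ∈ R.spFibre (R.polarSp (2 * G.bound)) := by
      refine ⟨g * u R a ^ G.bound, ?_, by rw [map_mul, map_pow]; rfl⟩
      have := mul_mem_of_mem_sup (R := R) (a := a) (D := 0) (N := G.bound)
        (show (g : F) ∈ R.twistSp 0 G.bound ⊔ w2Sp R a 0 G.bound by rwa [R.twistSp_zero])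
      rw [R.twistSp_zero] at this
      simpa using this
    have hy₂' := (spFibre_w2Sp_iff R).1 hy₂
    rw [R.twistSp_zero] at hy₂'
    obtain ⟨e₁, e₂⟩ := exists_separate G a le_rfl hs hy₁ hy₂' hsum.symm
    refine Submodule.mem_sup.2 ⟨y₁, e₁, y₂, (spFibre_w2Sp_iff R).2 ?_, hsum⟩
    rwa [R.twistSp_zero]
  have hinf := spFibre_inf_eq G a hN
  have s1 := Submodule.finrank_sup_add_finrank_inf_eq
    (R.spFibre (R.polarSp N) ⊔ R.spFibre (w2Sp R a 0 N)) (R.spFibre (w12 R a G.bound))
  have s2 := Submodule.finrank_sup_add_finrank_inf_eq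
    (R.spFibre (R.polarSp N)) (R.spFibre (w2Sp R a 0 N))
  have s3 := Submodule.finrank_sup_add_finrank_inf_eq
    (R.spFibre (R.polarSp G.bound)) (R.spFibre (w2Sp R a 0 G.bound))
  have k1 := Submodule.finrank_sup_add_finrank_inf_eq (R.polarSp N) (w2Sp R a 0 N)
  have k2 := Submodule.finrank_sup_add_finrank_inf_eq (R.polarSp G.bound) (w2Sp R a 0 G.bound)
  have t1 : Module.finrank k (R.spFibre (w12 R a N)) =
      Module.finrank K (R.polarSp N ⊔ w2Sp R a 0 N : Submodule K F) := R.finrank_spFibre _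
  have t2 : Module.finrank k (R.spFibre (w12 R a G.bound)) =
      Module.finrank K (R.polarSp G.bound ⊔ w2Sp R a 0 G.bound : Submodule K F) :=
    R.finrank_spFibre _
  rw [finrank_polar_inf_w2] at k1 k2
  rw [R.finrank_spFibre (R.polarSp N), R.finrank_spFibre (w2Sp R a 0 N), hinf] at s2
  rw [R.finrank_spFibre (R.polarSp G.bound), R.finrank_spFibre (w2Sp R a 0 G.bound)] at s3
  rw [hcap] at s1
  have t0 : Module.finrank k (R.spFibre (R.polarSp N ⊔ w2Sp R a 0 N)) =
      Module.finrank k (R.spFibre (w12 R a N)) := rfl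
  omega

/-- The torsion bound for the two charts: one non-zero scalar splits every integral element of
the sum. -/
theorem exists_bound_split (G : Gluing R) (a : A) :
    ∃ c : A, c ≠ 0 ∧ ∀ N, G.bound ≤ N → ∀ w : R.integers, (w : F) ∈ w12 R a N →
      ∃ g₁ g₂ : R.integers, (g₁ : F) ∈ R.polarSp N ∧ (g₂ : F) ∈ w2Sp R a 0 N ∧
        (c : K) • (w : F) = (g₁ : F) + (g₂ : F) := by
  classical
  haveI := finiteDimensional_w12 R a G.bound
  obtain ⟨e', he', -, hspan'⟩ := R.exists_lattice_basis (w12 R a G.bound)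
  have hsplit : ∀ j, ∃ (g₁ : F) (g₂ : F), g₁ ∈ R.polarSp G.bound ∧ g₂ ∈ w2Sp R a 0 G.bound ∧
      ((e' j : R.integers) : F) = g₁ + g₂ := fun j => by
    obtain ⟨g₁, h₁, g₂, h₂, h⟩ := Submodule.mem_sup.1 (he' j)
    exact ⟨g₁, g₂, h₁, h₂, h.symm⟩
  choose f₁ f₂ hf₁ hf₂ hf using hsplit
  choose a₁ ha₁ ha₁m using fun j => exists_smul_mem_integers R (f₁ j)
  choose a₂ ha₂ ha₂m using fun j => exists_smul_mem_integers R (f₂ j)
  set c : A := ∏ j, (a₁ j * a₂ j) with hc
  have hcm : ∀ j, (c : K) • f₁ j ∈ R.integers ∧ (c : K) • f₂ j ∈ R.integers := fun j => by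
    obtain ⟨t, ht⟩ := Finset.dvd_prod_of_mem (fun j => a₁ j * a₂ j) (Finset.mem_univ j)
    have hct : c = a₁ j * a₂ j * t := ht
    constructor
    · rw [hct, show a₁ j * a₂ j * t = (a₂ j * t) * a₁ j by ring, MulMemClass.coe_mul, mul_smul]
      exact R.smul_mem_integers _ (ha₁m j)
    · rw [hct, show a₁ j * a₂ j * t = (a₁ j * t) * a₂ j by ring, MulMemClass.coe_mul, mul_smul]
      exact R.smul_mem_integers _ (ha₂m j)
  refine ⟨c, Finset.prod_ne_zero_iff.2 fun j _ => mul_ne_zero (ha₁ j) (ha₂ j), fun N hN w hw => ?_⟩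
  haveI := R.finiteDimensional_polarSp N
  haveI := finiteDimensional_w2Sp R a 0 N
  haveI := finiteDimensional_w12 R a N
  obtain ⟨b₁, hb₁, -, hs₁⟩ := R.exists_lattice_basis (R.polarSp N)
  obtain ⟨b₂, hb₂, -, hs₂⟩ := R.exists_lattice_basis (w2Sp R a 0 N)
  set T : (Fin _ ⊕ Fin _) ⊕ Fin _ → R.integers := Sum.elim (Sum.elim b₁ b₂) e' with hT
  -- every member of the family splits
  have hTsplit : ∀ t, ∃ g₁ g₂ : R.integers, (g₁ : F) ∈ R.polarSp N ∧ (g₂ : F) ∈ w2Sp R a 0 N ∧
      (c : K) • ((T t : R.integers) : F) = (g₁ : F) + (g₂ : F) := by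
    rintro ((j | j) | j)
    · exact ⟨⟨_, R.smul_mem_integers c (b₁ j).2⟩, 0, Submodule.smul_mem _ _ (hb₁ j),
        Submodule.zero_mem _, by simp [hT]⟩
    · exact ⟨0, ⟨_, R.smul_mem_integers c (b₂ j).2⟩, Submodule.zero_mem _,
        Submodule.smul_mem _ _ (hb₂ j), by simp [hT]⟩
    · exact ⟨⟨_, (hcm j).1⟩, ⟨_, (hcm j).2⟩, R.polarSp_mono hN (Submodule.smul_mem _ _ (hf₁ j)),
        w2Sp_mono R a 0 hN (Submodule.smul_mem _ _ (hf₂ j)), by simp [hT, hf j, smul_add]⟩
  have hTmem : ∀ t, ((T t : R.integers) : F) ∈ w12 R a N := by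
    rintro ((j | j) | j)
    · exact Submodule.mem_sup_left (hb₁ j)
    · exact Submodule.mem_sup_right (hb₂ j)
    · exact w12_mono R a hN (he' j)
  -- its reductions span
  have hTspan : R.spFibre (w12 R a N) ≤ Submodule.span k (Set.range fun t => R.red (T t)) := by
    rw [spFibre_w12_eq G a hN, R.spFibre_eq_span b₁ hb₁ hs₁, R.spFibre_eq_span b₂ hb₂ hs₂,
      R.spFibre_eq_span e' he' hspan']
    refine sup_le (sup_le ?_ ?_) ?_ <;> refine Submodule.span_mono ?_ <;> rintro _ ⟨j, rfl⟩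
    · exact ⟨Sum.inl (Sum.inl j), rfl⟩
    · exact ⟨Sum.inl (Sum.inr j), rfl⟩
    · exact ⟨Sum.inr j, rfl⟩
  obtain ⟨κ, em, hem, hsp, hli⟩ := exists_linearIndependent' k (fun t => R.red (T t))
  haveI : Fintype κ := Fintype.ofInjective em hem
  have hK := R.linearIndependent_lift (e := T ∘ em) hli
  have hfull : Submodule.span K (Set.range fun t => (((T ∘ em) t : R.integers) : F)) =
      w12 R a N := by
    refine Submodule.eq_of_le_of_finrank_le (Submodule.span_le.2 ?_) ?_
    · rintro _ ⟨t, rfl⟩; exact hTmem _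
    · rw [finrank_span_eq_card hK, ← R.finrank_spFibre (w12 R a N), ← finrank_span_eq_card hli]
      haveI : FiniteDimensional k
          (Submodule.span k (Set.range ((fun t => R.red (T t)) ∘ em))) :=
        FiniteDimensional.span_of_finite k (Set.finite_range _)
      exact Submodule.finrank_mono (hTspan.trans hsp.ge)
  obtain ⟨cf, hcf⟩ := (Submodule.mem_span_range_iff_exists_fun K).1 (hfull.ge hw)
  have hcA := R.coeff_mem_of_sum_mem (e := T ∘ em) hli Finset.univ cf (hcf ▸ w.2)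
  choose g₁ g₂ hg₁ hg₂ hg using hTsplit
  refine ⟨∑ t, ⟨_, R.smul_mem_integers ⟨cf t, hcA t (Finset.mem_univ t)⟩ (g₁ (em t)).2⟩,
    ∑ t, ⟨_, R.smul_mem_integers ⟨cf t, hcA t (Finset.mem_univ t)⟩ (g₂ (em t)).2⟩, ?_, ?_, ?_⟩
  · rw [AddSubmonoidClass.coe_finsetSum]
    exact Submodule.sum_mem _ fun t _ => Submodule.smul_mem _ _ (hg₁ _)
  · rw [AddSubmonoidClass.coe_finsetSum]
    exact Submodule.sum_mem _ fun t _ => Submodule.smul_mem _ _ (hg₂ _)
  · rw [AddSubmonoidClass.coe_finsetSum, AddSubmonoidClass.coe_finsetSum, ← hcf, Finset.smul_sum,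
      ← Finset.sum_add_distrib]
    refine Finset.sum_congr rfl fun t _ => ?_
    rw [Function.comp_apply, smul_comm, hg (em t), smul_add]

section Rings

variable (R)

/-- `A`-algebra structure on the common integers. -/
@[reducible] def algA : Algebra A R.integers :=
  (((algebraMap K F).comp A.subtype).codRestrict R.integers
    fun a => R.algebraMap_mem_integers a).toAlgebra

/-- Integral functions with poles only at those of `x`. -/
def ring₁ : @Subalgebra A R.integers _ _ (algA R) :=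
  letI := algA R
  { carrier := {g | ∃ N, (g : F) ∈ R.polarSp N}
    mul_mem' := fun ⟨M, hg⟩ ⟨N, hh⟩ => ⟨M + N, R.mul_mem_polarSp hg hh⟩
    add_mem' := fun ⟨M, hg⟩ ⟨N, hh⟩ => ⟨max M N, add_mem
      (R.polarSp_mono (le_max_left _ _) hg) (R.polarSp_mono (le_max_right _ _) hh)⟩
    one_mem' := ⟨0, R.one_mem_polarSp 0⟩
    zero_mem' := ⟨0, Submodule.zero_mem _⟩
    algebraMap_mem' := fun c => ⟨0, algebraMap_mem_polarSp_iff_aux R (c : K) 0⟩ }

/-- Integral functions of the second chart. -/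
def ring₂ (a : A) : @Subalgebra A R.integers _ _ (algA R) :=
  letI := algA R
  { carrier := {g | ∃ N, (g : F) ∈ w2Sp R a 0 N}
    mul_mem' := fun {g h} ⟨M, hg⟩ ⟨N, hh⟩ => ⟨M + N, by
      rw [mem_w2Sp, R.twistSp_zero] at hg hh ⊢
      rw [MulMemClass.coe_mul, pow_add, mul_mul_mul_comm]
      exact R.mul_mem_polarSp hg hh⟩
    add_mem' := fun ⟨M, hg⟩ ⟨N, hh⟩ => ⟨max M N, add_mem
      (w2Sp_mono R a 0 (le_max_left _ _) hg) (w2Sp_mono R a 0 (le_max_right _ _) hh)⟩
    one_mem' := ⟨0, one_mem_w2Sp R a 0⟩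
    zero_mem' := ⟨0, Submodule.zero_mem _⟩
    algebraMap_mem' := fun c => ⟨0, by
      show algebraMap K F (c : K) ∈ w2Sp R a 0 0
      rw [mem_w2Sp, R.twistSp_zero, pow_zero, mul_one]
      exact algebraMap_mem_polarSp_iff_aux R (c : K) 0⟩ }

end Rings

/-- An element of `W` with zero reduction is a small multiple of an element of `W`. -/
theorem exists_smul_of_red_eq_zero {W : Submodule K F} {g : R.integers} (hg : (g : F) ∈ W)
    (h0 : R.red g = 0) : ∃ δ ∈ IsLocalRing.maximalIdeal A, ∃ g' : R.integers,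
      (g' : F) ∈ W ∧ (g : F) = (δ : K) • (g' : F) := by
  obtain ⟨δ, hδ, g', hg'⟩ := R.exists_eq_smul_of_red_eq_zero h0
  rcases eq_or_ne δ 0 with rfl | hδ0
  · exact ⟨0, hδ, 0, Submodule.zero_mem _, by simp [hg']⟩
  refine ⟨δ, hδ, g', ?_, hg'⟩
  have := W.smul_mem ((δ : K)⁻¹) hg
  rwa [hg', smul_smul, inv_mul_cancel₀ (by simpa using hδ0), one_smul] at this

/-- An idempotent constant tuple in the special fibre is `0` or `1`. -/
theorem constTuple_idempotent (hA : RankLeOne A) (G : Gluing R) {N : ℕ} {c : ι → k}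
    (hc : constTuple c ∈ R.spFibre (R.polarSp N)) (hidem : c * c = c) : c = 0 ∨ c = 1 := by
  haveI := R.isAlgClosed_residue
  let a : A := 0
  letI := algA R
  set S₁ := ring₁ R
  set S₂ := ring₂ R a
  let p₁ : (S₁ × S₂) →ₐ[A] R.integers := S₁.val.comp (AlgHom.fst A S₁ S₂)
  let p₂ : (S₁ × S₂) →ₐ[A] R.integers := S₂.val.comp (AlgHom.snd A S₁ S₂)
  have hsmul : ∀ (t : A) (g : R.integers), ((t • g : R.integers) : F) = (t : K) • (g : F) :=
    fun t g => by rw [Algebra.smul_def, Algebra.smul_def]; rfl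
  have hmR : ∀ r : S₁ × S₂, R.red (p₁ r) = 0 → R.red (p₂ r) = 0 →
      r ∈ (IsLocalRing.maximalIdeal A).map (algebraMap A (S₁ × S₂)) := by
    rintro ⟨⟨g₁, N₁, hg₁⟩, ⟨g₂, N₂, hg₂⟩⟩ h₁ h₂
    obtain ⟨δ₁, hδ₁, g₁', hg₁', e₁⟩ := exists_smul_of_red_eq_zero hg₁ h₁
    obtain ⟨δ₂, hδ₂, g₂', hg₂', e₂⟩ := exists_smul_of_red_eq_zero hg₂ h₂
    have key : ((⟨g₁, N₁, hg₁⟩, ⟨g₂, N₂, hg₂⟩) : S₁ × S₂) =
        δ₁ • (⟨g₁', N₁, hg₁'⟩, 0) + δ₂ • (0, ⟨g₂', N₂, hg₂'⟩) := by
      refine Prod.ext (Subtype.ext (Subtype.ext ?_)) (Subtype.ext (Subtype.ext ?_))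
      · simpa [hsmul] using e₁
      · simpa [hsmul] using e₂
    rw [key]
    refine add_mem ?_ ?_ <;> rw [Algebra.smul_def]
    · exact Ideal.mul_mem_right _ _ (Ideal.mem_map_of_mem _ hδ₁)
    · exact Ideal.mul_mem_right _ _ (Ideal.mem_map_of_mem _ hδ₂)
  -- lifts
  obtain ⟨M, hM, hNM⟩ : ∃ M, G.bound ≤ M ∧ N ≤ M := ⟨max G.bound N, le_max_left _ _, le_max_right _ _⟩
  have hcM := R.spFibre_polar_mono hNM hc
  have hc₂ : constTuple c ∈ R.spFibre (w2Sp R a 0 M) := by
    rw [spFibre_w2Sp_iff, R.twistSp_zero]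
    refine G.saturated M (M + M) hM _ (R.mul_mem_spFibre_polar hcM (tt_pow_mem R a M)) ?_
    have := R.mul_mem_polarFibre (constTuple_mem_polarFibre R c 0)
      (R.spFibre_polar_le _ (tt_pow_mem R a M))
    rwa [zero_add] at this
  obtain ⟨g₁, hg₁, hr₁⟩ := hcM
  obtain ⟨g₂, hg₂, hr₂⟩ := hc₂
  set e : S₁ × S₂ := (⟨g₁, M, hg₁⟩, ⟨g₂, M, hg₂⟩)
  have hidem' : (constTuple c : ∀ i, Fb i) * constTuple c = constTuple c := funext fun i => by
    rw [Pi.mul_apply, constTuple, ← map_mul]
    exact congrArg _ (congrFun hidem i)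
  obtain ⟨cb, hcb0, hcb⟩ := exists_bound_split G a
  have key := Connected.exists_const_sub_mem p₁ p₂
    (fun r hr => by
      obtain ⟨⟨g, N₁, hg⟩, ⟨g', N₂, hg'⟩⟩ := r
      obtain rfl : g = g' := hr
      obtain ⟨t, ht⟩ := exists_eq_algebraMap_of_mem_L_zero (f := (g : F))
        (twistSp_inf_w2Sp_le R a 0 (max N₁ N₂)
          ⟨by rw [R.twistSp_zero]; exact R.polarSp_mono (le_max_left _ _) hg,
           w2Sp_mono R a 0 (le_max_right _ _) hg'⟩)
      obtain ⟨i⟩ := R.nonempty
      have htA : t ∈ A := (R.mem_V_iff i t).1 (ht ▸ R.mem_integers.1 g.2 i)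
      exact ⟨⟨t, htA⟩, Prod.ext (Subtype.ext (Subtype.ext ht)) (Subtype.ext (Subtype.ext ht))⟩)
    hcb0
    (fun b r h hb hr => by
      obtain ⟨⟨g, N₁, hg⟩, ⟨g', N₂, hg'⟩⟩ := r
      set N' := max G.bound (max N₁ N₂)
      have hmem : (h : F) ∈ w12 R a N' := by
        have e : (b : K) • (h : F) = (g : F) - (g' : F) := by
          rw [← hsmul, ← hr]; rfl
        rw [← Submodule.smul_mem_iff _ (show (b : K) ≠ 0 by simpa using hb), e]
        exact Submodule.sub_mem _
          (Submodule.mem_sup_left (R.polarSp_mono ((le_max_left _ _).trans (le_max_right _ _)) hg))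
          (Submodule.mem_sup_right (w2Sp_mono R a 0 ((le_max_right _ _).trans (le_max_right _ _)) hg'))
      obtain ⟨y₁, y₂, hy₁, hy₂, hy⟩ := hcb N' (le_max_left _ _) h hmem
      refine ⟨(⟨y₁, N', hy₁⟩, ⟨-y₂, N', neg_mem hy₂⟩), Subtype.ext ?_⟩
      rw [hsmul]
      show (y₁ : F) - -(y₂ : F) = _
      rw [hy, sub_neg_eq_add])
    (Connected.not_pow_dvd_of_dvd_pow hA)
    (e := e) (hmR _ (by
      show R.red (g₁ * g₁ - g₁) = 0
      rw [map_sub, map_mul, hr₁, hidem', sub_self]) (by
      show R.red (g₂ * g₂ - g₂) = 0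
      rw [map_sub, map_mul, hr₂, hidem', sub_self]))
    (by
      obtain ⟨δ, hδ, g', hg'⟩ := R.exists_eq_smul_of_red_eq_zero
        (f := g₁ - g₂) (by rw [map_sub, hr₁, hr₂, sub_self])
      have : p₁ e - p₂ e = algebraMap A R.integers δ * g' := by
        refine Subtype.ext ?_
        show ((g₁ - g₂ : R.integers) : F) = _
        rw [hg', Algebra.smul_def]
        rfl
      rw [this]
      exact Ideal.mul_mem_right _ _ (Ideal.mem_map_of_mem _ hδ))
  obtain ⟨lam, hlam⟩ := key
  have hker : (IsLocalRing.maximalIdeal A).map (algebraMap A (S₁ × S₂)) ≤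
      RingHom.ker (R.red.comp (p₁ : (S₁ × S₂) →+* R.integers)) := by
    refine Ideal.map_le_iff_le_comap.2 fun t ht => ?_
    show R.red (p₁ (algebraMap A (S₁ × S₂) t)) = 0
    rw [AlgHom.commutes]
    exact (R.red_algebraMap t).trans (by rw [(R.π_eq_zero_iff_mem t).2 ht, map_zero])
  have h2 : R.red g₁ = algebraMap k (∀ i, Fb i) (R.π lam) := by
    have h := hker hlam
    rw [RingHom.mem_ker, map_sub, sub_eq_zero] at h
    exact h.trans ((congrArg R.red (p₁.commutes lam)).trans (R.red_algebraMap lam))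
  rw [hr₁] at h2
  have hci : ∀ i, c i = R.π lam := fun i => (algebraMap k (Fb i)).injective (congrFun h2 i)
  obtain ⟨i⟩ := R.nonempty
  have := congrFun hidem i
  rw [Pi.mul_apply, hci] at this
  rcases em (R.π lam = 0) with h | h
  · exact Or.inl (funext fun j => by rw [hci, h]; rfl)
  · exact Or.inr (funext fun j => by rw [hci]; exact (mul_eq_left₀ h).1 this)

/-- **Connectedness**: constant tuples in the special fibre are scalar. -/
theorem constTuple_eq_const (hA : RankLeOne A) (G : Gluing R) {N : ℕ} {c : ι → k}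
    (hc : constTuple c ∈ R.spFibre (R.polarSp N)) (i j : ι) : c i = c j := by
  haveI := R.isAlgClosed_residue
  let H : Subalgebra k (ι → k) :=
    { carrier := {c | ∃ N, constTuple c ∈ R.spFibre (R.polarSp N)}
      mul_mem' := fun {c d} ⟨M, hc⟩ ⟨N, hd⟩ => ⟨M + N, by
        convert R.mul_mem_spFibre_polar hc hd using 1
        funext i; exact map_mul _ _ _⟩
      add_mem' := fun {c d} ⟨M, hc⟩ ⟨N, hd⟩ => ⟨max M N, by
        convert add_mem (R.spFibre_polar_mono (le_max_left M N) hc)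
          (R.spFibre_polar_mono (le_max_right M N) hd) using 1
        funext i; exact map_add _ _ _⟩
      one_mem' := ⟨0, by
        convert R.one_mem_spFibre_polar 0 using 1
        funext i; exact map_one _⟩
      zero_mem' := ⟨0, by
        convert Submodule.zero_mem (R.spFibre (R.polarSp 0)) using 1
        funext i; exact map_zero _⟩
      algebraMap_mem' := fun t => ⟨0, by
        convert Submodule.smul_mem _ t (R.one_mem_spFibre_polar 0) using 1
        funext i
        exact Algebra.algebraMap_eq_smul_one t⟩ }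
  haveI : IsReduced H := isReduced_of_injective H.val Subtype.val_injective
  obtain ⟨t, ht⟩ := Connected.exists_algebraMap_eq_of_forall_idempotent (k := k) (H := H)
    (fun e he => by
      obtain ⟨M, hM⟩ := e.2
      rcases constTuple_idempotent hA G hM (congrArg Subtype.val he) with h | h
      · exact Or.inl (Subtype.ext h)
      · exact Or.inr (Subtype.ext h))
    (x := ⟨c, N, hc⟩) (IsIntegral.of_finite k _)
  have h := congrArg Subtype.val ht
  exact (congrFun h i).symm.trans (congrFun h j)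

end Fermat.Agent.Bad.BGlue

end
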