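/-
Injectivity in the gluing lemma: a good class with trivial gluing data is trivial.

After multiplying the moving function by a lift of inverse point values its reduction agrees at
the branches with a tuple `α` of constants; then the special fibres of the twisted spaces are `α`
times the untwisted ones, and the obstruction to lifting `α` to a section of `O(D)` is killed by
`n` after raising to the `n`-th power, hence vanishes.
-/
import Fermat.Agent.Bad.BGlueConn

set_option autoImplicit false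

noncomputable section

namespace Fermat.Agent.Bad.BGlue

open AlgebraicCurve IntermediateField Fermat.Agent.Curve Fermat.Agent.Curve.RedAux
open MultiReduction

universe uK uF uι uk uFb

variable {K : Type uK} [Field K] {A : ValuationSubring K}
  {F : Type uF} [Field F] [Algebra K F] {ι : Type uι} [Fintype ι]
  {k : Type uk} [Field k] {Fb : ι → Type uFb} [∀ i, Field (Fb i)] [∀ i, Algebra k (Fb i)]
  [IsAlgClosed K] [IsFunctionFieldOne K F] [∀ i, IsFunctionFieldOne k (Fb i)]
  {R : MultiReduction A F k Fb}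

omit [IsAlgClosed K] [IsFunctionFieldOne K F] [∀ i, IsFunctionFieldOne k (Fb i)] in
theorem constTuple_mul (c d : ι → k) :
    (constTuple (Fb := Fb) c) * constTuple d = constTuple (c * d) :=
  funext fun _ => (map_mul _ _ _).symm

omit [IsAlgClosed K] [IsFunctionFieldOne K F] [∀ i, IsFunctionFieldOne k (Fb i)] in
theorem constTuple_pow (c : ι → k) (m : ℕ) :
    (constTuple (Fb := Fb) c) ^ m = constTuple (c ^ m) :=
  funext fun _ => (map_pow _ _ _).symm

omit [IsAlgClosed K] [IsFunctionFieldOne K F] [∀ i, IsFunctionFieldOne k (Fb i)] in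
theorem constTuple_inv_mul {c : ι → k} (hc : ∀ i, c i ≠ 0) (y : ∀ i, Fb i) :
    constTuple c * (constTuple (fun i => (c i)⁻¹) * y) = y :=
  funext fun i => by
    simp only [Pi.mul_apply, constTuple, map_inv₀]
    rw [← mul_assoc, mul_inv_cancel₀ ((map_ne_zero _).2 (hc i)), one_mul]

/-- The special fibres of the two charts of the trivial twist meet in the scalars. -/
theorem spFibre_inf_le_span (hA : RankLeOne A) (G : Gluing R) (a : A) (N : ℕ) :
    R.spFibre (R.polarSp N) ⊓ R.spFibre (w2Sp R a 0 N) ≤ Submodule.span k {1} := by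
  rintro y ⟨h1, h2⟩
  have h2' : y * tt R a ^ N ∈ R.spFibre (R.polarSp N) := by
    have := (spFibre_w2Sp_iff R).1 h2
    rwa [R.twistSp_zero] at this
  obtain ⟨c, rfl⟩ := exists_constTuple_of_mem a (R.spFibre_polar_le _ h1)
    (R.spFibre_polar_le _ h2')
  obtain ⟨i⟩ := R.nonempty
  refine Submodule.mem_span_singleton.2 ⟨c i, funext fun j => ?_⟩
  rw [Pi.smul_apply, Pi.one_apply, ← Algebra.algebraMap_eq_smul_one,
    constTuple_eq_const hA G h1 i j]
  rfl

/-- The special fibre of the sum of the two charts is the sum of their special fibres. -/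
theorem spFibre_w12_le (hA : RankLeOne A) (G : Gluing R) (a : A) (N : ℕ) :
    R.spFibre (w12 R a N) ≤ R.spFibre (R.polarSp N) ⊔ R.spFibre (w2Sp R a 0 N) := by
  haveI := R.finiteDimensional_polarSp N
  haveI := finiteDimensional_w2Sp R a 0 N
  haveI := finiteDimensional_w12 R a N
  haveI := R.finiteDimensional_spFibre (R.polarSp N)
  haveI := R.finiteDimensional_spFibre (w2Sp R a 0 N)
  haveI := R.finiteDimensional_spFibre (w12 R a N)
  haveI : FiniteDimensional k (R.spFibre (R.polarSp N ⊔ w2Sp R a 0 N)) :=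
    R.finiteDimensional_spFibre (w12 R a N)
  refine (Submodule.eq_of_le_of_finrank_le (sup_le (R.spFibre_mono le_sup_left)
    (R.spFibre_mono le_sup_right)) ?_).ge
  have s2 := Submodule.finrank_sup_add_finrank_inf_eq
    (R.spFibre (R.polarSp N)) (R.spFibre (w2Sp R a 0 N))
  have k1 := Submodule.finrank_sup_add_finrank_inf_eq (R.polarSp N) (w2Sp R a 0 N)
  haveI : FiniteDimensional k (Submodule.span k ({1} : Set (∀ i, Fb i))) :=
    FiniteDimensional.span_of_finite k (Set.finite_singleton _)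
  have h1 : Module.finrank k
      (R.spFibre (R.polarSp N) ⊓ R.spFibre (w2Sp R a 0 N) : Submodule k (∀ i, Fb i)) ≤ 1 := by
    refine (Submodule.finrank_mono (spFibre_inf_le_span hA G a N)).trans ?_
    exact (finrank_span_le_card (R := k) ({(1 : ∀ i, Fb i)} : Set (∀ i, Fb i))).trans_eq (by simp)
  rw [finrank_polar_inf_w2] at k1
  rw [R.finrank_spFibre (R.polarSp N), R.finrank_spFibre (w2Sp R a 0 N)] at s2
  have t : Module.finrank k (R.spFibre (w12 R a N)) =
      Module.finrank K (R.polarSp N ⊔ w2Sp R a 0 N : Submodule K F) := R.finrank_spFibre _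
  have t0 : Module.finrank k (R.spFibre (R.polarSp N ⊔ w2Sp R a 0 N)) =
      Module.finrank k (R.spFibre (w12 R a N)) := rfl
  omega

/-- A primitive common scaling of two functions. -/
theorem exists_scale_pair {w₁ w₂ : F} (h₁ : w₁ ≠ 0) (h₂ : w₂ ≠ 0) :
    ∃ (c : K) (hc₁ : c • w₁ ∈ R.integers) (hc₂ : c • w₂ ∈ R.integers), c ≠ 0 ∧
      (R.red ⟨c • w₁, hc₁⟩ ≠ 0 ∨ R.red ⟨c • w₂, hc₂⟩ ≠ 0) := by
  obtain ⟨c₁, e₁, n₁⟩ := R.exists_scale_integers w₁ h₁
  obtain ⟨c₂, e₂, n₂⟩ := R.exists_scale_integers w₂ h₂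
  have hc1 : c₁ ≠ 0 := by
    rintro rfl
    exact n₁ ((congrArg R.red (Subtype.ext (zero_smul K w₁) :
      (⟨(0 : K) • w₁, e₁⟩ : R.integers) = 0)).trans (map_zero _))
  have hc2 : c₂ ≠ 0 := by
    rintro rfl
    exact n₂ ((congrArg R.red (Subtype.ext (zero_smul K w₂) :
      (⟨(0 : K) • w₂, e₂⟩ : R.integers) = 0)).trans (map_zero _))
  rcases A.mem_or_inv_mem (c₁ / c₂) with h | h
  · refine ⟨c₁, e₁, ?_, hc1, Or.inl n₁⟩
    simpa [smul_smul, div_mul_cancel₀ _ hc2] using R.smul_mem_integers ⟨_, h⟩ e₂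
  · refine ⟨c₂, ?_, e₂, hc2, Or.inr n₂⟩
    rw [inv_div] at h
    simpa [smul_smul, div_mul_cancel₀ _ hc1] using R.smul_mem_integers ⟨_, h⟩ e₁

/-- Trivial gluing data: the special fibres of the twists are a constant tuple times the
untwisted ones, and its `n`-th power times the constants of `f` is scalar. -/
theorem exists_constTuple_twist (hA : RankLeOne A) (q : ℕ) [Fact q.Prime] [CharP k q]
    {G : Gluing R} {n : ℕ} (hn : (n : k) ≠ 0) {D : Divisor K F} {f : F} {N : ℕ} {z : F}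
    (hf : NormalForm R n D f) (hz : Moves G D N z) (h0 : G.mkData hz.values = 0) :
    ∃ (α : ι → k) (μ : k) (M₀ : ℕ), (∀ i, α i ≠ 0) ∧ μ ≠ 0 ∧ G.bound ≤ M₀ ∧
      hf.cvec * constTuple α ^ n = μ • (1 : ∀ i, Fb i) ∧
      ∀ M, M₀ ≤ M → ∀ y, y ∈ R.spFibre (R.twistSp D M) ↔
        ∃ s ∈ R.spFibre (R.polarSp M), y = constTuple α * s := by
  classical
  haveI := R.isAlgClosed_residue
  have hn0 : n ≠ 0 := fun h => hn (by simp [h])
  have hpn : ∀ y : ∀ i, Fb i, y ^ n = y ^ (n - 1) * y := fun y => by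
    rw [← pow_succ, Nat.sub_add_cancel (Nat.one_le_iff_ne_zero.2 hn0)]
  obtain ⟨aU, dU, hval⟩ := G.mkData_eq_zero_iff.1 h0
  set α : ι → k := fun i => (aU i : k) with hα
  have hα0 : ∀ i, α i ≠ 0 := fun i => (aU i).ne_zero
  set β : ι → k := fun i => (α i)⁻¹ with hβ
  have hαβ : ∀ y : ∀ i, Fb i, constTuple α * (constTuple β * y) = y := constTuple_inv_mul hα0
  obtain ⟨N', η, hη, hηval⟩ := G.realise fun p => ((dU p)⁻¹ : kˣ)
  have hw : R.red ⟨z, hz.mem⟩ * η ∈ R.spFibre (R.twistSp D (N + N')) := by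
    obtain ⟨e, he, rfl⟩ := hη
    refine ⟨⟨z, hz.mem⟩ * e, ?_, map_mul _ _ _⟩
    have := R.mul_mem_twistSp hz.mem_twist
      (show (e : F) ∈ R.twistSp 0 N' by rwa [R.twistSp_zero])
    rwa [add_zero] at this
  set w := R.red ⟨z, hz.mem⟩ * η with hwdef
  set g := constTuple β * w with hg
  have hwg : w = constTuple α * g := (hαβ w).symm
  have hwp := hf.spFibre_twist_le hn0 _ hw
  have hgp : g ∈ R.polarFibre (N + N') := by
    have := R.mul_mem_polarFibre (constTuple_mem_polarFibre R β 0) hwp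
    rwa [zero_add] at this
  have hgval : ∀ b : ↥G.B, bval (b : Σ i, Place k (Fb i)) g = 1 := fun b => by
    have hzm := G.mem_of_polarFibre (hf.spFibre_twist_le hn0 _ hz.red_mem_spFibre) b
    have hηm := G.mem_of_polarFibre (R.spFibre_polar_le _ hη) b
    rw [hg, show (constTuple β : ∀ i, Fb i) * w =
      (fun i => algebraMap k (Fb i) (β i)) * w from rfl,
      bval_mul_algebraMap β (G.mem_of_polarFibre hwp b), hwdef, bval_mul hzm hηm, hηval b,
      show bval (b : Σ i, Place k (Fb i)) (R.red ⟨z, hz.mem⟩) = ((hz.values b : kˣ) : k) from rfl,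
      hval b, Units.val_mul, mul_assoc, ← Units.val_mul, mul_inv_cancel, Units.val_one, mul_one]
    exact inv_mul_cancel₀ (hα0 _)
  set κ : ι → k := fun i => hf.cst i * α i ^ n with hκ
  have hκc : hf.cvec * constTuple α ^ n = constTuple κ := by
    rw [constTuple_pow]
    exact constTuple_mul hf.cst (α ^ n)
  -- `κ` is scalar
  have hgn : constTuple κ * g ^ n ∈ R.spFibre (R.polarSp (N + N' + (n - 1) * (N + N'))) := by
    have := hf.mul_pow_mem_spFibre hn0 hw hw
    rwa [← pow_succ', Nat.sub_add_cancel (Nat.one_le_iff_ne_zero.2 hn0), hwg, mul_pow,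
      ← mul_assoc, hκc] at this
  have hq : q.Prime := Fact.out
  set Q := q ^ G.order with hQ
  have hκQ : constTuple (κ ^ Q) ∈ R.spFibre (R.polarSp G.bound) := by
    refine G.mem_of_sub_vanish le_rfl (constTuple_mem_polarFibre R _ _)
      (R.pow_mem_spFibre_polar hgn Q) fun b hb => ?_
    have e : constTuple (κ ^ Q) - (constTuple κ * g ^ n) ^ Q =
        (-(constTuple (κ ^ Q))) * (g ^ (n * Q) - 1) := by
      rw [mul_pow, ← constTuple_pow, ← pow_mul]; ring
    rw [e]
    refine VanishesAt.mul_left ?_ (neg_mem (b.2.algebraMap_mem' _))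
    exact (vanishesAt_pow_sub_one q (G.mem_of_polarFibre hgp ⟨b, hb⟩) (hgval ⟨b, hb⟩)
      G.order n).mono (Nat.lt_pow_self hq.one_lt).le
  obtain ⟨i₀⟩ := R.nonempty
  have hκconst : ∀ i, κ i = κ i₀ := fun i => by
    have := constTuple_eq_const hA G hκQ i i₀
    exact iterateFrobenius_inj k q G.order (by simpa [iterateFrobenius_def, hQ] using this)
  set μ := κ i₀
  have hμ : μ ≠ 0 := mul_ne_zero (hf.cst_ne_zero _) (pow_ne_zero _ (hα0 _))
  have hκμ : constTuple κ = μ • (1 : ∀ i, Fb i) := funext fun i => by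
    rw [Pi.smul_apply, Pi.one_apply, ← Algebra.algebraMap_eq_smul_one]
    exact congrArg _ (hκconst i)
  have hdiv : ∀ {M : ℕ} {y : ∀ i, Fb i}, μ • y ∈ R.spFibre (R.polarSp M) →
      y ∈ R.spFibre (R.polarSp M) := fun {M y} h => (Submodule.smul_mem_iff _ hμ).1 h
  have hgn' : g ^ n ∈ R.spFibre (R.polarSp (N + N' + (n - 1) * (N + N'))) := hdiv (by
    rwa [hκμ, smul_mul_assoc, one_mul] at hgn)
  -- sections of the twist, divided by `α`, are sections of the untwisted spaces
  obtain ⟨N₀, hN₀⟩ := R.exists_finrank_spFibre_twist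
  set M₀ := max G.bound N₀
  have hle : ∀ M, M₀ ≤ M → ∀ y ∈ R.spFibre (R.twistSp D M),
      constTuple β * y ∈ R.spFibre (R.polarSp M) := fun M hM y hy => by
    have hb : G.bound ≤ M := (le_max_left _ _).trans hM
    have hp : constTuple β * y ∈ R.polarFibre M := by
      have := R.mul_mem_polarFibre (constTuple_mem_polarFibre R β 0) (hf.spFibre_twist_le hn0 _ hy)
      rwa [zero_add] at this
    refine G.mem_of_mul_pow_mem q hn hb hp hgp (fun b hb' => by rw [hgval ⟨b, hb'⟩]; exact one_ne_zero)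
      (fun b b' _ => by rw [hgval b, hgval b']) hgn' (M' := M + (n - 1) * (N + N')) (hdiv ?_)
    have h2 := hf.mul_pow_mem_spFibre hn0 hy hw
    have e : hf.cvec * (y * w ^ (n - 1)) = μ • (constTuple β * y * g ^ (n - 1)) := by
      conv_lhs => rw [← hαβ y, hwg, mul_pow]
      rw [← one_mul (constTuple β * y * g ^ (n - 1)), ← smul_mul_assoc, ← hκμ, ← hκc]
      rw [hpn (constTuple α)]
      ring
    rwa [e] at h2
  refine ⟨α, μ, M₀, hα0, hμ, le_max_left _ _, hκc.trans hκμ, fun M hM y => ⟨fun hy =>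
    ⟨_, hle M hM y hy, (hαβ y).symm⟩, ?_⟩⟩
  rintro ⟨s, hs, rfl⟩
  -- equality of dimensions
  let mulA : (∀ i, Fb i) →ₗ[k] (∀ i, Fb i) := LinearMap.mulLeft k (constTuple α)
  have hinj : Function.Injective mulA := fun y y' h => funext fun i => by
    have := congrFun h i
    exact mul_left_cancel₀ ((map_ne_zero _).2 (hα0 i)) this
  haveI := R.finiteDimensional_spFibre_polar M
  have hdim : Module.finrank k (R.spFibre (R.twistSp D M)) =
      Module.finrank k (R.spFibre (R.polarSp M)) := by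
    have e1 := hN₀ D hf.degree_zero M ((le_max_right _ _).trans hM)
    have e2 := hN₀ 0 (map_zero _) M ((le_max_right _ _).trans hM)
    rw [R.twistSp_zero] at e2
    omega
  have heq : R.spFibre (R.twistSp D M) = (R.spFibre (R.polarSp M)).map mulA := by
    refine Submodule.eq_of_le_of_finrank_le (fun y hy => ⟨_, hle M hM y hy, hαβ y⟩) ?_
    rw [← (Submodule.equivMapOfInjective mulA hinj _).finrank_eq, hdim]
  rw [heq]
  exact ⟨s, hs, rfl⟩

/-- **Injectivity in the gluing lemma.** -/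
theorem mem_principal_of_mkData_eq_zero (hA : RankLeOne A) (q : ℕ) [Fact q.Prime] [CharP k q]
    {G : Gluing R} {n : ℕ} (hn : (n : k) ≠ 0) {D : Divisor K F} {f : F} {N : ℕ} {z : F}
    (hf : NormalForm R n D f) (hz : Moves G D N z) (h0 : G.mkData hz.values = 0) :
    D ∈ Divisor.principal (K := K) (F := F) := by
  classical
  haveI := R.isAlgClosed_residue
  obtain ⟨α, μ, M, hα, hμ, hM, hκ, htw⟩ := exists_constTuple_twist hA q hn hf hz h0
  have hn0 : n ≠ 0 := fun h => hn (by simp [h])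
  have hpn : ∀ y : ∀ i, Fb i, y ^ n = y ^ (n - 1) * y := fun y => by
    rw [← pow_succ, Nat.sub_add_cancel (Nat.one_le_iff_ne_zero.2 hn0)]
  set a : A := 0
  by_contra hnp
  have hLD : riemannRochSpace D = ⊥ := by
    refine (Submodule.eq_bot_iff _).2 fun g hg => by_contra fun hg0 => hnp ?_
    obtain ⟨E, hE, hEdeg⟩ := HasPrincipalDivisors.exists_divisor (K := K) g hg0
    have hle : (0 : Divisor K F) ≤ E + D := Finsupp.le_def.2 fun v => by
      have := (mem_L_iff hg0).1 hg v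
      simp only [Finsupp.coe_zero, Pi.zero_apply, Finsupp.add_apply, hE v]
      omega
    have h0' : (0 : Divisor K F) = E + D := RedAux.eq_of_le_of_degree_le hle
      (by rw [map_add, hEdeg, hf.degree_zero, map_zero, add_zero])
    refine ⟨g⁻¹, inv_ne_zero hg0, fun v => ?_⟩
    have := DFunLike.congr_fun h0' v
    rw [Finsupp.add_apply, hE v, Finsupp.zero_apply] at this
    rw [v.ord_inv]
    omega
  haveI := R.finiteDimensional_twistSp D M
  haveI := finiteDimensional_w2Sp R a D M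
  set W₁ := R.twistSp D M
  set W₂ := w2Sp R a D M
  set R₁ := R.spFibre W₁ with hR₁
  set R₂ := R.spFibre W₂ with hR₂
  haveI : FiniteDimensional k R₁ := R.finiteDimensional_spFibre W₁
  haveI : FiniteDimensional k R₂ := R.finiteDimensional_spFibre W₂
  have hmem₁ : ∀ y, y ∈ R₁ ↔ ∃ s ∈ R.spFibre (R.polarSp M), y = constTuple α * s := htw M le_rfl
  have hmem₂ : ∀ y, y ∈ R₂ ↔ ∃ s, s * tt R a ^ M ∈ R.spFibre (R.polarSp M) ∧
      y = constTuple α * s := by
    intro y
    rw [hR₂, spFibre_w2Sp_iff, htw M le_rfl]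
    constructor
    · rintro ⟨s, hs, hy⟩
      refine ⟨fun i => s i / tt R a i ^ M, ?_, funext fun i => ?_⟩
      · convert hs using 1
        funext i
        exact div_mul_cancel₀ _ (pow_ne_zero _ (tt_ne_zero R a i))
      · have := congrFun hy i
        simp only [Pi.mul_apply, Pi.pow_apply] at this ⊢
        rw [mul_div_assoc', eq_div_iff (pow_ne_zero _ (tt_ne_zero R a i))]
        exact this
    · rintro ⟨s, hs, rfl⟩
      exact ⟨_, hs, mul_assoc _ _ _⟩
  have h1M : (1 : ∀ i, Fb i) ∈ R.spFibre (R.polarSp M) := R.one_mem_spFibre_polar M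
  have h1R₁ : constTuple α ∈ R₁ := (hmem₁ _).2 ⟨1, h1M, (mul_one _).symm⟩
  have h1R₂ : constTuple α ∈ R₂ := (hmem₂ _).2 ⟨1, by
    rw [one_mul]; exact tt_pow_mem R a M, (mul_one _).symm⟩
  -- an element of the sum with reduction outside the sum of the special fibres
  obtain ⟨u₀, hu₀, hu₀R⟩ : ∃ u₀ : R.integers, (u₀ : F) ∈ W₁ ⊔ W₂ ∧ R.red u₀ ∉ R₁ ⊔ R₂ := by
    by_contra hc
    push Not at hc
    have hle : R.spFibre (W₁ ⊔ W₂) ≤ R₁ ⊔ R₂ := by
      rintro y ⟨v, hv, rfl⟩
      exact hc v hv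
    have hbot : W₁ ⊓ W₂ = ⊥ := by
      rw [eq_bot_iff, ← hLD]
      exact twistSp_inf_w2Sp_le R a D M
    have k1 := Submodule.finrank_sup_add_finrank_inf_eq W₁ W₂
    rw [hbot, finrank_bot, add_zero] at k1
    have k2 := Submodule.finrank_sup_add_finrank_inf_eq R₁ R₂
    rw [hR₁, hR₂, R.finrank_spFibre W₁, R.finrank_spFibre W₂, ← hR₁, ← hR₂] at k2
    have k3 := Submodule.finrank_mono hle
    rw [R.finrank_spFibre (W₁ ⊔ W₂)] at k3
    have k4 : 0 < Module.finrank k (R₁ ⊓ R₂ : Submodule k (∀ i, Fb i)) := by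
      rw [Module.finrank_pos_iff_exists_ne_zero]
      refine ⟨⟨_, h1R₁, h1R₂⟩, fun h => ?_⟩
      obtain ⟨i⟩ := R.nonempty
      exact (map_ne_zero _).2 (hα i) (congrFun (congrArg Subtype.val h) i)
    omega
  obtain ⟨w₁, hw₁, w₂, hw₂, hsum⟩ := Submodule.mem_sup.1 hu₀
  have hw₁0 : w₁ ≠ 0 := fun h => hu₀R (Submodule.mem_sup_right
    ⟨u₀, by rwa [← hsum, h, zero_add], rfl⟩)
  have hw₂0 : w₂ ≠ 0 := fun h => hu₀R (Submodule.mem_sup_left
    ⟨u₀, by rwa [← hsum, h, add_zero], rfl⟩)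
  obtain ⟨c, hc₁, hc₂, hc0, hne⟩ := exists_scale_pair (R := R) hw₁0 hw₂0
  set g₁ : R.integers := ⟨c • w₁, hc₁⟩ with hg₁def
  set g₂ : R.integers := ⟨c • w₂, hc₂⟩ with hg₂def
  have hsum' : ((g₁ + g₂ : R.integers) : F) = c • (u₀ : F) := by
    simp [hg₁def, hg₂def, ← hsum]
  have hr₁ : R.red g₁ ∈ R₁ := ⟨g₁, W₁.smul_mem c hw₁, rfl⟩
  have hr₂ : R.red g₂ ∈ R₂ := ⟨g₂, W₂.smul_mem c hw₂, rfl⟩
  have hred_smul : ∀ (t : A) (g g' : R.integers), (g' : F) = (t : K) • (g : F) →
      R.red g' = R.π t • R.red g := fun t g g' h => by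
    rw [← R.red_smul t g]; exact congrArg R.red (Subtype.ext h)
  have hcA : c ∈ A := by
    by_contra hcA
    have hci : c⁻¹ ∈ A := (A.mem_or_inv_mem c).resolve_left hcA
    have hπ : R.π ⟨c⁻¹, hci⟩ = 0 := (R.π_eq_zero_iff _).2 fun hu' => by
      obtain ⟨b, hb⟩ := hu'.exists_right_inv
      have hb' : c⁻¹ * (b : K) = 1 := congrArg Subtype.val hb
      exact hcA (by rw [← inv_inv c, ← eq_inv_of_mul_eq_one_right hb']; exact b.2)
    refine hu₀R ?_
    rw [hred_smul ⟨c⁻¹, hci⟩ (g₁ + g₂) u₀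
      (by rw [hsum', smul_smul, inv_mul_cancel₀ hc0, one_smul]), hπ, zero_smul]
    exact Submodule.zero_mem _
  have hπc : R.π ⟨c, hcA⟩ = 0 := by
    by_contra hπ
    refine hu₀R ?_
    have h := hred_smul ⟨c, hcA⟩ u₀ (g₁ + g₂) hsum'
    rw [map_add] at h
    have hmem := Submodule.add_mem_sup hr₁ hr₂
    rw [h] at hmem
    exact (Submodule.smul_mem_iff _ hπ).1 hmem
  have hopp : R.red g₁ = -R.red g₂ := by
    rw [eq_neg_iff_add_eq_zero, ← map_add, hred_smul ⟨c, hcA⟩ u₀ (g₁ + g₂) hsum', hπc, zero_smul]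
  have hg₁0 : R.red g₁ ≠ 0 := by
    rcases hne with h | h
    · exact h
    · exact fun h' => h (by rwa [hopp, neg_eq_zero] at h')
  obtain ⟨lam, hlam⟩ : ∃ lam : k, R.red g₁ = lam • constTuple α := by
    obtain ⟨s, hs, hs'⟩ := (hmem₁ _).1 hr₁
    obtain ⟨t, ht, ht'⟩ := (hmem₂ _).1 (hopp.symm ▸ neg_mem hr₂ : R.red g₁ ∈ R₂)
    have hst : s = t := funext fun i =>
      mul_left_cancel₀ ((map_ne_zero _).2 (hα i)) (congrFun (hs'.symm.trans ht') i)
    subst hst
    obtain ⟨lam, hlam⟩ := Submodule.mem_span_singleton.1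
      (spFibre_inf_le_span hA G a M ⟨hs, (spFibre_w2Sp_iff R).2 (by rwa [R.twistSp_zero])⟩)
    exact ⟨lam, by rw [hs', ← hlam, mul_smul_comm, mul_one]⟩
  have hlam0 : lam ≠ 0 := fun h => hg₁0 (by rw [hlam, h, zero_smul])
  obtain ⟨l, hl⟩ := R.π_surjective lam⁻¹
  set G₁ : R.integers := ⟨(l : K) • (g₁ : F), R.smul_mem_integers l g₁.2⟩ with hG₁def
  set G₂ : R.integers := ⟨(l : K) • (g₂ : F), R.smul_mem_integers l g₂.2⟩ with hG₂def
  have hG₁ : R.red G₁ = constTuple α := by
    rw [hG₁def, R.red_smul, hl, hlam, smul_smul, inv_mul_cancel₀ hlam0, one_smul]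
  have hG₂ : R.red (-G₂) = constTuple α := by
    rw [map_neg, hG₂def, R.red_smul, ← smul_neg, ← hopp, hl, hlam, smul_smul,
      inv_mul_cancel₀ hlam0, one_smul]
  -- the obstruction, after taking `n`-th powers
  set S : R.integers := ∑ i ∈ Finset.range n, G₁ ^ i * (-G₂) ^ (n - 1 - i) with hSdef
  have hS : R.red S = (n : k) • constTuple α ^ (n - 1) := by
    rw [hSdef, map_sum, Finset.sum_congr rfl (g := fun _ => (constTuple α : ∀ i, Fb i) ^ (n - 1))
      fun i hi => ?_, Finset.sum_const, Finset.card_range, Nat.cast_smul_eq_nsmul]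
    rw [map_mul, map_pow, map_pow, hG₁, hG₂, ← pow_add]
    congr 1
    have := Finset.mem_range.1 hi
    omega
  set u' : R.integers := ⟨f, hf.mem_integers⟩ * (u₀ * S) with hu'def
  have key : ((l : K) * c) • (u' : F) =
      f * (G₁ : F) ^ n - f * (-(G₂ : F)) ^ n := by
    have hgeom : (S : F) * ((G₁ : F) - -(G₂ : F)) = (G₁ : F) ^ n - (-(G₂ : F)) ^ n := by
      rw [← geom_sum₂_mul]
      simp [hSdef]
    have hdiff : (G₁ : F) - -(G₂ : F) = ((l : K) * c) • (u₀ : F) := by
      rw [sub_neg_eq_add, hG₁def, hG₂def, mul_smul, ← hsum']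
      simp [smul_add]
    rw [← mul_sub, ← hgeom, hdiff]
    simp only [hu'def, MulMemClass.coe_mul, Algebra.smul_def]
    ring
  have hlc : (l : K) * c ≠ 0 := mul_ne_zero (fun h => inv_ne_zero hlam0 (by
    rw [← hl, show l = 0 from Subtype.ext h, map_zero])) hc0
  have hpow : ∀ g : F, g ∈ R.twistSp D M → f * g ^ n ∈ R.polarSp (n * M) := fun g hg => by
    have h := mul_mem_L hf.self_mem_L (pow_mem_L hg n)
    have heq : -(n • D) + n • (M • R.poleX + D) = (n * M) • R.poleX := by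
      rw [smul_add, smul_smul]; abel
    rwa [heq] at h
  have hu'W : (u' : F) ∈ w12 R a (n * M) := by
    rw [← Submodule.smul_mem_iff _ hlc, key]
    refine Submodule.sub_mem _ (Submodule.mem_sup_left (hpow _ ?_)) (Submodule.mem_sup_right ?_)
    · exact W₁.smul_mem _ (W₁.smul_mem c hw₁)
    · rw [mem_w2Sp, R.twistSp_zero, mul_assoc, mul_comm n M, pow_mul, ← mul_pow, mul_comm M n]
      refine hpow _ ?_
      exact (mem_w2Sp R).1 (neg_mem (W₂.smul_mem _ (W₂.smul_mem c hw₂)))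
  have hu₀t : R.red u₀ * tt R a ^ M ∈ R.spFibre (R.twistSp D (2 * M)) :=
    ⟨u₀ * u R a ^ M, by simpa using mul_mem_of_mem_sup (R := R) (a := a) hu₀, by
      rw [map_mul, map_pow]; rfl⟩
  obtain ⟨s2, hs2, hs2'⟩ := (htw (2 * M) (by omega) _).1 hu₀t
  set s : ∀ i, Fb i := constTuple (fun i => (α i)⁻¹) * R.red u₀ with hsdef
  have hus : R.red u₀ = constTuple α * s := (constTuple_inv_mul hα _).symm
  have hst : s * tt R a ^ M = s2 := funext fun i => by
    refine mul_left_cancel₀ ((map_ne_zero (algebraMap k (Fb i))).2 (hα i)) ?_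
    have := congrFun hs2' i
    rw [hus] at this
    simpa [constTuple, mul_assoc] using this
  have hu'red : R.red u' = ((n : k) * μ) • s := by
    rw [hu'def, map_mul, map_mul, hS, hf.red_eq, hus, mul_smul, ← one_mul s, ← smul_mul_assoc μ,
      ← hκ, one_mul]
    rw [hpn (constTuple α)]
    rw [mul_smul_comm, mul_smul_comm]
    congr 1
    ring
  have hs12 : s ∈ R.spFibre (R.polarSp (n * M)) ⊔ R.spFibre (w2Sp R a 0 (n * M)) := by
    rw [← Submodule.smul_mem_iff _ (mul_ne_zero hn hμ), ← hu'red]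
    exact spFibre_w12_le hA G a _ ⟨u', hu'W, rfl⟩
  obtain ⟨y₁, hy₁, y₂, hy₂, hy⟩ := Submodule.mem_sup.1 hs12
  have hy₂' := (spFibre_w2Sp_iff R).1 hy₂
  rw [R.twistSp_zero] at hy₂'
  obtain ⟨e₁, e₂⟩ := exists_separate G a hM (hst ▸ hs2) hy₁ hy₂' hy.symm
  refine hu₀R ?_
  rw [hus, ← hy, mul_add]
  exact Submodule.add_mem_sup ((hmem₁ _).2 ⟨y₁, e₁, rfl⟩) ((hmem₂ _).2 ⟨y₂, e₂, rfl⟩)

end Fermat.Agent.Bad.BGlue

end
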