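/-
Gluing lemma: good classes form a group, the gluing data are additive and equivariant under
semilinear automorphisms respecting the branches, and inertial automorphisms fix good classes.
-/
import Fermat.Agent.Bad.BGlueInj
import Fermat.Prelude.Def_AlgebraicCurve_BaseChangeGalois
import Mathlib.GroupTheory.Perm.Basic
import Mathlib.GroupTheory.OrderOfElement

set_option autoImplicit false

noncomputable section

namespace Fermat.Agent.Bad.BEquiv

open AlgebraicCurve IntermediateField Fermat.Agent.Curve Fermat.Agent.Curve.RedAux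
open MultiReduction

universe uK uF uι uk uFb

variable {K : Type uK} [Field K] {A : ValuationSubring K}
  {F : Type uF} [Field F] [Algebra K F] {ι : Type uι} [Fintype ι]
  {k : Type uk} [Field k] {Fb : ι → Type uFb} [∀ i, Field (Fb i)] [∀ i, Algebra k (Fb i)]
  [IsAlgClosed K] [IsFunctionFieldOne K F] [∀ i, IsFunctionFieldOne k (Fb i)]
  {R : MultiReduction A F k Fb} (G : Gluing R)

/-! ### The group of good classes -/

theorem isGood_zero (n : ℕ) : IsGood G n (0 : Pic0 K F) := by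
  obtain ⟨h, -⟩ := moves_zero_one G
  exact ⟨0, 1, 0, 1, Pic0.mk_zero, normalForm_zero_one n, h⟩

theorem isGood_add {n : ℕ} (hn : n ≠ 0) {c c' : Pic0 K F} (hc : IsGood G n c)
    (hc' : IsGood G n c') : IsGood G n (c + c') := by
  obtain ⟨D, f, N, z, rfl, hf, hz⟩ := hc
  obtain ⟨D', f', N', z', rfl, hf', hz'⟩ := hc'
  obtain ⟨h, -⟩ := hz.mul hz' hf hf' hn
  exact ⟨D + D', f * f', N + N', z * z', Pic0.mk_add D D', hf.mul hf', h⟩

omit [IsAlgClosed K] in
theorem nsmul_eq_zero_of_isGood {n : ℕ} {c : Pic0 K F} (hc : IsGood G n c) : n • c = 0 := by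
  obtain ⟨D, f, N, z, rfl, hf, hz⟩ := hc
  rw [Pic0.mk, ← QuotientAddGroup.mk_nsmul, QuotientAddGroup.eq_zero_iff,
    AddSubgroup.mem_addSubgroupOf]
  refine ⟨f, hf.ne_zero, fun v => ?_⟩
  rw [← hf.ord_eq v]
  simp

theorem isGood_nsmul {n : ℕ} (hn : n ≠ 0) {c : Pic0 K F} (hc : IsGood G n c) (m : ℕ) :
    IsGood G n (m • c) := by
  induction m with
  | zero => rw [zero_nsmul]; exact isGood_zero G n
  | succ m ih => rw [succ_nsmul]; exact isGood_add G hn ih hc

/-- The subgroup generated by good classes consists of good classes. -/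
theorem mem_closure_iff {n : ℕ} (hn : n ≠ 0) {c : Pic0 K F} :
    c ∈ AddSubgroup.closure {c | IsGood G n c} ↔ IsGood G n c := by
  refine ⟨fun h => ?_, fun h => AddSubgroup.subset_closure h⟩
  induction h using AddSubgroup.closure_induction with
  | mem x hx => exact hx
  | zero => exact isGood_zero G n
  | add x y _ _ hx hy => exact isGood_add G hn hx hy
  | neg x _ hx =>
    have h : -x = (n - 1) • x := by
      rw [neg_eq_iff_add_eq_zero, add_comm, ← succ_nsmul,
        Nat.sub_add_cancel (Nat.one_le_iff_ne_zero.2 hn)]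
      exact nsmul_eq_zero_of_isGood G hx
    rw [h]
    exact isGood_nsmul G hn hx _

/-- Representatives of the same class have the same gluing data. -/
theorem mkData_eq_of_mk_eq {n : ℕ} (hn : n ≠ 0) {D D' : Divisor.degZero (K := K) (F := F)}
    {f f' : F} {N N' : ℕ} {z z' : F} (hf : NormalForm R n (D : Divisor K F) f)
    (hf' : NormalForm R n (D' : Divisor K F) f') (hz : Moves G (D : Divisor K F) N z)
    (hz' : Moves G (D' : Divisor K F) N' z') (h : Pic0.mk D = Pic0.mk D') :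
    G.mkData hz'.values = G.mkData hz.values := by
  rw [Pic0.mk, Pic0.mk, QuotientAddGroup.eq, AddSubgroup.mem_addSubgroupOf] at h
  obtain ⟨u, hu, hD⟩ := h
  exact hz.mkData_values_eq_of_class hn hf hf' hz' hu fun v => by
    rw [← hD v]
    simp

theorem exists_gluingHom {n : ℕ} (hn : n ≠ 0) :
    ∃ Ψ : AddSubgroup.closure {c : Pic0 K F | IsGood G n c} →+ Additive G.Data,
      ∀ (D : Divisor.degZero (K := K) (F := F)) (f : F) (N : ℕ) (z : F)
        (_ : NormalForm R n (D : Divisor K F) f) (hz : Moves G (D : Divisor K F) N z)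
        (hD : Pic0.mk D ∈ AddSubgroup.closure {c : Pic0 K F | IsGood G n c}),
        Ψ ⟨Pic0.mk D, hD⟩ = G.mkData hz.values := by
  choose D f N z hD hf hz using fun x : AddSubgroup.closure {c : Pic0 K F | IsGood G n c} =>
    (mem_closure_iff G hn).1 x.2
  refine ⟨AddMonoidHom.mk' (fun x => G.mkData (hz x).values) fun x y => ?_,
    fun D' f' N' z' hf' hz' hD' => ?_⟩
  · obtain ⟨h, hv⟩ := (hz x).mul (hz y) (hf x) (hf y) hn
    rw [← G.mkData_mul, ← hv]
    refine mkData_eq_of_mk_eq G hn (D := D x + D y) ((hf x).mul (hf y)) (hf _) h (hz _) ?_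
    rw [Pic0.mk_add, hD, hD, hD]
    rfl
  · exact mkData_eq_of_mk_eq G hn hf' (hf _) hz' (hz _) (hD ⟨Pic0.mk D', hD'⟩).symm

/-! ### Semilinear automorphisms -/

omit [IsAlgClosed K] [IsFunctionFieldOne K F] [∀ i, IsFunctionFieldOne k (Fb i)] [Fintype ι] in
/-- Values at transported places. -/
theorem placeValue_transport [IsAlgClosed k] {E E' : Type uFb} [Field E] [Algebra k E] [Field E']
    [Algebra k E'] [IsFunctionFieldOne k E] [IsFunctionFieldOne k E'] (σk : k ≃+* k)
    (θ : E ≃+* E') (hθ : ∀ a : k, θ (algebraMap k E a) = algebraMap k E' (σk a))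
    (v : Place k E) (w : Place k E')
    (hw : w.toValuationSubring = v.toValuationSubring.comap θ.symm.toRingHom) {f : E}
    (hf : f ∈ v.toValuationSubring) : placeValue w (θ f) = σk (placeValue v f) := by
  have hmem : ∀ y : E, θ y ∈ w.toValuationSubring ↔ y ∈ v.toValuationSubring := fun y => by
    rw [hw, ValuationSubring.mem_comap]
    show θ.symm (θ y) ∈ _ ↔ _
    rw [RingEquiv.symm_apply_apply]
  -- the value `c` is characterised by `f - c` vanishing, a condition transported by `θ`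
  have hzero : placeValue v (f - algebraMap k E (placeValue v f)) = 0 := by
    rw [placeValue_sub v hf (v.algebraMap_mem' _), placeValue_algebraMap, sub_self]
  have hd := sub_mem hf (v.algebraMap_mem' (placeValue v f))
  set d := f - algebraMap k E (placeValue v f) with hddef
  have hzero' : placeValue w (θ d) = 0 := by
    by_contra hne
    obtain ⟨hd0, hord⟩ := (placeValue_ne_zero_iff w ((hmem d).2 hd)).1 hne
    have hd0' : d ≠ 0 := fun h => hd0 (by rw [h, map_zero])
    have hinv : (θ d)⁻¹ ∈ w.toValuationSubring :=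
      mem_of_ord_nonneg w (by rw [w.ord_inv, hord]; simp)
    rw [← map_inv₀, hmem] at hinv
    have h1 := placeValue_mul v hd hinv
    rw [mul_inv_cancel₀ hd0', placeValue_one, hzero, zero_mul] at h1
    exact one_ne_zero h1
  rw [hddef, map_sub, hθ, placeValue_sub w ((hmem f).2 hf) (w.algebraMap_mem' _),
    placeValue_algebraMap, sub_eq_zero] at hzero'
  exact hzero'

section Smul

variable (g : SemilinearAut K F) (σk : k ≃+* k) (τ : ι ≃ ι) (θ : ∀ i, Fb i ≃+* Fb (τ i))
  (hθ : ∀ i (a : k), θ i (algebraMap k (Fb i) a) = algebraMap k (Fb (τ i)) (σk a))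
  (hV : ∀ i (f : F), g • f ∈ R.V (τ i) ↔ f ∈ R.V i)
  (hφ : ∀ i (f : R.V i), R.φ (τ i) ⟨g • (f : F), (hV i f).2 f.2⟩ = θ i (R.φ i f))
  (hX : g • R.poleX = R.poleX)
  (P : ∀ i, Place k (Fb i) → Place k (Fb (τ i)))
  (hP : ∀ i v, (P i v).toValuationSubring =
    v.toValuationSubring.comap (θ i).symm.toRingHom)
  (e : ↥G.B ≃ ↥G.B)
  (he : ∀ b : ↥G.B, (e b : Σ i, Place k (Fb i)) =
    ⟨τ (b : Σ i, Place k (Fb i)).1, P _ (b : Σ i, Place k (Fb i)).2⟩)

include hθ hV hφ hX hP he in
/-- The image of a representative of a good class, with the transported values. -/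
theorem exists_smul_rep {n : ℕ} (hn : n ≠ 0) {D : Divisor.degZero (K := K) (F := F)} {f : F}
    {N : ℕ} {z : F} (hf : NormalForm R n (D : Divisor K F) f)
    (hz : Moves G (D : Divisor K F) N z) :
    NormalForm R n (SemilinearAut.degZeroSMulHom g D : Divisor K F) (g • f) ∧
      ∃ hz' : Moves G (SemilinearAut.degZeroSMulHom g D : Divisor K F) N (g • z),
        ∀ b : ↥G.B, hz'.values (e b) = Units.map (σk : k →* k) (hz.values b) := by
  haveI := R.isAlgClosed_residue
  have hgf : g • f ≠ 0 := by simp [hf.ne_zero]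
  have hgz : g • z ≠ 0 := by simp [hz.ne_zero]
  have hf' : NormalForm R n (SemilinearAut.degZeroSMulHom g D : Divisor K F) (g • f) := by
    refine ⟨(SemilinearAut.degZeroSMulHom g D).2, hgf, fun v => ?_, fun i => ?_, fun i => ?_⟩
    · rw [SemilinearAut.coe_degZeroSMulHom, SemilinearAut.divisor_smul_apply, hf.ord_eq]
      have h := SemilinearAut.ord_smul g (g⁻¹ • v) f
      rw [smul_inv_smul] at h
      exact h.symm
    · obtain ⟨j, rfl⟩ := τ.surjective i
      exact (hV j f).2 (hf.mem j)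
    · obtain ⟨j, rfl⟩ := τ.surjective i
      obtain ⟨c, hc, hce⟩ := hf.const j
      refine ⟨σk c, (map_ne_zero σk).2 hc, ?_⟩
      rw [hφ j ⟨f, hf.mem j⟩, hce, hθ]
  have hzint : g • z ∈ R.integers := R.mem_integers.2 fun i => by
    obtain ⟨j, rfl⟩ := τ.surjective i
    exact (hV j z).2 (R.mem_integers.1 hz.mem j)
  have hred : ∀ j, R.red ⟨g • z, hzint⟩ (τ j) = θ j (R.red ⟨z, hz.mem⟩ j) := fun j =>
    hφ j ⟨z, R.mem_integers.1 hz.mem j⟩
  have hval : ∀ b : ↥G.B, bval (e b : Σ i, Place k (Fb i)) (R.red ⟨g • z, hzint⟩)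
      = σk (bval (b : Σ i, Place k (Fb i)) (R.red ⟨z, hz.mem⟩)) := fun b => by
    rw [he b]
    show placeValue (P _ _) (R.red ⟨g • z, hzint⟩ (τ _)) = _
    rw [hred]
    exact placeValue_transport σk (θ _) (hθ _) _ _ (hP _ _)
      (G.mem_of_polarFibre (hf.spFibre_twist_le hn _ hz.red_mem_spFibre) b)
  refine ⟨hf', ⟨hzint, ?_, fun b hb => ?_⟩, fun b => Units.ext (hval b)⟩
  · show g • z ∈ riemannRochSpace _
    rw [mem_L_iff hgz]
    intro v
    have h := (mem_L_iff hz.ne_zero).1 hz.mem_twist (g⁻¹ • v)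
    have h2 := SemilinearAut.ord_smul g (g⁻¹ • v) z
    rw [smul_inv_smul] at h2
    have h3 : R.poleX v = R.poleX (g⁻¹ • v) := by
      conv_lhs => rw [← hX, SemilinearAut.divisor_smul_apply]
    rw [Finsupp.add_apply, Finsupp.smul_apply] at h ⊢
    rw [SemilinearAut.coe_degZeroSMulHom, SemilinearAut.divisor_smul_apply, h2, h3]
    exact h
  · obtain ⟨b', hb'⟩ := e.surjective ⟨b, hb⟩
    have := hval b'
    rw [hb'] at this
    rw [this]
    exact (map_ne_zero σk).2 (hz.value_ne_zero _ b'.2)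

include hθ hV hφ hX hP he in
theorem smul_mem_closure {n : ℕ} (hn : n ≠ 0) {c : Pic0 K F}
    (hc : c ∈ AddSubgroup.closure {c : Pic0 K F | IsGood G n c}) :
    g • c ∈ AddSubgroup.closure {c : Pic0 K F | IsGood G n c} := by
  obtain ⟨D, f, N, z, rfl, hf, hz⟩ := (mem_closure_iff G hn).1 hc
  obtain ⟨hf', hz', -⟩ := exists_smul_rep G g σk τ θ hθ hV hφ hX P hP e he hn hf hz
  exact AddSubgroup.subset_closure
    ⟨_, _, N, g • z, (SemilinearAut.pic0_smul_mk g D).symm, hf', hz'⟩

include hθ hV hφ hX hP he in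
/-- Equivariance: on gluing data `g` is the branch permutation followed by `σk`. -/
theorem gluing_smul {n : ℕ} (hn : n ≠ 0)
    (hpt : ∀ b b' : ↥G.B, G.pt b = G.pt b' → G.pt (e b) = G.pt (e b'))
    (Ψ : AddSubgroup.closure {c : Pic0 K F | IsGood G n c} →+ Additive G.Data)
    (hΨ : ∀ (D : Divisor.degZero (K := K) (F := F)) (f : F) (N : ℕ) (z : F)
      (_ : NormalForm R n (D : Divisor K F) f) (hz : Moves G (D : Divisor K F) N z)
      (hD : Pic0.mk D ∈ AddSubgroup.closure {c : Pic0 K F | IsGood G n c}),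
      Ψ ⟨Pic0.mk D, hD⟩ = G.mkData hz.values)
    {c : Pic0 K F} (hc : c ∈ AddSubgroup.closure {c : Pic0 K F | IsGood G n c}) {γ : ↥G.B → kˣ}
    (hγ : Ψ ⟨c, hc⟩ = G.mkData γ) (hgc : g • c ∈ AddSubgroup.closure {c : Pic0 K F | IsGood G n c}) :
    Ψ ⟨g • c, hgc⟩ = G.mkData (fun b => Units.map (σk : k →* k) (γ (e.symm b))) := by
  classical
  obtain ⟨D, f, N, z, rfl, hf, hz⟩ := (mem_closure_iff G hn).1 hc
  obtain ⟨hf', hz', hv⟩ := exists_smul_rep G g σk τ θ hθ hV hφ hX P hP e he hn hf hz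
  rw [hΨ D f N z hf hz hc, Gluing.mkData_eq_iff] at hγ
  obtain ⟨a, d, had⟩ := hγ
  rw [show (⟨g • Pic0.mk D, hgc⟩ : AddSubgroup.closure {c : Pic0 K F | IsGood G n c}) =
      ⟨Pic0.mk (SemilinearAut.degZeroSMulHom g D), SemilinearAut.pic0_smul_mk g D ▸ hgc⟩ from
    Subtype.ext (SemilinearAut.pic0_smul_mk g D), hΨ _ _ N _ hf' hz' _, Gluing.mkData_eq_iff]
  -- the inverse permutation respects points as well
  have hsymm : ∀ b b' : ↥G.B, G.pt b = G.pt b' → G.pt (e.symm b) = G.pt (e.symm b') := by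
    intro b b' h
    let ε : Equiv.Perm ↥G.B := e
    have hpow : ∀ m : ℕ, G.pt ((ε ^ m) b) = G.pt ((ε ^ m) b') := fun m => by
      induction m with
      | zero => simpa using h
      | succ m ih => rw [pow_succ', Equiv.Perm.mul_apply, Equiv.Perm.mul_apply]; exact hpt _ _ ih
    have hinv : ε⁻¹ = ε ^ (orderOf ε - 1) := by
      apply inv_eq_of_mul_eq_one_left
      rw [← pow_succ, Nat.sub_add_cancel (orderOf_pos ε), pow_orderOf_eq_one]
    have := hpow (orderOf ε - 1)
    rwa [← hinv] at this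
  refine ⟨fun i => Units.map (σk : k →* k) (a (τ.symm i)),
    fun p => if h : ∃ b, G.pt b = p then Units.map (σk : k →* k) (d (G.pt (e.symm h.choose)))
      else 1, fun b => ?_⟩
  have hb : ∃ b', G.pt b' = G.pt b := ⟨b, rfl⟩
  simp only [dif_pos hb, hsymm _ _ hb.choose_spec]
  obtain ⟨b₀, rfl⟩ := e.surjective b
  have hi : τ.symm (e b₀ : Σ i, Place k (Fb i)).1 = (b₀ : Σ i, Place k (Fb i)).1 := by
    rw [he b₀]; exact τ.symm_apply_apply _
  rw [hv b₀, hi, Equiv.symm_apply_apply, had b₀, map_mul, map_mul]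

end Smul

/-- Inertial automorphisms fix good classes. -/
theorem smul_eq_self (hA : RankLeOne A) (q : ℕ) [Fact q.Prime] [CharP k q]
    {g : SemilinearAut K F}
    (hφ : ∀ i (f : R.V i), ∃ h : g • (f : F) ∈ R.V i, R.φ i ⟨_, h⟩ = R.φ i f)
    (hX : g • R.poleX = R.poleX) {n : ℕ} (hn : (n : k) ≠ 0) {c : Pic0 K F}
    (hc : c ∈ AddSubgroup.closure {c : Pic0 K F | IsGood G n c}) : g • c = c := by
  have hn0 : n ≠ 0 := fun h => hn (by simp [h])
  obtain ⟨Ψ, hΨ⟩ := exists_gluingHom G hn0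
  obtain ⟨D, f, N, z, rfl, hf, hz⟩ := (mem_closure_iff G hn0).1 hc
  have hgf : g • f ≠ 0 := by simp [hf.ne_zero]
  have hgz : g • z ≠ 0 := by simp [hz.ne_zero]
  have hf' : NormalForm R n (SemilinearAut.degZeroSMulHom g D : Divisor K F) (g • f) := by
    refine ⟨(SemilinearAut.degZeroSMulHom g D).2, hgf, fun v => ?_, fun i => ?_, fun i => ?_⟩
    · rw [SemilinearAut.coe_degZeroSMulHom, SemilinearAut.divisor_smul_apply, hf.ord_eq]
      have h := SemilinearAut.ord_smul g (g⁻¹ • v) f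
      rw [smul_inv_smul] at h
      exact h.symm
    · exact (hφ i ⟨f, hf.mem i⟩).choose
    · obtain ⟨a, ha, hae⟩ := hf.const i
      exact ⟨a, ha, (hφ i ⟨f, hf.mem i⟩).choose_spec.trans hae⟩
  have hzint : g • z ∈ R.integers :=
    R.mem_integers.2 fun i => (hφ i ⟨z, R.mem_integers.1 hz.mem i⟩).choose
  have hred : R.red ⟨g • z, hzint⟩ = R.red ⟨z, hz.mem⟩ :=
    funext fun i => (hφ i ⟨z, R.mem_integers.1 hz.mem i⟩).choose_spec
  have hz' : Moves G (SemilinearAut.degZeroSMulHom g D : Divisor K F) N (g • z) := by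
    refine ⟨hzint, ?_, fun b hb => by rw [hred]; exact hz.value_ne_zero b hb⟩
    show g • z ∈ riemannRochSpace _
    rw [mem_L_iff hgz]
    intro v
    have h := (mem_L_iff hz.ne_zero).1 hz.mem_twist (g⁻¹ • v)
    have h2 := SemilinearAut.ord_smul g (g⁻¹ • v) z
    rw [smul_inv_smul] at h2
    have h3 : R.poleX v = R.poleX (g⁻¹ • v) := by
      conv_lhs => rw [← hX, SemilinearAut.divisor_smul_apply]
    rw [Finsupp.add_apply, Finsupp.smul_apply] at h ⊢
    rw [SemilinearAut.coe_degZeroSMulHom, SemilinearAut.divisor_smul_apply, h2, h3]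
    exact h
  have hmem' : g • Pic0.mk D ∈ AddSubgroup.closure {c : Pic0 K F | IsGood G n c} :=
    AddSubgroup.subset_closure ⟨_, _, N, g • z, (SemilinearAut.pic0_smul_mk g D).symm, hf', hz'⟩
  have e1 : Ψ ⟨g • Pic0.mk D, hmem'⟩ = Ψ ⟨Pic0.mk D, hc⟩ := by
    rw [show (⟨g • Pic0.mk D, hmem'⟩ : AddSubgroup.closure {c : Pic0 K F | IsGood G n c}) =
        ⟨Pic0.mk (SemilinearAut.degZeroSMulHom g D), SemilinearAut.pic0_smul_mk g D ▸ hmem'⟩ from
      Subtype.ext (SemilinearAut.pic0_smul_mk g D), hΨ _ _ N _ hf' hz' _, hΨ D f N z hf hz hc]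
    exact congrArg _ (funext fun b => Units.ext (congrArg (bval _) hred))
  -- injectivity
  rw [← sub_eq_zero]
  obtain ⟨D₀, f₀, N₀, z₀, hD₀, hf₀, hz₀⟩ := (mem_closure_iff G hn0).1 (sub_mem hmem' hc)
  have hmem₀ : Pic0.mk D₀ ∈ AddSubgroup.closure {c : Pic0 K F | IsGood G n c} :=
    hD₀.symm ▸ sub_mem hmem' hc
  have h0 : G.mkData hz₀.values = 0 := by
    rw [← hΨ D₀ f₀ N₀ z₀ hf₀ hz₀ hmem₀,
      show (⟨Pic0.mk D₀, hmem₀⟩ : AddSubgroup.closure {c : Pic0 K F | IsGood G n c}) =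
        ⟨g • Pic0.mk D, hmem'⟩ - ⟨Pic0.mk D, hc⟩ from Subtype.ext hD₀, map_sub, e1]
    exact sub_self (Ψ ⟨Pic0.mk D, hc⟩)
  rw [← hD₀, Pic0.mk, QuotientAddGroup.eq_zero_iff, AddSubgroup.mem_addSubgroupOf]
  exact BGlue.mem_principal_of_mkData_eq_zero hA q hn hf₀ hz₀ h0

end Fermat.Agent.Bad.BEquiv

end
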