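/-
Counting gluing conditions: values at the branches of the special fibres of the spaces `polarSp N`.
-/
import Fermat.Agent.Bad.GluingHensel

set_option autoImplicit false

noncomputable section

namespace Fermat.Agent.Bad

open AlgebraicCurve IntermediateField Fermat.Agent.Curve Fermat.Agent.Curve.RedAux MultiReduction

universe uK uF uι uk uFb

variable {K : Type uK} [Field K] {A : ValuationSubring K}
  {F : Type uF} [Field F] [Algebra K F] {ι : Type uι} [Fintype ι]
  {k : Type uk} [Field k] {Fb : ι → Type uFb} [∀ i, Field (Fb i)] [∀ i, Algebra k (Fb i)]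
  [IsAlgClosed K] [IsFunctionFieldOne K F] [∀ i, IsFunctionFieldOne k (Fb i)]
  {R : MultiReduction A F k Fb}

/-- values at the branches -/
def branchEval [IsAlgClosed k] (R : MultiReduction A F k Fb) (B : Finset (Σ i, Place k (Fb i)))
    (hreg : ∀ b ∈ B, 0 ≤ b.2.ord (R.xb b.1)) (N : ℕ) : R.polarFibre N →ₗ[k] (↥B → k) where
  toFun h b := bval (b : Σ i, Place k (Fb i)) (h : ∀ i, Fb i)
  map_add' h h' := funext fun b =>
    bval_add (R.mem_of_mem_polarFibre h.2 (hreg b b.2)) (R.mem_of_mem_polarFibre h'.2 (hreg b b.2))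
  map_smul' c h := funext fun b => bval_smul c (R.mem_of_mem_polarFibre h.2 (hreg b b.2))

theorem branchEval_apply [IsAlgClosed k] (B : Finset (Σ i, Place k (Fb i)))
    (hreg : ∀ b ∈ B, 0 ≤ b.2.ord (R.xb b.1)) (N : ℕ) (h : R.polarFibre N) (b : ↥B) :
    branchEval R B hreg N h b = bval (b : Σ i, Place k (Fb i)) (h : ∀ i, Fb i) := rfl

/-- interpolation at the branches on the normalisation -/
theorem exists_branchEval_surjective [IsAlgClosed k] (B : Finset (Σ i, Place k (Fb i)))
    (hreg : ∀ b ∈ B, 0 ≤ b.2.ord (R.xb b.1)) :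
    ∃ N₀ : ℕ, ∀ N, N₀ ≤ N → Function.Surjective (branchEval R B hreg N) := by
  classical
  choose c hc using fun i => exists_exact_pole (k := k) (E := Fb i)
  refine ⟨(∑ i, (c i).toNat) + B.card, fun N hN => ?_⟩
  suffices key : ∀ b : ↥B, ∃ h : R.polarFibre N, ∀ b' : ↥B,
      branchEval R B hreg N h b' ≠ 0 ↔ b' = b by
    choose h hh using key
    intro v
    refine ⟨∑ b, (v b * (branchEval R B hreg N (h b) b)⁻¹) • h b, ?_⟩
    funext b'
    rw [map_sum, Finset.sum_apply, Finset.sum_eq_single b']
    · rw [map_smul, Pi.smul_apply, smul_eq_mul, mul_assoc,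
        inv_mul_cancel₀ ((hh b' b').2 rfl), mul_one]
    · intro b _ hb
      have h0 : branchEval R B hreg N (h b) b' = 0 :=
        not_not.1 fun h0 => hb ((hh b b').1 h0).symm
      rw [map_smul, Pi.smul_apply, h0, smul_zero]
    · simp
  rintro ⟨⟨i, v⟩, hb⟩
  set S : Finset (Place k (Fb i)) :=
    ((B.preimage (Sigma.mk i) sigma_mk_injective.injOn).erase v) with hS
  set D : Divisor k (Fb i) := N • poleDivisor k (R.xb i) - ∑ w ∈ S, Finsupp.single w 1 with hD
  have hP : ∀ w : Place k (Fb i), ⟨i, w⟩ ∈ B → (poleDivisor k (R.xb i)) w = 0 := by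
    intro w hw
    have := hreg _ hw
    simp only [poleDivisor_apply] at this ⊢
    omega
  have hDv : ∀ w, D w = (N : ℤ) * poleDivisor k (R.xb i) w - if w ∈ S then 1 else 0 := by
    intro w
    rw [hD, Finsupp.sub_apply, Finsupp.smul_apply, nsmul_eq_mul, Finsupp.finsetSum_apply]
    simp [Finsupp.single_apply, Finset.sum_ite_eq']
  have hdeg : c i ≤ Divisor.degree D := by
    have h2 : (c i).toNat ≤ ∑ j, (c j).toNat :=
      Finset.single_le_sum (f := fun j => (c j).toNat) (fun _ _ => Nat.zero_le _) (Finset.mem_univ i)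
    have h3 : S.card ≤ B.card := by
      rw [← Finset.card_image_of_injective S
        (f := Sigma.mk (β := fun j => Place k (Fb j)) i) sigma_mk_injective]
      refine Finset.card_le_card (Finset.image_subset_iff.2 fun w hw => ?_)
      exact Finset.mem_preimage.1 (Finset.mem_of_mem_erase hw)
    have h4 : (N : ℤ) ≤ (N : ℤ) * (Module.finrank k⟮R.xb i⟯ (Fb i) : ℤ) :=
      le_mul_of_one_le_right (Int.natCast_nonneg N)
        (by exact_mod_cast (R.degree_pos i : 0 < Module.finrank k⟮R.xb i⟯ (Fb i)))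
    rw [hD, map_sub, map_nsmul, degree_poleDivisor (t := R.xb i) (R.x_transcendental i), map_sum,
      nsmul_eq_mul]
    simp only [Divisor.degree_single, deg_one, Finset.sum_const, nsmul_eq_mul]
    push_cast
    omega
  obtain ⟨f, hf, hf0, hfv⟩ := hc i D v hdeg
  have hmem : Pi.single i f ∈ R.polarFibre N := by
    rw [R.mem_polarFibre]
    intro j
    rcases eq_or_ne j i with rfl | hj
    · rw [Pi.single_eq_same]
      refine L_mono (Finsupp.le_def.2 fun w => ?_) hf
      rw [hDv, Finsupp.smul_apply, nsmul_eq_mul]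
      split_ifs <;> omega
    · rw [Pi.single_eq_of_ne hj]; exact zero_mem _
  refine ⟨⟨_, hmem⟩, fun ⟨⟨j, w⟩, hw⟩ => ?_⟩
  rw [branchEval_apply]
  constructor
  · intro h
    by_contra hne
    refine h ?_
    show placeValue w (Pi.single i f j) = 0
    rcases eq_or_ne j i with rfl | hj
    · rw [Pi.single_eq_same]
      have hwv : w ≠ v := fun e => hne (by simp [e])
      have hwS : w ∈ S := Finset.mem_erase.2 ⟨hwv, Finset.mem_preimage.2 hw⟩
      have h1 := (mem_L_iff hf0).1 hf w
      rw [hDv, if_pos hwS, hP w hw] at h1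
      refine (placeValue_eq_zero_iff w (mem_of_zero_or_le w (Or.inr (by omega)))).2 (Or.inr ?_)
      omega
    · rw [Pi.single_eq_of_ne hj]; exact placeValue_zero w
  · intro e
    cases e
    show placeValue v (Pi.single i f i) ≠ 0
    rw [Pi.single_eq_same]
    rw [hDv, hP v hb, if_neg (Finset.notMem_erase v _)] at hfv
    refine (placeValue_ne_zero_iff v (mem_of_zero_or_le v (Or.inr (by omega)))).2 ⟨hf0, ?_⟩
    omega

theorem finrank_comap_add_finrank {L V W' : Type*} [Field L] [AddCommGroup V] [Module L V]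
    [AddCommGroup W'] [Module L W'] [FiniteDimensional L V] (f : V →ₗ[L] W')
    (hf : Function.Surjective f) (W : Submodule L W') :
    Module.finrank L (W.comap f) + Module.finrank L W'
      = Module.finrank L V + Module.finrank L W := by
  have hW : ∀ h : W.comap f, (f.comp (W.comap f).subtype) h ∈ W := fun h => h.2
  have hg : Function.Surjective ((f.comp (W.comap f).subtype).codRestrict W hW) :=
    fun w => by
      obtain ⟨h, hh⟩ := hf (w : W')
      exact ⟨⟨h, by rw [Submodule.mem_comap, hh]; exact w.2⟩, Subtype.ext hh⟩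
  have h1 := ((f.comp (W.comap f).subtype).codRestrict W hW).finrank_range_add_finrank_ker
  have h2 := f.finrank_range_add_finrank_ker
  rw [LinearMap.range_eq_top.2 hg, finrank_top, LinearMap.ker_codRestrict, LinearMap.ker_comp,
    (Submodule.comapSubtypeEquivOfLe fun y hy => by
      rw [Submodule.mem_comap, LinearMap.mem_ker.1 hy]; exact zero_mem _).finrank_eq] at h1
  rw [LinearMap.range_eq_top.2 hf, finrank_top] at h2
  omega

/-- dimension of the space of tuples with values in a given subspace -/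
theorem finrank_comap_branchEval [IsAlgClosed k] (B : Finset (Σ i, Place k (Fb i)))
    (hreg : ∀ b ∈ B, 0 ≤ b.2.ord (R.xb b.1)) (W : Submodule k (↥B → k)) :
    ∃ N₀ : ℕ, ∀ N, N₀ ≤ N → FiniteDimensional k (R.polarFibre N) ∧
      (Module.finrank k (W.comap (branchEval R B hreg N)) : ℤ)
        = (Module.finrank k (R.polarFibre N) : ℤ) - B.card + Module.finrank k W := by
  obtain ⟨N₀, hsurj⟩ := exists_branchEval_surjective (R := R) B hreg
  obtain ⟨N₁, hfin⟩ := R.exists_finrank_polarFibre
  refine ⟨max N₀ N₁, fun N hN => ⟨(hfin N (le_trans (le_max_right _ _) hN)).1, ?_⟩⟩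
  have := (hfin N (le_trans (le_max_right _ _) hN)).1
  have h := finrank_comap_add_finrank (branchEval R B hreg N)
    (hsurj N (le_trans (le_max_left _ _) hN)) W
  rw [Module.finrank_fintype_fun_eq_card, Fintype.card_coe] at h
  omega

/-- functions on the branches coming from functions on the points -/
def pointFunctions {B : Finset (Σ i, Place k (Fb i))} {Pt : Type*} (pt : ↥B → Pt) :
    Submodule k (↥B → k) :=
  LinearMap.range (LinearMap.funLeft k k pt)

omit [Fintype ι] [∀ i, IsFunctionFieldOne k (Fb i)] in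
theorem finrank_pointFunctions {B : Finset (Σ i, Place k (Fb i))} {Pt : Type*} (pt : ↥B → Pt)
    (hpt : Function.Surjective pt) :
    Module.finrank k (pointFunctions (k := k) pt) = Nat.card Pt := by
  classical
  have : Finite Pt := Finite.of_surjective pt hpt
  have := Fintype.ofFinite Pt
  rw [pointFunctions,
    LinearMap.finrank_range_of_inj (LinearMap.funLeft_injective_of_surjective k k pt hpt),
    Module.finrank_fintype_fun_eq_card, Nat.card_eq_fintype_card]

omit [Fintype ι] [∀ i, IsFunctionFieldOne k (Fb i)] in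
theorem mem_pointFunctions {B : Finset (Σ i, Place k (Fb i))} {Pt : Type*} {pt : ↥B → Pt}
    (hpt : Function.Surjective pt) {v : ↥B → k} (hv : ∀ b b', pt b = pt b' → v b = v b') :
    v ∈ pointFunctions (k := k) pt :=
  ⟨fun p => v (hpt p).choose, funext fun b => hv _ _ (hpt (pt b)).choose_spec⟩

/-- For `B` with matching values at the points of `Pt`, and as many conditions as the drop of
the Euler characteristic, the special fibre is the seminormal curve glued along `pt`. -/
theorem exists_seminormal_bound_of_count (R : MultiReduction A F k Fb)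
    (B : Finset (Σ i, Place k (Fb i))) {Pt : Type*} (pt : ↥B → Pt)
    (hpt : Function.Surjective pt) (hreg : ∀ b ∈ B, 0 ≤ b.2.ord (R.xb b.1))
    (hmatch : ∀ (N : ℕ), ∀ h ∈ R.spFibre (R.polarSp N), ∀ b b' : ↥B, pt b = pt b' →
      bval (b : Σ i, Place k (Fb i)) h = bval (b' : Σ i, Place k (Fb i)) h)
    (hcount : (B.card : ℤ) - Nat.card Pt
      = (∑ i, (1 - (genusFF k (Fb i) : ℤ))) - (1 - (genusFF K F : ℤ))) :
    ∃ N₀ : ℕ, (∀ N, N₀ ≤ N → ∀ h ∈ R.polarFibre N,
        (∀ b b' : ↥B, pt b = pt b' →
          bval (b : Σ i, Place k (Fb i)) h = bval (b' : Σ i, Place k (Fb i)) h) →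
        h ∈ R.spFibre (R.polarSp N)) ∧
      ∀ d : Pt → k, ∃ N, ∃ h ∈ R.spFibre (R.polarSp N),
        ∀ b : ↥B, bval (b : Σ i, Place k (Fb i)) h = d (pt b) := by
  classical
  have := R.isAlgClosed_residue
  obtain ⟨N₁, h₁⟩ := finrank_comap_branchEval (R := R) B hreg (pointFunctions pt)
  obtain ⟨N₂, h₂⟩ := R.exists_finrank_spFibre_twist
  obtain ⟨N₃, h₃⟩ := R.exists_finrank_polarFibre
  obtain ⟨N₄, h₄⟩ := exists_branchEval_surjective (R := R) B hreg
  set N₀ := N₁ + N₂ + N₃ + N₄ with hN₀
  have key : ∀ N, N₀ ≤ N → ∀ h : R.polarFibre N,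
      branchEval R B hreg N h ∈ pointFunctions pt →
      (h : ∀ i, Fb i) ∈ R.spFibre (R.polarSp N) := by
    intro N hN h hh
    obtain ⟨hfd, hrank⟩ := h₁ N (by omega)
    have h2 := h₂ 0 (map_zero _) N (by omega)
    rw [R.twistSp_zero] at h2
    have h3 := (h₃ N (by omega)).2
    rw [finrank_pointFunctions pt hpt] at hrank
    set Sc := (R.spFibre (R.polarSp N)).comap (R.polarFibre N).subtype
    have hle : Sc ≤ (pointFunctions pt).comap (branchEval R B hreg N) := fun y hy =>
      mem_pointFunctions hpt fun b b' hbb' => hmatch N _ hy b b' hbb'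
    have hSc : Module.finrank k Sc = Module.finrank k (R.spFibre (R.polarSp N)) :=
      (Submodule.comapSubtypeEquivOfLe (R.spFibre_polar_le N)).finrank_eq
    have heq : Sc = (pointFunctions pt).comap (branchEval R B hreg N) :=
      Submodule.eq_of_le_of_finrank_eq hle (by omega)
    have : h ∈ Sc := by rw [heq]; exact hh
    exact this
  refine ⟨N₀, fun N hN h hh hhv =>
    key N hN ⟨h, hh⟩ (mem_pointFunctions hpt fun b b' hbb' => hhv b b' hbb'), fun d => ?_⟩
  obtain ⟨h, hh⟩ := h₄ N₀ (by omega) (fun b => d (pt b))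
  exact ⟨N₀, h, key N₀ le_rfl h (hh ▸ ⟨d, rfl⟩), fun b => congrFun hh b⟩

/-- If every tuple vanishing on `B` is in the special fibre, the number of gluing conditions is
the drop of the Euler characteristic. -/
theorem card_sub_eq_of_vanishing (R : MultiReduction A F k Fb)
    (B : Finset (Σ i, Place k (Fb i))) {Pt : Type*} (pt : ↥B → Pt)
    (hpt : Function.Surjective pt) (hreg : ∀ b ∈ B, 0 ≤ b.2.ord (R.xb b.1))
    (hiff : ∀ b b' : ↥B, pt b = pt b' ↔ ∀ (N : ℕ), ∀ h ∈ R.spFibre (R.polarSp N),
      bval (b : Σ i, Place k (Fb i)) h = bval (b' : Σ i, Place k (Fb i)) h)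
    (hZ : ∃ N₁, ∀ N, N₁ ≤ N → ∀ h ∈ R.polarFibre N,
      (∀ b ∈ B, VanishesAt b 1 h) → h ∈ R.spFibre (R.polarSp N)) :
    (B.card : ℤ) - Nat.card Pt
      = (∑ i, (1 - (genusFF k (Fb i) : ℤ))) - (1 - (genusFF K F : ℤ)) := by
  classical
  have := R.isAlgClosed_residue
  have hmem : ∀ {M : ℕ} {h : ∀ i, Fb i}, h ∈ R.spFibre (R.polarSp M) → ∀ b : ↥B,
      h (b : Σ i, Place k (Fb i)).1 ∈ (b : Σ i, Place k (Fb i)).2.toValuationSubring :=
    fun hh b => R.mem_of_mem_polarFibre (R.spFibre_polar_le _ hh) (hreg b b.2)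
  -- indicators of the points
  have hsep : ∀ b b' : ↥B, pt b ≠ pt b' → ∃ M, ∃ h ∈ R.spFibre (R.polarSp M),
      bval (b : Σ i, Place k (Fb i)) h = 1 ∧ bval (b' : Σ i, Place k (Fb i)) h = 0 := by
    intro b b' hbb'
    rw [Ne, hiff] at hbb'
    push Not at hbb'
    obtain ⟨M, h, hh, hne⟩ := hbb'
    set u := bval (b : Σ i, Place k (Fb i)) h
    set u' := bval (b' : Σ i, Place k (Fb i)) h
    have h1 := R.one_mem_spFibre_polar M
    refine ⟨M, (u - u')⁻¹ • (h - u' • 1),
      Submodule.smul_mem _ _ (Submodule.sub_mem _ hh (Submodule.smul_mem _ _ h1)), ?_, ?_⟩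
    · rw [bval_smul _ (hmem (Submodule.sub_mem _ hh (Submodule.smul_mem _ _ h1)) b),
        bval_sub (hmem hh b) (hmem (Submodule.smul_mem _ u' h1) b), bval_smul _ (one_mem _),
        bval_one, mul_one]
      exact inv_mul_cancel₀ (sub_ne_zero.2 hne)
    · rw [bval_smul _ (hmem (Submodule.sub_mem _ hh (Submodule.smul_mem _ _ h1)) b'),
        bval_sub (hmem hh b') (hmem (Submodule.smul_mem _ u' h1) b'), bval_smul _ (one_mem _),
        bval_one, mul_one, sub_self, mul_zero]
  have hind : ∀ b : ↥B, ∀ T : Finset ↥B, ∃ M, ∃ h ∈ R.spFibre (R.polarSp M),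
      bval (b : Σ i, Place k (Fb i)) h = 1 ∧
        ∀ b' ∈ T, pt b ≠ pt b' → bval (b' : Σ i, Place k (Fb i)) h = 0 := by
    intro b T
    induction T using Finset.induction_on with
    | empty => exact ⟨0, 1, R.one_mem_spFibre_polar 0, bval_one, by simp⟩
    | insert c T _ ih =>
      obtain ⟨M, h, hh, h1, h0⟩ := ih
      by_cases hbc : pt b = pt c
      · refine ⟨M, h, hh, h1, fun b' hb' hne => ?_⟩
        rcases Finset.mem_insert.1 hb' with rfl | hb'
        · exact absurd hbc hne
        · exact h0 b' hb' hne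
      · obtain ⟨M', h', hh', h1', h0'⟩ := hsep b c hbc
        refine ⟨M + M', h * h', R.mul_mem_spFibre_polar hh hh', ?_, fun b' hb' hne => ?_⟩
        · rw [bval_mul (hmem hh b) (hmem hh' b), h1, h1', mul_one]
        · rw [bval_mul (hmem hh b') (hmem hh' b')]
          rcases Finset.mem_insert.1 hb' with rfl | hb'
          · rw [h0', mul_zero]
          · rw [h0 b' hb' hne, zero_mul]
  choose M e he he1 he0 using fun b : ↥B => hind b Finset.univ
  obtain ⟨N₁, hN₁⟩ := hZ
  obtain ⟨N₂, h₂⟩ := R.exists_finrank_spFibre_twist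
  obtain ⟨N₃, h₃⟩ := R.exists_finrank_polarFibre
  obtain ⟨N₄, h₄⟩ := finrank_comap_branchEval (R := R) B hreg (pointFunctions pt)
  set N := N₁ + N₂ + N₃ + N₄ + ∑ b, M b with hN
  have hMN : ∀ b, M b ≤ N := fun b => by
    have := Finset.single_le_sum (f := M) (fun _ _ => Nat.zero_le _) (Finset.mem_univ b)
    omega
  obtain ⟨hfd, hrank⟩ := h₄ N (by omega)
  have h2 := h₂ 0 (map_zero _) N (by omega)
  rw [R.twistSp_zero] at h2
  have h3 := (h₃ N (by omega)).2
  rw [finrank_pointFunctions pt hpt] at hrank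
  set Sc := (R.spFibre (R.polarSp N)).comap (R.polarFibre N).subtype
  have hSc : Module.finrank k Sc = Module.finrank k (R.spFibre (R.polarSp N)) :=
    (Submodule.comapSubtypeEquivOfLe (R.spFibre_polar_le N)).finrank_eq
  have heq : Sc = (pointFunctions pt).comap (branchEval R B hreg N) := by
    refine le_antisymm
      (fun y hy => mem_pointFunctions hpt fun b b' hbb' => (hiff b b').1 hbb' N _ hy) ?_
    rintro y ⟨g, hg⟩
    set sec : Pt → ↥B := Function.surjInv hpt
    have : Finite Pt := Finite.of_surjective pt hpt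
    have := Fintype.ofFinite Pt
    set s : ∀ i, Fb i := ∑ p, g p • e (sec p) with hs
    have hsmem : s ∈ R.spFibre (R.polarSp N) := Submodule.sum_mem _ fun p _ =>
      Submodule.smul_mem _ _ (R.spFibre_polar_mono (hMN _) (he (sec p)))
    have hsval : ∀ b : ↥B, bval (b : Σ i, Place k (Fb i)) s = g (pt b) := by
      intro b
      have hval : ∀ p, bval (b : Σ i, Place k (Fb i)) (e (sec p))
          = if p = pt b then 1 else 0 := by
        intro p
        have hp : pt (sec p) = p := Function.surjInv_eq hpt p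
        split_ifs with h
        · rw [← he1 (sec p)]
          exact ((hiff (sec p) b).1 (by rw [hp, h]) _ _ (he (sec p))).symm
        · exact he0 (sec p) b (Finset.mem_univ b) (by rw [hp]; exact h)
      have hlin : ∀ T : Finset Pt, bval (b : Σ i, Place k (Fb i)) (∑ p ∈ T, g p • e (sec p))
          = ∑ p ∈ T, g p * bval (b : Σ i, Place k (Fb i)) (e (sec p)) := by
        intro T
        induction T using Finset.induction_on with
        | empty => rw [Finset.sum_empty, Finset.sum_empty, bval_zero]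
        | insert p T hp ih =>
          rw [Finset.sum_insert hp, Finset.sum_insert hp, bval_add, bval_smul _ (hmem (he _) b), ih]
          · exact hmem (Submodule.smul_mem _ _ (he (sec p))) b
          · exact hmem (M := N) (Submodule.sum_mem _ fun p _ => Submodule.smul_mem _ _
              (R.spFibre_polar_mono (hMN _) (he (sec p)))) b
      rw [hs, hlin]
      simp only [hval, mul_ite, mul_one, mul_zero, Finset.sum_ite_eq', Finset.mem_univ, if_true]
    have hdiff : (y : ∀ i, Fb i) - s ∈ R.spFibre (R.polarSp N) := by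
      refine hN₁ N (by omega) _ (Submodule.sub_mem _ y.2 (R.spFibre_polar_le N hsmem))
        fun b hb => ?_
      have hyb := R.mem_of_mem_polarFibre y.2 (hreg b hb)
      have hsb := hmem hsmem ⟨b, hb⟩
      refine (vanishesAt_one_iff (sub_mem hyb hsb)).2 ?_
      rw [bval_sub hyb hsb, hsval ⟨b, hb⟩, sub_eq_zero]
      exact (congrFun hg ⟨b, hb⟩).symm
    show (y : ∀ i, Fb i) ∈ R.spFibre (R.polarSp N)
    simpa using Submodule.add_mem _ hdiff hsmem
  rw [heq] at hSc
  omega

end Fermat.Agent.Bad

end
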