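/-
On a seminormal special fibre every normal form moves away from the branches: the values of the
twist at the branches have dimension at least the number of points and are determined by one
branch at each point.
-/
import Fermat.Agent.Bad.GluingCount
import Fermat.Agent.Bad.GluingNormal

set_option autoImplicit false

noncomputable section

namespace Fermat.Agent.Bad.BMoves

open AlgebraicCurve IntermediateField Fermat.Agent.Curve Fermat.Agent.Curve.RedAux
open MultiReduction

universe uK uF uι uk uFb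

variable {K : Type uK} [Field K] {A : ValuationSubring K}
  {F : Type uF} [Field F] [Algebra K F] {ι : Type uι} [Fintype ι]
  {k : Type uk} [Field k] {Fb : ι → Type uFb} [∀ i, Field (Fb i)] [∀ i, Algebra k (Fb i)]
  [IsAlgClosed K] [IsFunctionFieldOne K F] [∀ i, IsFunctionFieldOne k (Fb i)]
  {R : MultiReduction A F k Fb}

theorem exists_moves_of_count (G : Gluing R) (hpt : Function.Surjective G.pt)
    (hcount : (G.B.card : ℤ) - Nat.card G.Pt
      = (∑ i, (1 - (genusFF k (Fb i) : ℤ))) - (1 - (genusFF K F : ℤ)))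
    {n : ℕ} (hn : n ≠ 0) {D : Divisor K F} {f : F} (hf : NormalForm R n D f) :
    ∃ N z, Moves G D N z := by
  classical
  haveI := R.isAlgClosed_residue
  haveI : Finite G.Pt := Finite.of_surjective G.pt hpt
  haveI := Fintype.ofFinite G.Pt
  obtain ⟨N₁, h₁⟩ := finrank_comap_branchEval (R := R) G.B G.regular ⊥
  obtain ⟨N₂, h₂⟩ := R.exists_finrank_spFibre_twist
  obtain ⟨N₃, h₃⟩ := R.exists_finrank_polarFibre
  obtain ⟨N, hN1, hN2, hN3⟩ : ∃ N, N₁ ≤ N ∧ N₂ ≤ N ∧ N₃ ≤ N :=
    ⟨N₁ + N₂ + N₃, by omega, by omega, by omega⟩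
  obtain ⟨hfd, hker⟩ := h₁ N hN1
  have hd := h₂ D hf.degree_zero N hN2
  have hp := (h₃ N hN3).2
  have hle := hf.spFibre_twist_le hn N
  -- a section vanishing at one branch of a point vanishes at all of them
  have hprop : ∀ y ∈ R.spFibre (R.twistSp D N), ∀ b b' : ↥G.B, G.pt b = G.pt b' →
      bval (b : Σ i, Place k (Fb i)) y = 0 → bval (b' : Σ i, Place k (Fb i)) y = 0 := by
    intro y hy b b' hb h0
    have h := G.matched _ _ (hf.mul_pow_mem_spFibre hn hy hy) b b' hb
    rw [← pow_succ', Nat.sub_add_cancel (Nat.one_le_iff_ne_zero.2 hn)] at h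
    have hv : ∀ c : ↥G.B, bval (c : Σ i, Place k (Fb i)) (hf.cvec * y ^ n) =
        hf.cst (c : Σ i, Place k (Fb i)).1 * bval (c : Σ i, Place k (Fb i)) y ^ n := fun c => by
      rw [← bval_pow (G.mem_of_polarFibre (hle hy) c)]
      exact bval_mul_algebraMap hf.cst (pow_mem (G.mem_of_polarFibre (hle hy) c) n)
    rw [hv b, hv b', h0, zero_pow hn, mul_zero] at h
    exact pow_eq_zero_iff hn |>.1 ((mul_eq_zero.1 h.symm).resolve_left (hf.cst_ne_zero _))
  set Sc := (R.spFibre (R.twistSp D N)).comap (R.polarFibre N).subtype with hScdef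
  haveI : FiniteDimensional k (R.polarFibre N) := hfd
  have hSc : Module.finrank k Sc = Module.finrank k (R.spFibre (R.twistSp D N)) :=
    (Submodule.comapSubtypeEquivOfLe hle).finrank_eq
  set sec : G.Pt → ↥G.B := Function.surjInv hpt
  set L : Sc →ₗ[k] (G.Pt → k) :=
    (LinearMap.funLeft k k sec).comp ((branchEval R G.B G.regular N).comp Sc.subtype) with hL
  have hkerle : Module.finrank k (LinearMap.ker L) ≤
      Module.finrank k ((⊥ : Submodule k (↥G.B → k)).comap (branchEval R G.B G.regular N)) := by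
    refine LinearMap.finrank_le_finrank_of_injective (f :=
      (Sc.subtype.comp (LinearMap.ker L).subtype).codRestrict _ fun y => ?_) ?_
    · rw [Submodule.mem_comap, Submodule.mem_bot]
      funext b
      have h0 := congrFun (LinearMap.mem_ker.1 y.2) (G.pt b)
      exact hprop _ y.1.2 (sec (G.pt b)) b (Function.surjInv_eq hpt _) h0
    · intro y y' h
      exact Subtype.ext (Subtype.ext (congrArg Subtype.val h :))
  have hrk := LinearMap.finrank_range_add_finrank_ker (K := k) (V := ↥Sc) (V₂ := G.Pt → k) L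
  have hsurj : Function.Surjective L := by
    rw [← LinearMap.range_eq_top]
    refine Submodule.eq_top_of_finrank_eq ?_
    have h1 := Submodule.finrank_le (LinearMap.range L)
    rw [Module.finrank_fintype_fun_eq_card] at h1 ⊢
    rw [Nat.card_eq_fintype_card] at hcount
    rw [finrank_bot] at hker
    omega
  obtain ⟨y, hy⟩ := hsurj 1
  obtain ⟨z, hz, hzy⟩ := y.2
  refine ⟨N, z, z.2, hz, fun b hb => ?_⟩
  have h1 : bval (sec (G.pt ⟨b, hb⟩) : Σ i, Place k (Fb i)) ((y : R.polarFibre N) : ∀ i, Fb i) = 1 :=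
    congrFun hy (G.pt ⟨b, hb⟩)
  show bval b (R.red z) ≠ 0
  rw [hzy]
  intro h0
  exact one_ne_zero (h1.symm.trans (hprop _ y.2 ⟨b, hb⟩ (sec (G.pt ⟨b, hb⟩))
    (Function.surjInv_eq hpt _).symm h0))

end Fermat.Agent.Bad.BMoves

end
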