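/-
Approximation for finitely many distinct valuation subrings with function-field residue fields
over the same algebraically closed constants: reductions can be prescribed simultaneously.
-/
import Fermat.Agent.Curve.ReductionLattice
import Mathlib.RingTheory.Ideal.Quotient.Operations
import Mathlib.RingTheory.Ideal.Operations

set_option autoImplicit false

namespace Fermat.Agent.Bad

universe uK uF uι uk uFb

variable {K : Type uK} [Field K] [IsAlgClosed K] {A : ValuationSubring K}
  {F : Type uF} [Field F] [Algebra K F] {ι : Type uι} [Fintype ι]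
  {k : Type uk} [Field k] {Fb : ι → Type uFb} [∀ i, Field (Fb i)]

theorem infinite_residue (π : A →+* k) (hπ : Function.Surjective π) : Infinite k := by
  have hker : (RingHom.ker π).IsMaximal := RingHom.ker_isMaximal_of_surjective π hπ
  have hclosed : ∀ p : Polynomial k, p.Monic → Irreducible p → ∃ x, p.eval x = 0 := by
    intro p hp hirr
    obtain ⟨P, hP, hdeg, hPm⟩ := Polynomial.lifts_and_degree_eq_and_monic
      (Polynomial.map_surjective π hπ p) hp
    obtain ⟨z, hz⟩ := IsAlgClosed.exists_root (P.map A.subtype) (by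
      rw [hPm.degree_map, hdeg]; exact hirr.degree_pos.ne')
    have hzint : IsIntegral A z := ⟨P, hPm, by
      rw [Polynomial.IsRoot, Polynomial.eval_map] at hz; exact hz⟩
    obtain ⟨w, hw⟩ := IsIntegrallyClosed.algebraMap_eq_of_integral hzint
    refine ⟨π w, ?_⟩
    have h0 : P.eval w = 0 := by
      apply A.subtype_injective
      rw [map_zero, ← Polynomial.eval₂_hom, ← Polynomial.eval_map,
        show A.subtype w = z from hw]
      exact hz
    rw [← hP, Polynomial.eval_map, Polynomial.eval₂_hom, h0, map_zero]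
  have : IsAlgClosed k := IsAlgClosed.of_exists_root k hclosed
  exact IsAlgClosed.instInfinite

/-- Reductions can be prescribed on all components at once when the valuations are distinct. -/
theorem exists_lift_of_distinct (π : A →+* k) (hπ : Function.Surjective π)
    (V : ι → ValuationSubring F) (hV : ∀ (i : ι) (a : K), algebraMap K F a ∈ V i ↔ a ∈ A)
    (φ : ∀ i, V i →+* Fb i) (hφ : ∀ i, Function.Surjective (φ i))
    (hscale : ∀ (i : ι) (f : F), f ≠ 0 → ∃ c : K, ∃ h : c • f ∈ V i, φ i ⟨c • f, h⟩ ≠ 0)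
    (hne : Pairwise fun i j => V i ≠ V j) (h : ∀ i, Fb i) :
    ∃ f : F, ∃ hf : ∀ i, f ∈ V i, ∀ i, φ i ⟨f, hf i⟩ = h i := by
  classical
  have := infinite_residue π hπ
  have hunit : ∀ (i : ι) (z : V i), φ i z ≠ 0 ↔ IsUnit z := by
    intro i z
    rw [ne_eq, ← RingHom.mem_ker,
      IsLocalRing.eq_maximalIdeal (RingHom.ker_isMaximal_of_surjective (φ i) (hφ i)),
      IsLocalRing.notMem_maximalIdeal]
  have hinv : ∀ (i : ι) (z : V i), φ i z ≠ 0 → (z : F)⁻¹ ∈ V i := by
    intro i z hz
    obtain ⟨u, rfl⟩ := (hunit i z).1 hz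
    have h1 : ((u : V i) : F) * ((u⁻¹ : (V i)ˣ) : V i) = 1 := congrArg Subtype.val u.mul_inv
    rw [inv_eq_of_mul_eq_one_right h1]
    exact Subtype.coe_prop _
  -- an element whose reductions avoid finitely many values
  have hgeneric : ∀ (i : ι) (z : V i), ({c : k | ∃ a : A, π a = c ∧
      φ i ⟨algebraMap K F a, (hV i a).2 a.2⟩ = φ i z}).Subsingleton := by
    rintro i z c ⟨a, rfl, ha⟩ c' ⟨a', rfl, ha'⟩
    by_contra hne'
    have hu : IsUnit (a - a') := by
      by_contra hu
      refine hne' (sub_eq_zero.1 ?_)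
      rw [← map_sub, ← RingHom.mem_ker,
        IsLocalRing.eq_maximalIdeal (RingHom.ker_isMaximal_of_surjective π hπ)]
      exact hu
    have h0 : φ i ⟨algebraMap K F (a - a' : A), (hV i _).2 (a - a').2⟩ = 0 := by
      rw [← sub_self (φ i z)]
      nth_rw 1 [← ha]
      rw [← ha', ← map_sub]
      exact congrArg _ (Subtype.ext (map_sub (algebraMap K F) (a : K) a'))
    obtain ⟨u, hu⟩ := hu
    have h1 : IsUnit (⟨algebraMap K F (a - a' : A), (hV i _).2 (a - a').2⟩ : V i) := by
      refine ⟨⟨_, ⟨algebraMap K F ((u⁻¹ : Aˣ) : A), (hV i _).2 (Subtype.coe_prop _)⟩,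
        Subtype.ext ?_, Subtype.ext ?_⟩, rfl⟩
      · show algebraMap K F (a - a' : A) * algebraMap K F _ = 1
        rw [← map_mul, ← hu, ← MulMemClass.coe_mul, u.mul_inv]
        exact map_one _
      · show algebraMap K F _ * algebraMap K F (a - a' : A) = 1
        rw [← map_mul, ← hu, ← MulMemClass.coe_mul, u.inv_mul]
        exact map_one _
    exact (hunit i _).2 h1 h0
  have havoid : ∀ (S : ι → F), ∃ a : A, ∀ (i : ι) (hi : S i ∈ V i),
      φ i ⟨S i - algebraMap K F a, sub_mem hi ((hV i a).2 a.2)⟩ ≠ 0 := by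
    intro S
    have hfin : (⋃ i, {c : k | ∃ (hi : S i ∈ V i) (a : A), π a = c ∧
        φ i ⟨algebraMap K F a, (hV i a).2 a.2⟩ = φ i ⟨S i, hi⟩}).Finite := by
      refine Set.finite_iUnion fun i => ?_
      by_cases hi : S i ∈ V i
      · exact ((hgeneric i ⟨S i, hi⟩).anti fun c hc => hc.2).finite
      · convert Set.finite_empty
        ext c
        simp [hi]
    obtain ⟨c, hc⟩ := hfin.exists_notMem
    obtain ⟨a, ha⟩ := hπ c
    refine ⟨a, fun i hi h0 => hc (Set.mem_iUnion.2 ⟨i, hi, a, ha, ?_⟩)⟩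
    rw [eq_comm, ← sub_eq_zero, ← map_sub]
    exact h0
  -- fractions from the intersection
  let R : Subring F := ⨅ i, (V i).toSubring
  have hR : ∀ {f : F}, f ∈ R ↔ ∀ i, f ∈ V i := by simp [R, Subring.mem_iInf]
  let ev : ∀ i, R →+* Fb i := fun i =>
    (φ i).comp (Subring.inclusion (iInf_le (fun i => (V i).toSubring) i))
  have hev : ∀ (i : ι) (f : R), ev i f = φ i ⟨f, hR.1 f.2 i⟩ := fun i f => rfl
  have hfrac : ∀ f : F, ∃ num den : R, (den : F) ≠ 0 ∧ (num : F) = f * den ∧
      ∀ i, f ∈ V i → ev i den ≠ 0 := by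
    intro f
    rcases em (∀ i, f ∈ V i) with hf | hf
    · exact ⟨⟨f, hR.2 hf⟩, 1, one_ne_zero, (mul_one f).symm, fun i _ => by simp⟩
    obtain ⟨a, ha⟩ := havoid fun _ => f
    set d := f - algebraMap K F a with hd
    have hd0 : d ≠ 0 := by
      intro h0
      exact hf fun i => by rw [sub_eq_zero.1 h0]; exact (hV i a).2 a.2
    have hdi : ∀ i, d⁻¹ ∈ V i := by
      intro i
      by_cases hi : f ∈ V i
      · exact hinv i ⟨d, sub_mem hi ((hV i a).2 a.2)⟩ (ha i hi)
      · refine ((V i).mem_or_inv_mem d).resolve_left fun hd' => hi ?_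
        simpa [hd] using add_mem hd' ((hV i a).2 a.2)
    have hn : f * d⁻¹ ∈ R := hR.2 fun i => by
      have hfd : f * d⁻¹ = 1 + algebraMap K F a * d⁻¹ := by
        field_simp
        rw [hd]; ring
      rw [hfd]
      exact add_mem (one_mem _) (mul_mem ((hV i a).2 a.2) (hdi i))
    refine ⟨⟨_, hn⟩, ⟨_, hR.2 hdi⟩, inv_ne_zero hd0, rfl, fun i hi h0 => ha i hi ?_⟩
    have h1 : (⟨d, sub_mem hi ((hV i a).2 a.2)⟩ : V i) * ⟨d⁻¹, hdi i⟩ = 1 :=
      Subtype.ext (mul_inv_cancel₀ hd0)
    have h2 := congrArg (φ i) h1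
    rw [map_mul, map_one, show φ i ⟨d⁻¹, hdi i⟩ = 0 from h0, mul_zero] at h2
    exact absurd h2 zero_ne_one
  have hker : ∀ i, (RingHom.ker (ev i)).IsPrime := fun i => RingHom.ker_isPrime _
  -- the kernels are incomparable
  have hincomp : ∀ i j, i ≠ j → ¬ RingHom.ker (ev i) ≤ RingHom.ker (ev j) := by
    intro i j hij hle
    have hji : ∀ z ∈ V j, z ∈ V i := by
      intro z hz
      obtain ⟨num, den, hden, heq, hne'⟩ := hfrac z
      have hi' : ev i den ≠ 0 := fun h0 => hne' j hz (RingHom.mem_ker.1 (hle h0))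
      have := mul_mem (hR.1 num.2 i) (hinv i ⟨den, hR.1 den.2 i⟩ hi')
      rwa [heq, mul_assoc, mul_inv_cancel₀ hden, mul_one] at this
    refine hne hij (le_antisymm (fun f hf => ?_) hji)
    by_contra hfj
    have hf0 : f ≠ 0 := fun h0 => hfj (h0 ▸ (V j).zero_mem)
    obtain ⟨c, hc, hc'⟩ := hscale j f hf0
    have hc0 : c ≠ 0 := by
      rintro rfl
      refine hc' ?_
      rw [show (⟨(0 : K) • f, hc⟩ : V j) = 0 from Subtype.ext (zero_smul K f), map_zero]
    have h1 : f * (c • f)⁻¹ ∈ V i := mul_mem hf (hji _ (hinv j ⟨c • f, hc⟩ hc'))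
    rw [Algebra.smul_def, mul_inv, mul_left_comm, mul_inv_cancel₀ hf0, mul_one, ← map_inv₀] at h1
    refine hfj ?_
    have h2 := mul_mem ((hV j _).2 ((hV i _).1 h1)) hc
    rwa [Algebra.smul_def, ← mul_assoc, ← map_mul, inv_mul_cancel₀ hc0, map_one, one_mul] at h2
  -- reductions from the intersection are surjective
  have hevsurj : ∀ i, Function.Surjective (ev i) := by
    intro i g
    obtain ⟨z, rfl⟩ := hφ i g
    obtain ⟨num, den, hden, heq, hne'⟩ := hfrac z
    obtain ⟨m, hm, hmj⟩ : ∃ m : R, ev i m = 0 ∧ ∀ j, j ≠ i → ev j m ≠ 0 := by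
      by_contra hall
      push Not at hall
      obtain ⟨j, hj, hle⟩ := (Ideal.subset_union_prime (s := Finset.univ.erase i)
        (f := fun j => RingHom.ker (ev j)) i i (fun j _ _ _ => hker j)).1
        (show (RingHom.ker (ev i) : Set R) ⊆ _ from fun x hx => by
          obtain ⟨j, hj, hj'⟩ := hall x hx
          exact Set.mem_iUnion₂.2 ⟨j, Finset.mem_coe.2 (Finset.mem_erase.2 ⟨hj, Finset.mem_univ j⟩),
            hj'⟩)
      exact hincomp i j (Finset.ne_of_mem_erase hj).symm hle
    obtain ⟨a, ha⟩ := havoid fun _ => -((den : F) * (m : F)⁻¹)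
    set y : F := den + algebraMap K F a * m with hy
    have hymem : y ∈ R := add_mem den.2
      (mul_mem (hR.2 fun j => (hV j a).2 a.2) m.2)
    have hyne : ∀ j, ev j ⟨y, hymem⟩ ≠ 0 := by
      intro j
      have hsplit : (⟨y, hymem⟩ : R) = den + ⟨_, hR.2 fun j => (hV j a).2 a.2⟩ * m :=
        Subtype.ext rfl
      rcases eq_or_ne j i with rfl | hj
      · rw [hsplit, map_add, map_mul, hm, mul_zero, add_zero]
        exact hne' j z.2
      · have hmF : (m : F) ≠ 0 := fun h0 => hmj j hj (by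
          rw [show m = 0 from Subtype.ext h0, map_zero])
        have hS : -((den : F) * (m : F)⁻¹) ∈ V j :=
          neg_mem (mul_mem (hR.1 den.2 j) (hinv j ⟨m, hR.1 m.2 j⟩ (hmj j hj)))
        have hprod : (⟨y, hR.1 hymem j⟩ : V j)
            = -(⟨m, hR.1 m.2 j⟩ * ⟨_, sub_mem hS ((hV j a).2 a.2)⟩) := by
          refine Subtype.ext ?_
          show y = -((m : F) * (-((den : F) * (m : F)⁻¹) - algebraMap K F a))
          rw [hy]
          field_simp
          ring
        rw [hev, hprod, map_neg, map_mul, neg_ne_zero]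
        exact mul_ne_zero (hmj j hj) (ha j hS)
    have hyinv : y⁻¹ ∈ R := hR.2 fun j => hinv j ⟨y, hR.1 hymem j⟩ (hyne j)
    have hy0 : y ≠ 0 := fun h0 => hyne i (by
      rw [show (⟨y, hymem⟩ : R) = 0 from Subtype.ext h0, map_zero])
    refine ⟨num * ⟨y⁻¹, hyinv⟩, ?_⟩
    have hyi : ev i ⟨y, hymem⟩ = ev i den := by
      rw [show (⟨y, hymem⟩ : R) = den + ⟨_, hR.2 fun j => (hV j a).2 a.2⟩ * m from Subtype.ext rfl,
        map_add, map_mul, hm, mul_zero, add_zero]
    refine mul_right_cancel₀ (hyne i) ?_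
    rw [← map_mul, mul_assoc, show (⟨y⁻¹, hyinv⟩ : R) * ⟨y, hymem⟩ = 1 from
      Subtype.ext (inv_mul_cancel₀ hy0), mul_one, hyi, hev, hev, ← map_mul]
    exact congrArg _ (Subtype.ext heq)
  -- Chinese remainder
  choose g hg using fun i => hevsurj i (h i)
  obtain ⟨f, hf⟩ := Ideal.exists_forall_sub_mem_ideal (I := fun i => RingHom.ker (ev i))
    (fun i j hij => Ideal.isCoprime_iff_sup_eq.2 <|
      (RingHom.ker_isMaximal_of_surjective (ev i) (hevsurj i)).coprime_of_ne
        (RingHom.ker_isMaximal_of_surjective (ev j) (hevsurj j))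
        fun he => hincomp i j hij he.le) g
  refine ⟨f, hR.1 f.2, fun i => ?_⟩
  have := hf i
  rw [RingHom.mem_ker, map_sub, sub_eq_zero] at this
  rw [← hev, this, hg]

end Fermat.Agent.Bad
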