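/-
The gluing lemma for reduced special fibres: API.

For an `n`-torsion class (`n` prime to the residue characteristic) which is trivial on every
component of the special fibre and extends as a line bundle (`IsGood`), the values of a moving
function at the branches give gluing data; this map is additive, equivariant and injective.
-/
import Fermat.Agent.Bad.GluingDefs
import Fermat.Agent.Bad.BComp
import Fermat.Agent.Bad.BEquiv
import Fermat.Agent.Bad.BGlueInj
import Fermat.Agent.Bad.BMoves
import Fermat.Agent.Bad.GluingCount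
import Fermat.Agent.Bad.GluingLift
import Fermat.Prelude.Def_AlgebraicCurve_BaseChangeGalois
import Mathlib.Algebra.CharP.Defs
import Mathlib.GroupTheory.QuotientGroup.Basic

set_option autoImplicit false

noncomputable section

namespace Fermat.Agent.Bad

open AlgebraicCurve IntermediateField Fermat.Agent.Curve
open MultiReduction

universe uK uF uι uk uFb

variable {K : Type uK} [Field K] {A : ValuationSubring K}
  {F : Type uF} [Field F] [Algebra K F] {ι : Type uι} [Fintype ι]
  {k : Type uk} [Field k] {Fb : ι → Type uFb} [∀ i, Field (Fb i)] [∀ i, Algebra k (Fb i)]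
  [IsAlgClosed K] [IsFunctionFieldOne K F] [∀ i, IsFunctionFieldOne k (Fb i)]
  {R : MultiReduction A F k Fb}

/-! ### Constructing reductions and gluing structures -/

omit [IsFunctionFieldOne K F] [∀ i, IsFunctionFieldOne k (Fb i)] in
/-- Reductions can be prescribed on all components at once when the valuations are distinct. -/
theorem exists_lift_of_pairwise_ne (π : A →+* k) (hπ : Function.Surjective π)
    (V : ι → ValuationSubring F) (hV : ∀ (i : ι) (a : K), algebraMap K F a ∈ V i ↔ a ∈ A)
    (φ : ∀ i, V i →+* Fb i) (hφ : ∀ i, Function.Surjective (φ i))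
    (hscale : ∀ (i : ι) (f : F), f ≠ 0 → ∃ c : K, ∃ h : c • f ∈ V i, φ i ⟨c • f, h⟩ ≠ 0)
    (hne : Pairwise fun i j => V i ≠ V j) (h : ∀ i, Fb i) :
    ∃ f : F, ∃ hf : ∀ i, f ∈ V i, ∀ i, φ i ⟨f, hf i⟩ = h i :=
  exists_lift_of_distinct π hπ V hV φ hφ hscale hne h

/-- For `B` with matching values at the points of `Pt`, and as many conditions as the drop of
the Euler characteristic, the special fibre is the seminormal curve glued along `pt`. -/
theorem exists_seminormal_bound (R : MultiReduction A F k Fb)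
    (B : Finset (Σ i, Place k (Fb i))) {Pt : Type} (pt : ↥B → Pt)
    (hpt : Function.Surjective pt) (hreg : ∀ b ∈ B, 0 ≤ b.2.ord (R.xb b.1))
    (hmatch : ∀ (N : ℕ), ∀ h ∈ R.spFibre (R.polarSp N), ∀ b b' : ↥B, pt b = pt b' →
      bval (b : Σ i, Place k (Fb i)) h = bval (b' : Σ i, Place k (Fb i)) h)
    (hcount : (B.card : ℤ) - Nat.card Pt
      = (∑ i, (1 - (genusFF k (Fb i) : ℤ))) - (1 - (genusFF K F : ℤ))) :
    ∃ N₀ : ℕ, (∀ N, N₀ ≤ N → ∀ h ∈ R.polarFibre N,
        (∀ b b' : ↥B, pt b = pt b' →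
          bval (b : Σ i, Place k (Fb i)) h = bval (b' : Σ i, Place k (Fb i)) h) →
        h ∈ R.spFibre (R.polarSp N)) ∧
      ∀ d : Pt → k, ∃ N, ∃ h ∈ R.spFibre (R.polarSp N),
        ∀ b : ↥B, bval (b : Σ i, Place k (Fb i)) h = d (pt b) :=
  exists_seminormal_bound_of_count R B pt hpt hreg hmatch hcount

/-- The gluing structure of a seminormal special fibre. -/
def Gluing.ofSeminormal (R : MultiReduction A F k Fb)
    (B : Finset (Σ i, Place k (Fb i))) {Pt : Type} (pt : ↥B → Pt)
    (hpt : Function.Surjective pt) (hreg : ∀ b ∈ B, 0 ≤ b.2.ord (R.xb b.1))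
    (hmeets : ∀ i, ∃ b ∈ B, b.1 = i)
    (hmatch : ∀ (N : ℕ), ∀ h ∈ R.spFibre (R.polarSp N), ∀ b b' : ↥B, pt b = pt b' →
      bval (b : Σ i, Place k (Fb i)) h = bval (b' : Σ i, Place k (Fb i)) h)
    (hcount : (B.card : ℤ) - Nat.card Pt
      = (∑ i, (1 - (genusFF k (Fb i) : ℤ))) - (1 - (genusFF K F : ℤ))) : Gluing R where
  B := B
  Pt := Pt
  pt := pt
  regular := hreg
  meets := hmeets
  order := 1
  bound := (exists_seminormal_bound R B pt hpt hreg hmatch hcount).choose
  matched := hmatch
  conductor N hN h hh hvan :=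
    (exists_seminormal_bound R B pt hpt hreg hmatch hcount).choose_spec.1 N hN h hh
      fun b b' _ => by
        haveI := R.isAlgClosed_residue
        rw [bval_eq_zero_of_vanishesAt le_rfl (hvan b b.2),
          bval_eq_zero_of_vanishesAt le_rfl (hvan b' b'.2)]
  realise := (exists_seminormal_bound R B pt hpt hreg hmatch hcount).choose_spec.2
  saturated N M hN h hh hhN :=
    (exists_seminormal_bound R B pt hpt hreg hmatch hcount).choose_spec.1 N hN h hhN
      (hmatch M h hh)

/-- Branches glued by every function in the special fibres of the spaces `polarSp N`. -/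
def glueSetoid (R : MultiReduction A F k Fb) (B : Finset (Σ i, Place k (Fb i))) : Setoid ↥B where
  r b b' := ∀ (N : ℕ), ∀ h ∈ R.spFibre (R.polarSp N),
    bval (b : Σ i, Place k (Fb i)) h = bval (b' : Σ i, Place k (Fb i)) h
  iseqv :=
    { refl := fun _ _ _ _ => rfl
      symm := fun hb N h hh => (hb N h hh).symm
      trans := fun hb hb' N h hh => (hb N h hh).trans (hb' N h hh) }

open Classical in
/-- The point below a branch, numbered. -/
def gluePt (R : MultiReduction A F k Fb) (B : Finset (Σ i, Place k (Fb i))) (b : ↥B) :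
    Fin (Fintype.card (Quotient (glueSetoid R B))) :=
  Fintype.equivFin (Quotient (glueSetoid R B)) (Quotient.mk _ b)

theorem gluePt_eq_iff (B : Finset (Σ i, Place k (Fb i))) {b b' : ↥B} :
    gluePt R B b = gluePt R B b' ↔ ∀ (N : ℕ), ∀ h ∈ R.spFibre (R.polarSp N),
      bval (b : Σ i, Place k (Fb i)) h = bval (b' : Σ i, Place k (Fb i)) h := by
  unfold gluePt
  rw [Equiv.apply_eq_iff_eq]
  exact Quotient.eq (r := glueSetoid R B)

theorem exists_vanishing_bound (R : MultiReduction A F k Fb)
    (B : Finset (Σ i, Place k (Fb i))) (hreg : ∀ b ∈ B, 0 ≤ b.2.ord (R.xb b.1))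
    (hZ : ∃ N₁, ∀ N, N₁ ≤ N → ∀ h ∈ R.polarFibre N,
      (∀ b ∈ B, VanishesAt b 1 h) → h ∈ R.spFibre (R.polarSp N)) :
    (B.card : ℤ) - Nat.card (Quotient (glueSetoid R B))
      = (∑ i, (1 - (genusFF k (Fb i) : ℤ))) - (1 - (genusFF K F : ℤ)) :=
  card_sub_eq_of_vanishing R B (Quotient.mk (glueSetoid R B)) Quotient.mk_surjective hreg
    (fun _ _ => Quotient.eq (r := glueSetoid R B)) hZ

/-- The gluing structure of a special fibre containing every tuple vanishing on `B`
(ordinary multiple points): the points are the classes of glued branches. -/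
def Gluing.ofVanishing (R : MultiReduction A F k Fb)
    (B : Finset (Σ i, Place k (Fb i))) (hreg : ∀ b ∈ B, 0 ≤ b.2.ord (R.xb b.1))
    (hmeets : ∀ i, ∃ b ∈ B, b.1 = i)
    (hZ : ∃ N₁, ∀ N, N₁ ≤ N → ∀ h ∈ R.polarFibre N,
      (∀ b ∈ B, VanishesAt b 1 h) → h ∈ R.spFibre (R.polarSp N)) : Gluing R :=
  Gluing.ofSeminormal R B (gluePt R B)
    (by
      intro p
      classical
      obtain ⟨b, hb⟩ := Quotient.mk_surjective ((Fintype.equivFin _).symm p)
      exact ⟨b, by rw [gluePt, hb, Equiv.apply_symm_apply]⟩)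
    hreg hmeets
    (fun N h hh b b' hbb' => (gluePt_eq_iff B).1 hbb' N h hh)
    (by rw [Nat.card_fin, ← @Nat.card_eq_fintype_card]; exact exists_vanishing_bound R B hreg hZ)

/-- The special fibre is seminormal with singular points `pt`: the number of gluing conditions
is the drop of the Euler characteristic. -/
structure Gluing.IsSeminormal (G : Gluing R) : Prop where
  pt_surjective : Function.Surjective G.pt
  count : (G.B.card : ℤ) - Nat.card G.Pt
    = (∑ i, (1 - (genusFF k (Fb i) : ℤ))) - (1 - (genusFF K F : ℤ))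

theorem Gluing.ofSeminormal_isSeminormal (R : MultiReduction A F k Fb)
    (B : Finset (Σ i, Place k (Fb i))) {Pt : Type} (pt : ↥B → Pt)
    (hpt : Function.Surjective pt) (hreg : ∀ b ∈ B, 0 ≤ b.2.ord (R.xb b.1))
    (hmeets : ∀ i, ∃ b ∈ B, b.1 = i)
    (hmatch : ∀ (N : ℕ), ∀ h ∈ R.spFibre (R.polarSp N), ∀ b b' : ↥B, pt b = pt b' →
      bval (b : Σ i, Place k (Fb i)) h = bval (b' : Σ i, Place k (Fb i)) h)
    (hcount : (B.card : ℤ) - Nat.card Pt
      = (∑ i, (1 - (genusFF k (Fb i) : ℤ))) - (1 - (genusFF K F : ℤ))) :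
    (Gluing.ofSeminormal R B pt hpt hreg hmeets hmatch hcount).IsSeminormal :=
  ⟨hpt, hcount⟩

theorem Gluing.ofVanishing_isSeminormal (R : MultiReduction A F k Fb)
    (B : Finset (Σ i, Place k (Fb i))) (hreg : ∀ b ∈ B, 0 ≤ b.2.ord (R.xb b.1))
    (hmeets : ∀ i, ∃ b ∈ B, b.1 = i)
    (hZ : ∃ N₁, ∀ N, N₁ ≤ N → ∀ h ∈ R.polarFibre N,
      (∀ b ∈ B, VanishesAt b 1 h) → h ∈ R.spFibre (R.polarSp N)) :
    (Gluing.ofVanishing R B hreg hmeets hZ).IsSeminormal :=
  Gluing.ofSeminormal_isSeminormal R B _ _ hreg hmeets _ _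

/-! ### Normal forms and good classes -/

/-- A class with a normal form: `n`-torsion and trivial on every component. -/
def IsComponentTrivial (R : MultiReduction A F k Fb) (n : ℕ) (c : Pic0 K F) : Prop :=
  ∃ (D : Divisor.degZero (K := K) (F := F)) (f : F),
    Pic0.mk D = c ∧ NormalForm R n (D : Divisor K F) f

theorem IsComponentTrivial.mem_torsion {n : ℕ} {c : Pic0 K F}
    (h : IsComponentTrivial R n c) : c ∈ Pic0.torsion K F n := by
  obtain ⟨D, f, rfl, hf⟩ := h
  exact BComp.mem_torsion_of_normalForm R hf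

/-- If on every component the reduction of `f`, scaled, is a constant times an `n`-th power, the
class of `D`, `n D = div f`, has a normal form. -/
theorem isComponentTrivial_of_forall_pow (hA : RankLeOne A) {n : ℕ} (hn : (n : k) ≠ 0)
    (D : Divisor.degZero (K := K) (F := F)) {f : F} (hf : f ≠ 0)
    (hD : ∀ v : Place K F, (n : ℤ) * (D : Divisor K F) v = v.ord f)
    (hcomp : ∀ i, ∃ (c : K) (h : c • f ∈ R.V i) (a : k) (g : Fb i), a ≠ 0 ∧ g ≠ 0 ∧
      R.φ i ⟨c • f, h⟩ = algebraMap k (Fb i) a * g ^ n) :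
    IsComponentTrivial R n (Pic0.mk D) :=
  BComp.exists_normalForm_of_forall_pow R hA hn D hf hD hcomp

/-- The group attached to the component `i`: `(Fb i)ˣ` modulo constants and `n`-th powers. -/
abbrev CompGroup (k : Type uk) [Field k] (E : Type uFb) [Field E] [Algebra k E] (n : ℕ) :
    Type _ :=
  Eˣ ⧸ ((Units.map (algebraMap k E : k →* E)).range ⊔ (powMonoidHom n : Eˣ →* Eˣ).range)

variable (R) in
theorem exists_componentMap {n : ℕ} (hn : (n : k) ≠ 0) (i : ι) :
    ∃ Φ : Pic0.torsion K F n →+ Additive (CompGroup k (Fb i) n),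
      ∀ (D : Divisor.degZero (K := K) (F := F)) (f : F) (c : K) (h : c • f ∈ R.V i)
        (u : (Fb i)ˣ) (hD : Pic0.mk D ∈ Pic0.torsion K F n),
        f ≠ 0 → (∀ v : Place K F, (n : ℤ) * (D : Divisor K F) v = v.ord f) →
        R.φ i ⟨c • f, h⟩ = u →
        Φ ⟨Pic0.mk D, hD⟩ = Additive.ofMul (QuotientGroup.mk u) :=
  BComp.exists_componentMap R i

variable (R) in
/-- The image of a torsion class on the component `i`. -/
def componentMap {n : ℕ} (hn : (n : k) ≠ 0) (i : ι) :
    Pic0.torsion K F n →+ Additive (CompGroup k (Fb i) n) :=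
  (exists_componentMap R hn i).choose

theorem componentMap_mk {n : ℕ} (hn : (n : k) ≠ 0) (i : ι)
    (D : Divisor.degZero (K := K) (F := F)) (f : F) (c : K) (h : c • f ∈ R.V i) (u : (Fb i)ˣ)
    (hD : Pic0.mk D ∈ Pic0.torsion K F n) (hf : f ≠ 0)
    (hord : ∀ v : Place K F, (n : ℤ) * (D : Divisor K F) v = v.ord f)
    (hu : R.φ i ⟨c • f, h⟩ = u) :
    componentMap R hn i ⟨Pic0.mk D, hD⟩ = Additive.ofMul (QuotientGroup.mk u) :=
  (exists_componentMap R hn i).choose_spec D f c h u hD hf hord hu

theorem isComponentTrivial_iff (hA : RankLeOne A) {n : ℕ} (hn : (n : k) ≠ 0)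
    (x : Pic0.torsion K F n) :
    IsComponentTrivial R n (x : Pic0 K F) ↔ ∀ i, componentMap R hn i x = 0 := by
  constructor
  · rintro ⟨D, f, hD, hf⟩ i
    obtain ⟨h, u, hu, hu1⟩ := BComp.cls_eq_one_of_normalForm R hf i
    have hm : Pic0.mk D ∈ Pic0.torsion K F n := hD ▸ x.2
    rw [show x = ⟨Pic0.mk D, hm⟩ from Subtype.ext hD.symm,
      componentMap_mk hn i D f 1 h u hm hf.ne_zero hf.ord_eq hu]
    exact congrArg Additive.ofMul hu1
  · exact fun hx => BComp.exists_normalForm_of_componentMap R hA hn x (componentMap R hn)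
      (fun i D f c h u hD hf hord hu => componentMap_mk hn i D f c h u hD hf hord hu) hx

variable (G : Gluing R)

/-- A normal form moves away from the branches as soon as it does so at every single branch. -/
theorem exists_moves_of_forall {n : ℕ} (hn : (n : k) ≠ 0) {D : Divisor K F} {f : F}
    (hf : NormalForm R n D f)
    (h : ∀ b ∈ G.B, ∃ (N : ℕ) (z : F) (hz : z ∈ R.integers), z ∈ R.twistSp D N ∧
      bval b (R.red ⟨z, hz⟩) ≠ 0) :
    ∃ N z, Moves G D N z :=
  exists_moves_of_branchwise G (fun h0 => hn (by simp [h0])) hf fun b hb => by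
    obtain ⟨N, z, hz, hzt, hne⟩ := h b hb
    exact ⟨N, _, ⟨⟨z, hz⟩, hzt, rfl⟩, hne⟩

/-- On a seminormal special fibre every class trivial on the components is good. -/
theorem Gluing.IsSeminormal.exists_moves (hG : G.IsSeminormal) {n : ℕ} (hn : (n : k) ≠ 0)
    {D : Divisor K F} {f : F} (hf : NormalForm R n D f) :
    ∃ N z, Moves G D N z :=
  BMoves.exists_moves_of_count G hG.pt_surjective hG.count (fun h => hn (by simp [h])) hf

theorem Gluing.IsSeminormal.isGood (hG : G.IsSeminormal) {n : ℕ} (hn : (n : k) ≠ 0)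
    {c : Pic0 K F} (hc : IsComponentTrivial R n c) : IsGood G n c := by
  obtain ⟨D, f, hD, hf⟩ := hc
  obtain ⟨N, z, hz⟩ := hG.exists_moves G hn hf
  exact ⟨D, f, N, z, hD, hf, hz⟩

/-- The subgroup generated by the good `n`-torsion classes (all of it is good for `n ≠ 0`). -/
def goodTorsion (n : ℕ) : AddSubgroup (Pic0 K F) :=
  AddSubgroup.closure {c | IsGood G n c}

theorem IsGood.mem_goodTorsion {n : ℕ} {c : Pic0 K F} (hc : IsGood G n c) :
    c ∈ goodTorsion G n :=
  AddSubgroup.subset_closure hc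

theorem mem_goodTorsion_iff {n : ℕ} (hn : n ≠ 0) {c : Pic0 K F} :
    c ∈ goodTorsion G n ↔ IsGood G n c :=
  BEquiv.mem_closure_iff G hn

theorem exists_gluingHom {n : ℕ} (hn : (n : k) ≠ 0) :
    ∃ Ψ : goodTorsion G n →+ Additive G.Data,
      ∀ (D : Divisor.degZero (K := K) (F := F)) (f : F) (N : ℕ) (z : F)
        (_ : NormalForm R n (D : Divisor K F) f) (hz : Moves G (D : Divisor K F) N z)
        (hD : Pic0.mk D ∈ goodTorsion G n), Ψ ⟨Pic0.mk D, hD⟩ = G.mkData hz.values :=
  BEquiv.exists_gluingHom G (fun h => hn (by simp [h]))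

/-- The gluing data of a good class: the values of a moving function at the branches. -/
def gluingHom {n : ℕ} (hn : (n : k) ≠ 0) : goodTorsion G n →+ Additive G.Data :=
  (exists_gluingHom G hn).choose

theorem gluingHom_mk {n : ℕ} (hn : (n : k) ≠ 0) (D : Divisor.degZero (K := K) (F := F))
    (f : F) (N : ℕ) (z : F) (hf : NormalForm R n (D : Divisor K F) f)
    (hz : Moves G (D : Divisor K F) N z) (hD : Pic0.mk D ∈ goodTorsion G n) :
    gluingHom G hn ⟨Pic0.mk D, hD⟩ = G.mkData hz.values :=
  (exists_gluingHom G hn).choose_spec D f N z hf hz hD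

/-- The gluing lemma: a good class is determined by its gluing data. -/
theorem gluingHom_injective (hA : RankLeOne A) (q : ℕ) [Fact q.Prime] [CharP k q]
    {n : ℕ} (hn : (n : k) ≠ 0) : Function.Injective (gluingHom G hn) := by
  rw [injective_iff_map_eq_zero]
  rintro ⟨c, hc⟩ h0
  obtain ⟨D, f, N, z, rfl, hf, hz⟩ := (mem_goodTorsion_iff G (fun h => hn (by simp [h]))).1 hc
  rw [gluingHom_mk G hn D f N z hf hz] at h0
  have := BGlue.mem_principal_of_mkData_eq_zero hA q hn hf hz h0
  exact Subtype.ext ((QuotientAddGroup.eq_zero_iff D).2 (AddSubgroup.mem_addSubgroupOf.2 this))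

/-! ### Equivariance -/

variable (R) in
/-- A semilinear automorphism of `F` permuting the components of the special fibre. -/
structure ReductionAut where
  /-- the automorphism -/
  g : SemilinearAut K F
  mem_A_iff : ∀ a : K, SemilinearAut.baseAut g a ∈ A ↔ a ∈ A
  /-- its action on the residual constants -/
  σk : k ≃+* k
  π_apply : ∀ a : A,
    R.π ⟨SemilinearAut.baseAut g a, (mem_A_iff a).2 a.2⟩ = σk (R.π a)
  /-- its action on the components -/
  τ : ι ≃ ι
  mem_V_iff : ∀ i (f : F), g • f ∈ R.V (τ i) ↔ f ∈ R.V i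
  /-- its action on the residual function fields -/
  θ : ∀ i, Fb i ≃+* Fb (τ i)
  θ_algebraMap : ∀ i (a : k), θ i (algebraMap k (Fb i) a) = algebraMap k (Fb (τ i)) (σk a)
  φ_smul : ∀ i (f : R.V i),
    R.φ (τ i) ⟨g • (f : F), (mem_V_iff i f).2 f.2⟩ = θ i (R.φ i f)
  smul_poleX : g • R.poleX = R.poleX

namespace ReductionAut

/-- The place `θ i v` of the component `τ i`. -/
def mapPlace (S : ReductionAut R) (i : ι) (v : Place k (Fb i)) : Place k (Fb (S.τ i)) where
  toValuationSubring := v.toValuationSubring.comap (S.θ i).symm.toRingHom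
  algebraMap_mem' a := by
    rw [ValuationSubring.mem_comap]
    have h : (S.θ i).symm (algebraMap k (Fb (S.τ i)) a)
        = algebraMap k (Fb i) (S.σk.symm a) := by
      apply (S.θ i).injective
      rw [RingEquiv.apply_symm_apply, S.θ_algebraMap, RingEquiv.apply_symm_apply]
    exact h ▸ v.algebraMap_mem' _
  ne_top' h := v.ne_top' <| by
    ext f
    have h1 : S.θ i f ∈ v.toValuationSubring.comap (S.θ i).symm.toRingHom :=
      h ▸ ValuationSubring.mem_top _
    simpa [ValuationSubring.mem_comap] using h1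
  isPrincipalIdealRing' := by
    let e : v.toValuationSubring ≃+* v.toValuationSubring.comap (S.θ i).symm.toRingHom :=
      { toFun := fun f => ⟨S.θ i f, by simp [ValuationSubring.mem_comap]⟩
        invFun := fun f => ⟨(S.θ i).symm f, f.2⟩
        left_inv := fun f => by ext; simp
        right_inv := fun f => by ext; simp
        map_mul' := fun a b => Subtype.ext (map_mul (S.θ i) (a : Fb i) b)
        map_add' := fun a b => Subtype.ext (map_add (S.θ i) (a : Fb i) b) }
    exact IsPrincipalIdealRing.of_surjective e e.surjective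

/-- The branch `b` mapped to the component `τ b.1`. -/
def mapBranch (S : ReductionAut R) (b : Σ i, Place k (Fb i)) : Σ i, Place k (Fb i) :=
  ⟨S.τ b.1, S.mapPlace b.1 b.2⟩

end ReductionAut

/-- `S` respects the branches and points of `G`. -/
structure ReductionAut.Preserves (S : ReductionAut R) where
  /-- the permutation of the branches -/
  e : ↥G.B ≃ ↥G.B
  coe_e : ∀ b : ↥G.B, (e b : Σ i, Place k (Fb i)) = S.mapBranch b
  pt_compat : ∀ b b' : ↥G.B, G.pt b = G.pt b' → G.pt (e b) = G.pt (e b')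

/-- The action on functions on the branches. -/
def ReductionAut.Preserves.onValues {S : ReductionAut R} (P : S.Preserves G)
    (γ : ↥G.B → kˣ) : ↥G.B → kˣ :=
  fun b => Units.map (S.σk : k →* k) (γ (P.e.symm b))

theorem ReductionAut.Preserves.smul_mem_goodTorsion {S : ReductionAut R} (P : S.Preserves G)
    {n : ℕ} (hn : (n : k) ≠ 0) {c : Pic0 K F} (hc : c ∈ goodTorsion G n) :
    S.g • c ∈ goodTorsion G n :=
  BEquiv.smul_mem_closure G S.g S.σk S.τ S.θ S.θ_algebraMap S.mem_V_iff S.φ_smul S.smul_poleX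
    S.mapPlace (fun _ _ => rfl) P.e P.coe_e (fun h => hn (by simp [h])) hc

/-- Equivariance of the gluing data. -/
theorem ReductionAut.Preserves.gluingHom_smul {S : ReductionAut R} (P : S.Preserves G)
    {n : ℕ} (hn : (n : k) ≠ 0) {c : Pic0 K F} (hc : c ∈ goodTorsion G n) {γ : ↥G.B → kˣ}
    (hγ : gluingHom G hn ⟨c, hc⟩ = G.mkData γ) :
    gluingHom G hn ⟨S.g • c, P.smul_mem_goodTorsion G hn hc⟩ = G.mkData (P.onValues G γ) :=
  BEquiv.gluing_smul G S.g S.σk S.τ S.θ S.θ_algebraMap S.mem_V_iff S.φ_smul S.smul_poleX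
    S.mapPlace (fun _ _ => rfl) P.e P.coe_e (fun h => hn (by simp [h])) P.pt_compat
    (gluingHom G hn) (fun D f N z hf hz hD => gluingHom_mk G hn D f N z hf hz hD) hc hγ _

/-! ### Automorphisms acting trivially on the special fibre -/

variable (R) in
/-- `g` fixes the residual constants and all residual functions, and the pole divisor of `x`. -/
structure IsInertial (g : SemilinearAut K F) : Prop where
  valuation_eq : ∀ a : K, A.valuation (SemilinearAut.baseAut g a) = A.valuation a
  π_eq : ∀ a : A, ∃ h : SemilinearAut.baseAut g (a : K) ∈ A, R.π ⟨_, h⟩ = R.π a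
  φ_eq : ∀ i (f : R.V i), ∃ h : g • (f : F) ∈ R.V i, R.φ i ⟨_, h⟩ = R.φ i f
  smul_poleX : g • R.poleX = R.poleX

/-- An automorphism of the constants stabilising `A`, all of whose orbits are finite, preserves
the valuation. -/
theorem valuation_eq_of_periodic (σ : K ≃+* K) (hA : ∀ a : K, σ a ∈ A ↔ a ∈ A)
    (hper : ∀ a : K, ∃ m : ℕ, 0 < m ∧ (σ : K → K)^[m] a = a) (a : K) :
    A.valuation (σ a) = A.valuation a :=
  BComp.valuation_eq_of_periodic σ hA hper a

/-- `g • c - c` is trivial on all components for inertial `g`. -/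
theorem IsInertial.isComponentTrivial_smul_sub {g : SemilinearAut K F} (hg : IsInertial R g)
    {n : ℕ} (hn : (n : k) ≠ 0) {c : Pic0 K F} (hc : c ∈ Pic0.torsion K F n) :
    IsComponentTrivial R n (g • c - c) :=
  BComp.exists_normalForm_smul_sub R hg.valuation_eq hg.φ_eq hc

/-- Inertial automorphisms fix every good class. -/
theorem IsInertial.smul_eq_self (hA : RankLeOne A) (q : ℕ) [Fact q.Prime] [CharP k q]
    {g : SemilinearAut K F} (hg : IsInertial R g) {n : ℕ} (hn : (n : k) ≠ 0) {c : Pic0 K F}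
    (hc : c ∈ goodTorsion G n) : g • c = c :=
  BEquiv.smul_eq_self G hA q hg.φ_eq hg.smul_poleX hn hc

/-- Unipotence: for a seminormal special fibre `(h - 1)(g - 1) = 0` on torsion prime to the
residue characteristic. -/
theorem IsInertial.smul_sub_smul_sub (hA : RankLeOne A) (q : ℕ) [Fact q.Prime] [CharP k q]
    (hG : G.IsSeminormal) {g h : SemilinearAut K F} (hg : IsInertial R g) (hh : IsInertial R h)
    {n : ℕ} (hn : (n : k) ≠ 0) {c : Pic0 K F} (hc : c ∈ Pic0.torsion K F n) :
    h • (g • c - c) = g • c - c :=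
  hh.smul_eq_self G hA q hn
    (hG.isGood G hn (hg.isComponentTrivial_smul_sub hn hc)).mem_goodTorsion

end Fermat.Agent.Bad

end
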