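/-
Automorphisms acting on the residual constants by a power map and fixing the glued branches act
by that power on the gluing part.
-/
import Fermat.Agent.Bad.Gluing

set_option autoImplicit false

noncomputable section

namespace Fermat.Agent.Bad

open AlgebraicCurve IntermediateField Fermat.Agent.Curve
open MultiReduction

universe uK uF uι uk uFb

variable {K : Type uK} [Field K] {A : ValuationSubring K}
  {F : Type uF} [Field F] [Algebra K F] {ι : Type uι} [Fintype ι]
  {k : Type uk} [Field k] {Fb : ι → Type uFb} [∀ i, Field (Fb i)] [∀ i, Algebra k (Fb i)]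
  [IsAlgClosed K] [IsFunctionFieldOne K F] [∀ i, IsFunctionFieldOne k (Fb i)]
  {R : MultiReduction A F k Fb} {G : Gluing R}

namespace ReductionAut

omit [IsAlgClosed K] in
/-- The map on branches is injective. -/
theorem mapBranch_injective (S : ReductionAut R) : Function.Injective S.mapBranch := by
  rintro ⟨i, v⟩ ⟨j, w⟩ h
  obtain rfl : i = j := S.τ.injective (congrArg Sigma.fst h)
  have h2 : S.mapPlace i v = S.mapPlace i w := eq_of_heq (Sigma.mk.inj h).2
  refine Sigma.ext rfl (heq_of_eq (Place.ext ?_))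
  ext f
  have h3 := congrArg (fun u : Place k (Fb (S.τ i)) => S.θ i f ∈ u.toValuationSubring) h2
  simpa [mapPlace, ValuationSubring.mem_comap] using h3

/-- An automorphism mapping the branches to themselves and fixing the glued ones respects the
gluing. -/
def preservesOfFixed (S : ReductionAut R) (hB : ∀ b ∈ G.B, S.mapBranch b ∈ G.B)
    (hfix : ∀ b b' : ↥G.B, b ≠ b' → G.pt b = G.pt b' →
      S.mapBranch b = (b : Σ i, Place k (Fb i))) :
    S.Preserves G where
  e := Equiv.ofBijective (fun b : ↥G.B => ⟨S.mapBranch b, hB b b.2⟩)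
    ⟨fun b b' h => Subtype.ext (S.mapBranch_injective (congrArg Subtype.val h)),
      Finite.surjective_of_injective fun b b' h =>
        Subtype.ext (S.mapBranch_injective (congrArg Subtype.val h))⟩
  coe_e _ := rfl
  pt_compat b b' h := by
    rcases eq_or_ne b b' with rfl | hne
    · rfl
    · have e1 : (⟨S.mapBranch b, hB b b.2⟩ : ↥G.B) = b := Subtype.ext (hfix b b' hne h)
      have e2 : (⟨S.mapBranch b', hB b' b'.2⟩ : ↥G.B) = b' :=
        Subtype.ext (hfix b' b hne.symm h.symm)
      rw [Equiv.ofBijective_apply, Equiv.ofBijective_apply, e1, e2, h]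

/-- The gluing data of the image under a power automorphism fixing the glued branches. -/
theorem Preserves.mkData_onValues {S : ReductionAut R} (P : S.Preserves G) {Q : ℕ}
    (hpow : ∀ a : k, S.σk a = a ^ Q)
    (hfix : ∀ b b' : ↥G.B, b ≠ b' → G.pt b = G.pt b' → P.e b = b) (γ : ↥G.B → kˣ) :
    G.mkData (P.onValues G γ) = G.mkData (γ ^ Q) := by
  rw [← sub_eq_zero]
  show Additive.ofMul ((QuotientGroup.mk _ : G.Data) / QuotientGroup.mk _) = 0
  rw [← QuotientGroup.mk_div]
  refine (Gluing.mkData_eq_zero_iff G).2 ⟨1,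
    Function.extend G.pt (P.onValues G γ / γ ^ Q) 1, fun b => ?_⟩
  rw [Pi.one_apply, one_mul]
  have hone : ∀ c c' : ↥G.B, c ≠ c' → G.pt c = G.pt c' →
      (P.onValues G γ / γ ^ Q) c = 1 := fun c c' hc hc' => by
    rw [Pi.div_apply, div_eq_one]
    ext
    have : P.e.symm c = c := P.e.symm_apply_eq.2 (hfix c c' hc hc').symm
    simp only [Preserves.onValues, this, Pi.pow_apply, Units.coe_map, Units.val_pow_eq_pow_val]
    exact hpow _
  have hfac : Function.FactorsThrough (P.onValues G γ / γ ^ Q) G.pt := by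
    intro b b' hbb'
    rcases eq_or_ne b b' with rfl | hne
    · rfl
    rw [hone b b' hne hbb', hone b' b hne.symm hbb'.symm]
  exact (hfac.extend_apply 1 b).symm

/-- A power automorphism fixing the glued branches acts by that power on good classes. -/
theorem Preserves.smul_eq_nsmul (hA : RankLeOne A) (p : ℕ) [Fact p.Prime] [CharP k p]
    {S : ReductionAut R} (P : S.Preserves G) {Q : ℕ} (hpow : ∀ a : k, S.σk a = a ^ Q)
    (hfix : ∀ b b' : ↥G.B, b ≠ b' → G.pt b = G.pt b' → P.e b = b)
    {n : ℕ} (hn : (n : k) ≠ 0) {c : Pic0 K F} (hc : c ∈ goodTorsion G n) :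
    S.g • c = Q • c := by
  obtain ⟨γ, hγ⟩ : ∃ γ, gluingHom G hn ⟨c, hc⟩ = G.mkData γ := by
    obtain ⟨γ, hγ⟩ := QuotientGroup.mk_surjective (Additive.toMul (gluingHom G hn ⟨c, hc⟩))
    exact ⟨γ, by rw [Gluing.mkData, hγ]; rfl⟩
  have h1 := P.gluingHom_smul G hn hc hγ
  have h2 : gluingHom G hn (Q • ⟨c, hc⟩) = G.mkData (γ ^ Q) := by rw [map_nsmul, hγ]; rfl
  have h3 := gluingHom_injective G hA p hn
    (h1.trans ((P.mkData_onValues hpow hfix γ).trans h2.symm))
  exact congrArg Subtype.val h3

/-- On a seminormal special fibre this holds for every class trivial on the components. -/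
theorem Preserves.smul_eq_nsmul_of_isComponentTrivial (hA : RankLeOne A) (hG : G.IsSeminormal)
    (p : ℕ) [Fact p.Prime] [CharP k p]
    {S : ReductionAut R} (P : S.Preserves G) {Q : ℕ} (hpow : ∀ a : k, S.σk a = a ^ Q)
    (hfix : ∀ b b' : ↥G.B, b ≠ b' → G.pt b = G.pt b' → P.e b = b)
    {n : ℕ} (hn : (n : k) ≠ 0) {c : Pic0 K F} (hc : IsComponentTrivial R n c) :
    S.g • c = Q • c :=
  P.smul_eq_nsmul hA p hpow hfix hn (hG.isGood G hn hc).mem_goodTorsion

end ReductionAut

end Fermat.Agent.Bad

end
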