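/-
Automorphisms acting on the residual constants by a power map and exchanging the two branches at
each glued point act by minus that power on the gluing part.
-/
import Fermat.Agent.Bad.GluingFrobenius

set_option autoImplicit false

noncomputable section

namespace Fermat.Agent.Bad

open AlgebraicCurve IntermediateField Fermat.Agent.Curve
open MultiReduction

universe uK uF uι uk uFb

variable {K : Type uK} [Field K] {A : ValuationSubring K}
  {F : Type uF} [Field F] [Algebra K F] {ι : Type uι} [Fintype ι]
  {k : Type uk} [Field k] {Fb : ι → Type uFb} [∀ i, Field (Fb i)] [∀ i, Algebra k (Fb i)]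
  [IsAlgClosed K] [IsFunctionFieldOne K F] [∀ i, IsFunctionFieldOne k (Fb i)]
  {R : MultiReduction A F k Fb} {G : Gluing R}

namespace ReductionAut

/-- An automorphism mapping the branches to themselves and exchanging glued ones respects the
gluing. -/
def preservesOfSwap (S : ReductionAut R) (hB : ∀ b ∈ G.B, S.mapBranch b ∈ G.B)
    (hswap : ∀ b b' : ↥G.B, b ≠ b' → G.pt b = G.pt b' →
      S.mapBranch b = (b' : Σ i, Place k (Fb i))) :
    S.Preserves G where
  e := Equiv.ofBijective (fun b : ↥G.B => ⟨S.mapBranch b, hB b b.2⟩)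
    ⟨fun b b' h => Subtype.ext (S.mapBranch_injective (congrArg Subtype.val h)),
      Finite.surjective_of_injective fun b b' h =>
        Subtype.ext (S.mapBranch_injective (congrArg Subtype.val h))⟩
  coe_e _ := rfl
  pt_compat b b' h := by
    rcases eq_or_ne b b' with rfl | hne
    · rfl
    · have e1 : (⟨S.mapBranch b, hB b b.2⟩ : ↥G.B) = b' := Subtype.ext (hswap b b' hne h)
      have e2 : (⟨S.mapBranch b', hB b' b'.2⟩ : ↥G.B) = b :=
        Subtype.ext (hswap b' b hne.symm h.symm)
      exact ((congrArg G.pt e1).trans h.symm).trans (congrArg G.pt e2).symm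

omit [IsAlgClosed K] in
/-- The gluing data of the image under a power automorphism exchanging the glued branches. -/
theorem Preserves.mkData_onValues_swap {S : ReductionAut R} (P : S.Preserves G) {Q : ℕ}
    (hpow : ∀ a : k, S.σk a = a ^ Q)
    (hswap : ∀ b b' : ↥G.B, b ≠ b' → G.pt b = G.pt b' → P.e b = b') (γ : ↥G.B → kˣ) :
    G.mkData (P.onValues G γ) + G.mkData (γ ^ Q) = 0 := by
  rw [← Gluing.mkData_mul]
  refine (Gluing.mkData_eq_zero_iff G).2 ⟨1,
    Function.extend G.pt (P.onValues G γ * γ ^ Q) 1, fun b => ?_⟩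
  rw [Pi.one_apply, one_mul]
  have hfac : Function.FactorsThrough (P.onValues G γ * γ ^ Q) G.pt := by
    intro b b' hbb'
    rcases eq_or_ne b b' with rfl | hne
    · rfl
    have e1 : P.e.symm b = b' := P.e.symm_apply_eq.2 (hswap b' b hne.symm hbb'.symm).symm
    have e2 : P.e.symm b' = b := P.e.symm_apply_eq.2 (hswap b b' hne hbb').symm
    refine Units.ext ?_
    simp only [Pi.mul_apply, Preserves.onValues, e1, e2, Pi.pow_apply, Units.val_mul,
      Units.coe_map, Units.val_pow_eq_pow_val, MonoidHom.coe_coe]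
    refine Eq.trans ?_ (mul_comm _ _)
    exact congr_arg₂ _ (hpow _) (hpow _).symm
  exact (hfac.extend_apply 1 b).symm

/-- A power automorphism exchanging the glued branches acts by minus that power on every class
trivial on the components. -/
theorem Preserves.smul_eq_neg_nsmul_of_isComponentTrivial (hA : RankLeOne A)
    (hG : G.IsSeminormal) (p : ℕ) [Fact p.Prime] [CharP k p]
    {S : ReductionAut R} (P : S.Preserves G) {Q : ℕ} (hpow : ∀ a : k, S.σk a = a ^ Q)
    (hswap : ∀ b b' : ↥G.B, b ≠ b' → G.pt b = G.pt b' → P.e b = b')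
    {n : ℕ} (hn : (n : k) ≠ 0) {c : Pic0 K F} (hc : IsComponentTrivial R n c) :
    S.g • c = -(Q • c) := by
  have hc' : c ∈ goodTorsion G n := (hG.isGood G hn hc).mem_goodTorsion
  obtain ⟨γ, hγ⟩ : ∃ γ, gluingHom G hn ⟨c, hc'⟩ = G.mkData γ := by
    obtain ⟨γ, hγ⟩ := QuotientGroup.mk_surjective (Additive.toMul (gluingHom G hn ⟨c, hc'⟩))
    exact ⟨γ, by rw [Gluing.mkData, hγ]; rfl⟩
  have h1 := P.gluingHom_smul G hn hc' hγ
  have h2 : gluingHom G hn (-(Q • ⟨c, hc'⟩)) = -G.mkData (γ ^ Q) := by
    rw [map_neg, map_nsmul, hγ]; rfl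
  have h3 := gluingHom_injective G hA p hn
    (h1.trans ((eq_neg_of_add_eq_zero_left (P.mkData_onValues_swap hpow hswap γ)).trans h2.symm))
  exact congrArg Subtype.val h3

end ReductionAut

end Fermat.Agent.Bad

end
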