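/-
Component data of the image of a torsion class; the branches which are glued to another branch
carry the whole conductor.
-/
import Fermat.Agent.Bad.GluingSwap
import Fermat.Agent.Bad.GluingFibre

set_option autoImplicit false

noncomputable section

namespace Fermat.Agent.Bad

open AlgebraicCurve IntermediateField Fermat.Agent.Curve
open MultiReduction

universe uK uF uι uk uFb

variable {K : Type uK} [Field K] {A : ValuationSubring K}
  {F : Type uF} [Field F] [Algebra K F] {ι : Type uι} [Fintype ι]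
  {k : Type uk} [Field k] {Fb : ι → Type uFb} [∀ i, Field (Fb i)] [∀ i, Algebra k (Fb i)]
  [IsAlgClosed K] [IsFunctionFieldOne K F] [∀ i, IsFunctionFieldOne k (Fb i)]
  {R : MultiReduction A F k Fb} {G : Gluing R}

namespace ReductionAut

omit [IsAlgClosed K] [∀ i, IsFunctionFieldOne k (Fb i)] in
/-- The place `θ i v` contains `θ i f` exactly when `v` contains `f`. -/
theorem mem_mapPlace_iff (S : ReductionAut R) (i : ι) (v : Place k (Fb i)) (f : Fb i) :
    S.θ i f ∈ (S.mapPlace i v).toValuationSubring ↔ f ∈ v.toValuationSubring := by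
  show S.θ i f ∈ v.toValuationSubring.comap (S.θ i).symm.toRingHom ↔ _
  rw [ValuationSubring.mem_comap]
  show (S.θ i).symm (S.θ i f) ∈ _ ↔ _
  rw [RingEquiv.symm_apply_apply]

/-- The component data of the image of a torsion class. -/
theorem componentMap_smul (S : ReductionAut R) {n : ℕ} (hn : (n : k) ≠ 0) (i : ι)
    (x : Pic0.torsion K F n) :
    ∃ u : (Fb i)ˣ, componentMap R hn i x = Additive.ofMul (QuotientGroup.mk u) ∧
      componentMap R hn (S.τ i) (S.g • x) =
        Additive.ofMul (QuotientGroup.mk (Units.map (S.θ i : Fb i →* Fb (S.τ i)) u)) := by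
  obtain ⟨Dv, hDx⟩ := Pic0.mk_surjective (x : Pic0 K F)
  have hmem : Pic0.mk Dv ∈ Pic0.torsion K F n := hDx ▸ x.2
  obtain rfl : x = ⟨Pic0.mk Dv, hmem⟩ := Subtype.ext hDx.symm
  have h0 : Pic0.mk ((n : ℤ) • Dv) = 0 := Pic0.mem_torsion.1 hmem
  obtain ⟨f, hf, hfD⟩ := AddSubgroup.mem_addSubgroupOf.1 ((QuotientAddGroup.eq_zero_iff _).1 h0)
  have hD : ∀ v : Place K F, (n : ℤ) * (Dv : Divisor K F) v = v.ord f := fun v => by
    rw [← hfD v]; simp
  obtain ⟨c, hc, hc'⟩ := R.exists_scale i f hf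
  have hgf : ∀ v : Place K F,
      (n : ℤ) * (SemilinearAut.degZeroSMulHom S.g Dv : Divisor K F) v = v.ord (S.g • f) :=
    fun v => by
    obtain ⟨w, rfl⟩ : ∃ w, S.g • w = v := ⟨S.g⁻¹ • v, smul_inv_smul S.g v⟩
    rw [SemilinearAut.coe_degZeroSMulHom, SemilinearAut.divisor_smul_apply_smul,
      SemilinearAut.ord_smul, hD w]
  have e : SemilinearAut.baseAut S.g c • S.g • f = S.g • (c • f) := by
    rw [Algebra.smul_def c f, smul_mul', SemilinearAut.smul_algebraMap, Algebra.smul_def]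
  have hmem' : Pic0.mk (SemilinearAut.degZeroSMulHom S.g Dv) ∈ Pic0.torsion K F n :=
    SemilinearAut.smul_mem_torsion S.g hmem
  have hgc : SemilinearAut.baseAut S.g c • S.g • f ∈ R.V (S.τ i) :=
    e ▸ (S.mem_V_iff i _).2 hc
  refine ⟨Units.mk0 _ hc', componentMap_mk hn i Dv f c hc _ hmem hf hD rfl, ?_⟩
  exact componentMap_mk hn (S.τ i) (SemilinearAut.degZeroSMulHom S.g Dv) (S.g • f)
    (SemilinearAut.baseAut S.g c) hgc
    (Units.map (S.θ i : Fb i →* Fb (S.τ i)) (Units.mk0 _ hc')) hmem' (by simpa using hf) hgf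
    ((congrArg (R.φ (S.τ i)) (Subtype.ext e)).trans (S.φ_smul i ⟨c • f, hc⟩))

end ReductionAut

variable (R)

open Classical in
/-- The branches of `B` which are glued to another branch of `B`. -/
def gluedBranches (B : Finset (Σ i, Place k (Fb i))) : Finset (Σ i, Place k (Fb i)) :=
  B.filter fun b => ∃ b' ∈ B, b' ≠ b ∧
    ∀ (N : ℕ), ∀ h ∈ R.spFibre (R.polarSp N), bval b h = bval b' h

omit [IsAlgClosed K] [∀ i, IsFunctionFieldOne k (Fb i)] in
theorem gluedBranches_subset (B : Finset (Σ i, Place k (Fb i))) : gluedBranches R B ⊆ B := by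
  classical exact Finset.filter_subset _ _

omit [IsAlgClosed K] [∀ i, IsFunctionFieldOne k (Fb i)] in
theorem mem_gluedBranches {B : Finset (Σ i, Place k (Fb i))} {b : Σ i, Place k (Fb i)} :
    b ∈ gluedBranches R B ↔ b ∈ B ∧ ∃ b' ∈ B, b' ≠ b ∧
      ∀ (N : ℕ), ∀ h ∈ R.spFibre (R.polarSp N), bval b h = bval b' h := by
  classical
  simp [gluedBranches]

/-- The glued branches carry the whole conductor, and meet every component. -/
theorem gluedBranches_spec [Nontrivial ι] (hA : RankLeOne A) (B : Finset (Σ i, Place k (Fb i)))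
    (hreg : ∀ b ∈ B, 0 ≤ b.2.ord (R.xb b.1)) (hmeets : ∀ i, ∃ b ∈ B, b.1 = i)
    (hZ : ∃ N₁, ∀ N, N₁ ≤ N → ∀ h ∈ R.polarFibre N,
      (∀ b ∈ B, VanishesAt b 1 h) → h ∈ R.spFibre (R.polarSp N)) :
    (∀ b ∈ gluedBranches R B, 0 ≤ b.2.ord (R.xb b.1)) ∧
      (∀ i, ∃ b ∈ gluedBranches R B, b.1 = i) ∧
      ∃ N₁, ∀ N, N₁ ≤ N → ∀ h ∈ R.polarFibre N,
        (∀ b ∈ gluedBranches R B, VanishesAt b 1 h) → h ∈ R.spFibre (R.polarSp N) := by
  classical
  have := R.isAlgClosed_residue
  obtain ⟨N₀, hN₀, -⟩ := exists_seminormal_bound_of_count R B (Quotient.mk (glueSetoid R B))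
    Quotient.mk_surjective hreg
    (fun N h hh b b' hbb' => (Quotient.exact hbb' : glueSetoid R B b b') N h hh)
    (exists_vanishing_bound R B hreg hZ)
  have hpair : ∀ b b' : ↥B, glueSetoid R B b b' → b ≠ b' →
      (b : Σ i, Place k (Fb i)) ∈ gluedBranches R B ∧
        (b' : Σ i, Place k (Fb i)) ∈ gluedBranches R B := fun b b' h hne =>
    ⟨(mem_gluedBranches R).2 ⟨b.2, b', b'.2, fun e => hne (Subtype.ext e.symm), h⟩,
      (mem_gluedBranches R).2 ⟨b'.2, b, b.2, fun e => hne (Subtype.ext e),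
        (glueSetoid R B).symm h⟩⟩
  refine ⟨fun b hb => hreg b (gluedBranches_subset R B hb), fun i => ?_, N₀, fun N hN h hh hvan =>
    hN₀ N hN h hh fun b b' hbb' => ?_⟩
  · by_contra hno
    push Not at hno
    obtain ⟨j, hj⟩ := exists_ne i
    let c : ι → k := fun l => if l = i then 1 else 0
    have hmem : BGlue.constTuple c ∈ R.spFibre (R.polarSp N₀) := by
      refine hN₀ N₀ le_rfl _ (BGlue.constTuple_mem_polarFibre R c N₀) fun b b' hbb' => ?_
      rcases eq_or_ne b b' with rfl | hne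
      · rfl
      obtain ⟨h1, h2⟩ := hpair b b' (Quotient.exact hbb') hne
      simp only [bval, BGlue.constTuple, placeValue_algebraMap]
      simp only [c, if_neg (hno _ h1), if_neg (hno _ h2)]
    have := BGlue.constTuple_eq_const (R := R) hA (Gluing.ofVanishing R B hreg hmeets hZ) hmem i j
    simp [c, hj] at this
  · rcases eq_or_ne b b' with rfl | hne
    · rfl
    obtain ⟨h1, h2⟩ := hpair b b' (Quotient.exact hbb') hne
    rw [bval_eq_zero_of_vanishesAt le_rfl (hvan _ h1), bval_eq_zero_of_vanishesAt le_rfl (hvan _ h2)]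

end Fermat.Agent.Bad

end
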